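import Fermat.Prelude.Def_FLTPrelim_FreyPackage
import Mathlib.NumberTheory.Padics.PadicVal.Basic
import Mathlib.Tactic

/-!
# The integral model of the Frey curve

Its discriminant, `c₄` and bad primes.
-/

set_option autoImplicit false

namespace Fermat.Agent.MultRed

open WeierstrassCurve

variable (P : FreyPackage)

lemma two_dvd_frey_b : (2 : ℤ) ∣ P.b :=
  (ZMod.intCast_zmod_eq_zero_iff_dvd P.b 2).1 P.hb2

lemma sixteen_dvd_frey_bpow : (16 : ℤ) ∣ P.b ^ P.p := by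
  have h1 : ((2 : ℤ) ^ 4) ∣ P.b ^ 4 := pow_dvd_pow_of_dvd (two_dvd_frey_b P) 4
  have h2 : P.b ^ 4 ∣ P.b ^ P.p := pow_dvd_pow _ (by have := P.hp5; omega)
  exact (show (16 : ℤ) = 2 ^ 4 by norm_num) ▸ h1.trans h2

lemma four_dvd_frey_a₂num : (4 : ℤ) ∣ P.b ^ P.p - 1 - P.a ^ P.p := by
  have hb : (4 : ℤ) ∣ P.b ^ P.p := (show (4 : ℤ) ∣ 16 by norm_num).trans (sixteen_dvd_frey_bpow P)
  have ha : ((1 + P.a ^ P.p : ℤ) : ZMod 4) = 0 := by
    obtain ⟨k, hk⟩ := P.hp_odd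
    have h9 : (3 : ZMod 4) ^ 2 = 1 := by decide
    rw [hk]
    push_cast
    rw [P.ha4, pow_succ, pow_mul, h9, one_pow, one_mul]
    decide
  have ha' : (4 : ℤ) ∣ 1 + P.a ^ P.p := by
    exact_mod_cast (ZMod.intCast_zmod_eq_zero_iff_dvd _ 4).1 ha
  have := dvd_sub hb ha'
  rwa [← sub_sub] at this

lemma sixteen_dvd_frey_a₄num : (16 : ℤ) ∣ -(P.a ^ P.p) * P.b ^ P.p :=
  (sixteen_dvd_frey_bpow P).mul_left _

/-- The integral model casts to the Frey curve over `ℚ`. -/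
lemma freyCurveInt_map : P.freyCurveInt.map (Int.castRingHom ℚ) = P.freyCurve := by
  obtain ⟨k, hk⟩ := four_dvd_frey_a₂num P
  obtain ⟨m, hm⟩ := sixteen_dvd_frey_a₄num P
  have hk' : ((P.b : ℚ) ^ P.p - 1 - (P.a : ℚ) ^ P.p) = 4 * k := by exact_mod_cast hk
  have hm' : (-((P.a : ℚ) ^ P.p) * (P.b : ℚ) ^ P.p) = 16 * m := by exact_mod_cast hm
  ext <;> simp only [WeierstrassCurve.map, FreyPackage.freyCurveInt, FreyPackage.freyCurve,
    map_one, map_zero]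
  · rw [hk, Int.mul_ediv_cancel_left _ (by norm_num), hk']
    simp
  · rw [hm, Int.mul_ediv_cancel_left _ (by norm_num), hm']
    simp

/-- `256 Δ = (abc) ^ (2p)`. -/
lemma freyCurveInt_Δ_mul : 256 * P.freyCurveInt.Δ = (P.a * P.b * P.c) ^ (2 * P.p) := by
  obtain ⟨k, hk⟩ := four_dvd_frey_a₂num P
  obtain ⟨m, hm⟩ := sixteen_dvd_frey_a₄num P
  have ha2 : P.freyCurveInt.a₂ = k := by
    show (P.b ^ P.p - 1 - P.a ^ P.p) / 4 = k
    rw [hk, Int.mul_ediv_cancel_left _ (by norm_num)]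
  have ha4 : P.freyCurveInt.a₄ = m := by
    show -(P.a ^ P.p) * P.b ^ P.p / 16 = m
    rw [hm, Int.mul_ediv_cancel_left _ (by norm_num)]
  have h1 : P.freyCurveInt.a₁ = 1 := rfl
  have h3 : P.freyCurveInt.a₃ = 0 := rfl
  have h6 : P.freyCurveInt.a₆ = 0 := rfl
  simp only [WeierstrassCurve.Δ, WeierstrassCurve.b₂, WeierstrassCurve.b₄, WeierstrassCurve.b₆,
    WeierstrassCurve.b₈, h1, h3, h6, ha2, ha4]
  rw [pow_mul', mul_pow, mul_pow, ← P.hFLT]
  have hA : 16 * m = -(P.a ^ P.p) * P.b ^ P.p := hm.symm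
  have hB : 4 * k + 1 = P.b ^ P.p - P.a ^ P.p := by linarith
  calc 256 * (-(1 ^ 2 + 4 * k) ^ 2 *
        (1 ^ 2 * 0 + 4 * k * 0 - 1 * 0 * m + k * 0 ^ 2 - m ^ 2) -
          8 * (2 * m + 1 * 0) ^ 3 - 27 * (0 ^ 2 + 4 * 0) ^ 2 +
          9 * (1 ^ 2 + 4 * k) * (2 * m + 1 * 0) * (0 ^ 2 + 4 * 0))
      = (16 * m) ^ 2 * ((4 * k + 1) ^ 2 - 4 * (16 * m)) := by ring
    _ = _ := by rw [hA, hB]; ring

/-- `c₄ = a^2p + a^p b^p + b^2p`. -/
lemma freyCurveInt_c₄ :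
    P.freyCurveInt.c₄ = (P.a ^ P.p) ^ 2 + P.a ^ P.p * P.b ^ P.p + (P.b ^ P.p) ^ 2 := by
  obtain ⟨k, hk⟩ := four_dvd_frey_a₂num P
  obtain ⟨m, hm⟩ := sixteen_dvd_frey_a₄num P
  have ha2 : P.freyCurveInt.a₂ = k := by
    show (P.b ^ P.p - 1 - P.a ^ P.p) / 4 = k
    rw [hk, Int.mul_ediv_cancel_left _ (by norm_num)]
  have ha4 : P.freyCurveInt.a₄ = m := by
    show -(P.a ^ P.p) * P.b ^ P.p / 16 = m
    rw [hm, Int.mul_ediv_cancel_left _ (by norm_num)]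
  have h1 : P.freyCurveInt.a₁ = 1 := rfl
  have h3 : P.freyCurveInt.a₃ = 0 := rfl
  simp only [WeierstrassCurve.c₄, WeierstrassCurve.b₂, WeierstrassCurve.b₄, h1, h3, ha2, ha4]
  have hA : 16 * m = -(P.a ^ P.p) * P.b ^ P.p := hm.symm
  have hB : 4 * k + 1 = P.b ^ P.p - P.a ^ P.p := by linarith
  calc (1 ^ 2 + 4 * k) ^ 2 - 24 * (2 * m + 1 * 0)
      = (4 * k + 1) ^ 2 - 3 * (16 * m) := by ring
    _ = _ := by rw [hA, hB]; ring

lemma freyCurveInt_Δ_ne_zero : P.freyCurveInt.Δ ≠ 0 := by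
  intro h
  have := freyCurveInt_Δ_mul P
  rw [h, mul_zero, eq_comm, pow_eq_zero_iff (by have := P.hp0; omega)] at this
  exact P.habc0 this

lemma frey_coprime_ab : IsCoprime P.a P.b :=
  Int.isCoprime_iff_gcd_eq_one.2 (by
    have h := P.hgcdab
    rwa [← Int.coe_gcd, Nat.cast_eq_one] at h)

/-- No prime divides both `Δ` and `c₄`. -/
lemma not_dvd_freyCurveInt_c₄ {q : ℕ} (hq : q.Prime) (hΔ : (q : ℤ) ∣ P.freyCurveInt.Δ) :
    ¬ (q : ℤ) ∣ P.freyCurveInt.c₄ := by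
  intro hc
  have hqp : Prime (q : ℤ) := Nat.prime_iff_prime_int.1 hq
  have hab : (q : ℤ) ∣ P.a * P.b * P.c := by
    refine hqp.dvd_of_dvd_pow (n := 2 * P.p) ?_
    rw [← freyCurveInt_Δ_mul]
    exact hΔ.mul_left _
  rw [freyCurveInt_c₄] at hc
  have hu : IsCoprime (P.a ^ P.p) (P.b ^ P.p) := (frey_coprime_ab P).pow
  have key : ∀ x y : ℤ, IsCoprime x y → (q : ℤ) ∣ x → (q : ℤ) ∣ x ^ 2 + x * y + y ^ 2 → False := by
    intro x y hxy hx hs
    have hy2 : (q : ℤ) ∣ y ^ 2 := by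
      have h3 : (q : ℤ) ∣ x * (x + y) := hx.mul_right _
      have := dvd_sub hs h3
      ring_nf at this ⊢
      exact this
    exact hqp.not_isUnit (hxy.isUnit_of_dvd' hx (hqp.dvd_of_dvd_pow hy2))
  rcases hqp.dvd_mul.1 hab with h | h
  · rcases hqp.dvd_mul.1 h with h | h
    · exact key _ _ hu (dvd_pow h P.hp0) hc
    · exact key _ _ hu.symm (dvd_pow h P.hp0) (by
        convert hc using 1; ring)
  · have hcp : (q : ℤ) ∣ P.a ^ P.p + P.b ^ P.p := P.hFLT ▸ dvd_pow h P.hp0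
    have hxy : (q : ℤ) ∣ P.a ^ P.p * P.b ^ P.p := by
      have := dvd_sub (hcp.mul_right (P.a ^ P.p + P.b ^ P.p)) hc
      ring_nf at this ⊢
      exact this
    rcases hqp.dvd_mul.1 hxy with hx | hx
    · exact key _ _ hu hx hc
    · exact key _ _ hu.symm hx (by convert hc using 1; ring)

lemma dvd_freyCurveInt_Δ_iff {q : ℕ} (hq : q.Prime) (hq2 : q ≠ 2) :
    (q : ℤ) ∣ P.freyCurveInt.Δ ↔ (q : ℤ) ∣ P.a * P.b * P.c := by
  have hqp : Prime (q : ℤ) := Nat.prime_iff_prime_int.1 hq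
  constructor
  · intro hΔ
    refine hqp.dvd_of_dvd_pow (n := 2 * P.p) ?_
    rw [← freyCurveInt_Δ_mul]
    exact hΔ.mul_left _
  · intro h
    have := dvd_pow h (show 2 * P.p ≠ 0 by have := P.hp0; omega)
    rw [← freyCurveInt_Δ_mul] at this
    refine (hqp.dvd_mul.1 this).resolve_left fun h256 => ?_
    have h8 : (q : ℤ) ∣ (2 : ℤ) ^ 8 := by norm_num; exact h256
    have := Int.natCast_dvd_natCast.1 (show ((q : ℤ)) ∣ ((2 : ℕ) : ℤ) by
      exact_mod_cast hqp.dvd_of_dvd_pow h8)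
    exact hq2 ((Nat.prime_dvd_prime_iff_eq hq Nat.prime_two).1 this)

lemma padicValInt_freyCurveInt_Δ {q : ℕ} [hq : Fact q.Prime] (hq2 : q ≠ 2) :
    padicValInt q P.freyCurveInt.Δ = 2 * P.p * padicValInt q (P.a * P.b * P.c) := by
  have h := congrArg (padicValInt q) (freyCurveInt_Δ_mul P)
  rw [padicValInt.mul (by norm_num) (freyCurveInt_Δ_ne_zero P)] at h
  have h256 : padicValInt q 256 = 0 := by
    refine padicValInt.eq_zero_of_not_dvd fun hd => hq2 ?_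
    have : q ∣ 2 ^ 8 := by exact_mod_cast hd
    exact (Nat.prime_dvd_prime_iff_eq hq.out Nat.prime_two).1 (hq.out.dvd_of_dvd_pow this)
  have hp : padicValInt q ((P.a * P.b * P.c) ^ (2 * P.p)) =
      2 * P.p * padicValInt q (P.a * P.b * P.c) := by
    simp only [padicValInt, Int.natAbs_pow]
    rw [padicValNat.pow]
  omega

lemma padicValInt_two_freyCurveInt_Δ :
    padicValInt 2 P.freyCurveInt.Δ + 8 = 2 * P.p * padicValInt 2 (P.a * P.b * P.c) := by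
  have h := congrArg (padicValInt 2) (freyCurveInt_Δ_mul P)
  rw [padicValInt.mul (by norm_num) (freyCurveInt_Δ_ne_zero P)] at h
  have h256 : padicValInt 2 256 = 8 := by
    simp only [padicValInt]
    have : Int.natAbs 256 = 2 ^ 8 := by norm_num
    rw [this, padicValNat.prime_pow]
  have hp : padicValInt 2 ((P.a * P.b * P.c) ^ (2 * P.p)) =
      2 * P.p * padicValInt 2 (P.a * P.b * P.c) := by
    simp only [padicValInt, Int.natAbs_pow]
    rw [padicValNat.pow]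
  omega

lemma two_dvd_freyCurveInt_Δ : (2 : ℤ) ∣ P.freyCurveInt.Δ := by
  have h := padicValInt_two_freyCurveInt_Δ P
  have h1 : 1 ≤ padicValInt 2 (P.a * P.b * P.c) := by
    by_contra h0
    push Not at h0
    have := (padicValInt_dvd_iff (p := 2) 1 (P.a * P.b * P.c)).1 (by simpa using P.two_dvd_abc)
    rcases this with h' | h'
    · exact P.habc0 h'
    · omega
  have h2 : 1 ≤ padicValInt 2 P.freyCurveInt.Δ := by
    have := P.hp5
    nlinarith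
  have := (padicValInt_dvd_iff (p := 2) 1 P.freyCurveInt.Δ).2 (Or.inr h2)
  simpa using this

end Fermat.Agent.MultRed
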