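import Fermat.Agent.MultRed.Basic
import Mathlib.GroupTheory.QuotientGroup.Basic
import Mathlib.FieldTheory.IsAlgClosed.Basic

/-!
# The component map of the nodal model

The model is `y² + xy = x³ + a` with `v a < 1`.
-/

set_option autoImplicit false

namespace Fermat.Agent.MultRed

open WeierstrassCurve

variable {L : Type*} [Field L] {Γ₀ : Type*} [LinearOrderedCommGroupWithZero Γ₀]
  (v : Valuation L Γ₀) (a : L)

/-- The curve `y² + xy = x³ + a`. -/
def nodal : WeierstrassCurve L := ⟨1, 0, 0, 0, a⟩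

lemma nodal_equation {x y : L} :
    (nodal a).toAffine.Equation x y ↔ y * (y + x) = x ^ 3 + a := by
  rw [Affine.equation_iff]
  simp only [nodal]
  constructor <;> intro h <;> linear_combination h

lemma nodal_negY (x y : L) : (nodal a).toAffine.negY x y = -y - x := by
  simp [Affine.negY, nodal]

/-- The point reduces to the node. -/
def InNode : (nodal a).toAffine.Point → Prop
  | .zero => False
  | .some x y _ => v x < 1 ∧ v y < 1

/-- A point on the component of index `e`, closer to the branch `y = 0`. -/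
def IsLeft (e : Γ₀) : (nodal a).toAffine.Point → Prop
  | .zero => False
  | .some x y _ => v x = e ∧ v (x + y) = e ∧ v y < e ∧ e < 1 ∧ v a < e ^ 2

/-- A point on the middle component. -/
def IsMid : (nodal a).toAffine.Point → Prop
  | .zero => False
  | .some x y _ => v y ^ 2 = v a ∧ v (x + y) ^ 2 = v a ∧ v x ^ 2 ≤ v a

open scoped Classical in
/-- The value describing the component of a point; `1` for nonsingular reduction. -/
noncomputable def phi : (nodal a).toAffine.Point → Γ₀
  | .zero => 1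
  | .some x y _ =>
    if v x < 1 ∧ v y < 1 then (if v y < v (x + y) then v (x + y) else v a / v y) else 1

variable {v a}

lemma intCoeffs_nodal (ha : v a < 1) : IntCoeffs v (nodal a) :=
  ⟨(map_one v).le, by simp [nodal], by simp [nodal], by simp [nodal], ha.le⟩

lemma nodal_vΔ (ha : v a < 1) : v (nodal a).Δ = v a := by
  have h : (nodal a).Δ = -(a * (1 + 432 * a)) := by
    simp [WeierstrassCurve.Δ, WeierstrassCurve.b₂, WeierstrassCurve.b₄, WeierstrassCurve.b₆,
      WeierstrassCurve.b₈, nodal]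
    ring
  rw [h, Valuation.map_neg, map_mul, v.map_one_add_of_lt (vmul_lt_right (vofNat_le v 432) ha),
    mul_one]

lemma nodal_Δ_ne_zero (ha0 : a ≠ 0) (ha : v a < 1) : (nodal a).Δ ≠ 0 := fun h => by
  have := nodal_vΔ (v := v) ha
  rw [h, map_zero, eq_comm, v.zero_iff] at this
  exact ha0 this

lemma inE0_iff_not_inNode (ha : v a < 1) (P : (nodal a).toAffine.Point) :
    InE0 v (nodal a) P ↔ ¬ InNode v a P := by
  rcases P with _ | ⟨x, y, h⟩
  · simp [InE0, InNode]
  have he := (nodal_equation a).1 h.1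
  constructor
  · rintro hE ⟨hx, hy⟩
    simp only [InE0, nodal, one_mul, add_zero] at hE
    rcases hE with h0 | h0 | h0
    · exact absurd h0 (not_lt.2 hx.le)
    · have : v (2 * y + x) < 1 := v.map_add_lt (vmul_lt_right (vofNat_le v 2) hy) hx
      exact this.ne h0
    · have : v (y - (3 * x ^ 2 + 2 * 0 * x)) < 1 := by
        refine v.map_sub_lt hy (v.map_add_lt (vmul_lt_right (vofNat_le v 3) ?_) (by simp))
        rw [map_pow]; exact pow_lt_one₀ zero_le hx two_ne_zero
      exact this.ne h0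
  · intro hN
    by_contra hE
    simp only [InE0, nodal, one_mul, add_zero, mul_zero, zero_mul, not_or, not_lt] at hE
    obtain ⟨hx, hq', hp'⟩ := hE
    have hy := vy_le (intCoeffs_nodal ha) h.1 hx
    have hq : v (2 * y + x) < 1 :=
      lt_of_le_of_ne (v.map_add_le (vmul_le_left (vofNat_le v 2) hy) hx) hq'
    have hp : v (y - 3 * x ^ 2) < 1 :=
      lt_of_le_of_ne (v.map_sub_le hy (vmul_le_left (vofNat_le v 3) (vpow_le 2 hx))) hp'
    have h1 : v (x * (6 * x + 1)) < 1 := by
      rw [show x * (6 * x + 1) = (2 * y + x) - 2 * (y - 3 * x ^ 2) by ring]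
      exact v.map_sub_lt hq (vmul_lt_right (vofNat_le v 2) hp)
    have h2 : v (x ^ 3 * (9 * x + 2)) < 1 := by
      rw [show x ^ 3 * (9 * x + 2) = a - (y - 3 * x ^ 2) * (y + x + 3 * x ^ 2) by
        linear_combination he]
      exact v.map_sub_lt ha (vmul_lt_left hp (v.map_add_le (v.map_add_le hy hx)
        (vmul_le_left (vofNat_le v 3) (vpow_le 2 hx))))
    have hxlt : v x < 1 := by
      by_contra hc
      have hx1 : v x = 1 := le_antisymm hx (not_lt.1 hc)
      rw [map_mul, hx1, one_mul] at h1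
      rw [map_mul, map_pow, hx1, one_pow, one_mul] at h2
      have : v (1 : L) < 1 := by
        rw [show (1 : L) = 3 * (6 * x + 1) * 1 - 2 * (9 * x + 2) * 1 + 2 by ring,
          show (3 : L) * (6 * x + 1) * 1 - 2 * (9 * x + 2) * 1 + 2 =
            -(3 * (6 * x + 1)) + 2 * (9 * x + 2) by ring]
        exact v.map_add_lt (by rw [Valuation.map_neg]; exact vmul_lt_right (vofNat_le v 3) h1)
          (vmul_lt_right (vofNat_le v 2) h2)
      rw [map_one] at this
      exact lt_irrefl _ this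
    refine hN ⟨hxlt, ?_⟩
    rw [show y = (y - 3 * x ^ 2) + 3 * x ^ 2 by ring]
    refine v.map_add_lt hp (vmul_lt_right (vofNat_le v 3) ?_)
    rw [map_pow]; exact pow_lt_one₀ zero_le hxlt two_ne_zero

lemma inNode_neg {P : (nodal a).toAffine.Point} : InNode v a (-P) ↔ InNode v a P := by
  rcases P with _ | ⟨x, y, h⟩
  · rfl
  rw [Affine.Point.neg_some]
  simp only [InNode, nodal_negY]
  refine and_congr_right fun hx => ⟨fun hy => ?_, fun hy => ?_⟩
  · rw [show y = -((-y - x) + x) by ring, Valuation.map_neg]; exact v.map_add_lt hy hx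
  · rw [show -y - x = -(y + x) by ring, Valuation.map_neg]; exact v.map_add_lt hy hx

/-- Estimate `|y| e ≤ max (e³, |a|)` on a left point. -/
lemma left_mul_le {e : Γ₀} {x y : L} {h : (nodal a).toAffine.Nonsingular x y}
    (hP : IsLeft v a e (.some x y h)) : v y * e = v (x ^ 3 + a) ∧ v y * e ≤ max (e ^ 3) (v a) := by
  obtain ⟨hx, hw, -, -, -⟩ := hP
  have h1 : v y * e = v (x ^ 3 + a) := by
    rw [← hw, ← map_mul, add_comm x y, (nodal_equation a).1 h.1]
  refine ⟨h1, ?_⟩
  rw [h1, ← hx, ← map_pow]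
  exact v.map_add _ _

lemma phi_left {e : Γ₀} {P : (nodal a).toAffine.Point} (hP : IsLeft v a e P) :
    InNode v a P ∧ phi v a P = e := by
  rcases P with _ | ⟨x, y, h⟩
  · exact hP.elim
  obtain ⟨hx, hw, hy, he, -⟩ := hP
  have hN : v x < 1 ∧ v y < 1 := ⟨hx ▸ he, hy.trans he⟩
  exact ⟨hN, by rw [phi, if_pos hN, if_pos (hw ▸ hy), hw]⟩

lemma phi_mid (ha0 : a ≠ 0) (ha : v a < 1) {P : (nodal a).toAffine.Point} (hP : IsMid v a P) :
    InNode v a P ∧ phi v a P ^ 2 = v a := by
  rcases P with _ | ⟨x, y, h⟩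
  · exact hP.elim
  obtain ⟨hy, hw, hx⟩ := hP
  have hN : v x < 1 ∧ v y < 1 :=
    ⟨(pow_lt_one_iff_of_nonneg zero_le two_ne_zero).1 (hx.trans_lt ha),
     (pow_lt_one_iff_of_nonneg zero_le two_ne_zero).1 (hy.trans_lt ha)⟩
  refine ⟨hN, ?_⟩
  have hyw : v y = v (x + y) :=
    (pow_left_inj₀ zero_le zero_le two_ne_zero).1 (hy.trans hw.symm)
  rw [phi, if_pos hN, if_neg (not_lt.2 hyw.ge), div_pow, hy, pow_two,
    mul_div_assoc, div_self (v.ne_zero_iff.2 ha0), mul_one]

/-- The value of a point reducing to the node but off the branch `y = 0`. -/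
lemma phi_of_not_lt {x y : L} {h : (nodal a).toAffine.Nonsingular x y} (hx : v x < 1)
    (hy : v y < 1) (hlt : ¬ v y < v (x + y)) : phi v a (.some x y h) = v a / v y := by
  rw [phi, if_pos ⟨hx, hy⟩, if_neg hlt]

/-- Trichotomy for points reducing to the node. -/
lemma node_cases (ha0 : a ≠ 0) {P : (nodal a).toAffine.Point} (hP : InNode v a P) :
    (∃ e, IsLeft v a e P) ∨ (∃ e, IsLeft v a e (-P)) ∨ IsMid v a P := by
  rcases P with _ | ⟨x, y, h⟩
  · exact hP.elim
  obtain ⟨hx, hy⟩ := hP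
  have he := (nodal_equation a).1 h.1
  have hmul : v y * v (x + y) = v (x ^ 3 + a) := by rw [← map_mul, add_comm x y, he]
  have hxle : v x ≤ max (v (x + y)) (v y) := by
    have := v.map_sub (x + y) y
    rwa [add_sub_cancel_right] at this
  rcases lt_or_ge (v a) (v x ^ 2) with hA | hA
  · have hx0 : (0 : Γ₀) < v x := lt_of_le_of_ne zero_le fun h0 => by
      rw [← h0, zero_pow two_ne_zero] at hA; exact not_lt_of_ge zero_le hA
    have hlt : v y * v (x + y) < v x ^ 2 := by
      rw [hmul]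
      refine lt_of_le_of_lt (v.map_add _ _) (max_lt ?_ hA)
      rw [map_pow]
      exact pow_lt_pow_right_of_lt_one₀ hx0 hx (by norm_num)
    rcases lt_or_ge (v y) (v x) with hyx | hyx
    · left
      refine ⟨v x, rfl, ?_, hyx, hx, hA⟩
      exact v.map_add_eq_of_lt_left hyx
    · right; left
      have hwx : v (x + y) < v x := by
        by_contra hc
        push Not at hc
        exact absurd hlt (not_lt.2 (by rw [pow_two]; exact mul_le_mul' hyx hc))
      refine ⟨v x, ?_⟩
      rw [Affine.Point.neg_some]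
      simp only [IsLeft, nodal_negY]
      refine ⟨trivial, ?_, ?_, hx, hA⟩
      · rw [show x + (-y - x) = -y by ring, Valuation.map_neg]
        exact le_antisymm (by
          have := v.map_sub (x + y) x
          rw [show x + y - x = y by ring, max_eq_right hwx.le] at this
          exact this) hyx
      · rw [show -y - x = -(x + y) by ring, Valuation.map_neg]; exact hwx
  · right; right
    have hA0 : (0 : Γ₀) < v a := lt_of_le_of_ne zero_le (v.ne_zero_iff.2 ha0).symm
    have hx3 : v (x ^ 3) < v a := by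
      rw [map_pow, pow_succ]
      calc v x ^ 2 * v x ≤ v a * v x := mul_le_mul' hA le_rfl
        _ < v a := mul_lt_of_lt_one_right hA0 hx
    have hprod : v y * v (x + y) = v a := by rw [hmul, v.map_add_eq_of_lt_right hx3]
    have heq : v y = v (x + y) := by
      by_contra hne
      have key : ∀ α β : Γ₀, α * β = v a → β < α → v x = α → False := by
        intro α β h1 h2 h3
        subst h3
        have : v a < v x ^ 2 := by
          rw [← h1, pow_two]
          exact mul_lt_mul_of_pos_left h2 (lt_of_le_of_lt zero_le h2)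
        exact absurd this (not_lt.2 hA)
      rcases lt_or_gt_of_ne hne with h' | h'
      · refine key _ _ (by rw [mul_comm]; exact hprod) h' ?_
        have := v.map_sub_eq_of_lt_left (x := x + y) (y := y) h'
        rwa [add_sub_cancel_right] at this
      · refine key _ _ hprod h' ?_
        have := v.map_sub_eq_of_lt_right (x := x + y) (y := y) h'
        rwa [add_sub_cancel_right] at this
    refine ⟨?_, ?_, hA⟩
    · rw [pow_two]; conv_lhs => arg 2; rw [heq]
      exact hprod
    · rw [pow_two]; conv_lhs => arg 1; rw [← heq]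
      exact hprod

lemma phi_eq_one (ha : v a < 1) {P : (nodal a).toAffine.Point}
    (hP : InE0 v (nodal a) P) : phi v a P = 1 := by
  rw [inE0_iff_not_inNode ha] at hP
  rcases P with _ | ⟨x, y, h⟩
  · rfl
  · rw [phi, if_neg (show ¬(v x < 1 ∧ v y < 1) from hP)]

lemma phi_neg (ha0 : a ≠ 0) (ha : v a < 1) {P : (nodal a).toAffine.Point} (hP : InNode v a P) :
    phi v a P * phi v a (-P) = v a := by
  have key : ∀ {Q : (nodal a).toAffine.Point} {e : Γ₀}, IsLeft v a e Q →
      phi v a Q * phi v a (-Q) = v a := by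
    intro Q e hQ
    obtain ⟨hN, hphi⟩ := phi_left hQ
    rcases Q with _ | ⟨x, y, h⟩
    · exact hQ.elim
    obtain ⟨hN1, hN2⟩ := inNode_neg.2 hN
    obtain ⟨hx, hw, hy, he, -⟩ := hQ
    rw [hphi, Affine.Point.neg_some]
    simp only [nodal_negY] at hN2 ⊢
    rw [phi_of_not_lt hN1 hN2 (by
      rw [show x + (-y - x) = -y by ring, show -y - x = -(x + y) by ring, Valuation.map_neg,
        Valuation.map_neg, hw]
      exact not_lt.2 hy.le)]
    rw [show -y - x = -(x + y) by ring, Valuation.map_neg, hw, mul_div_assoc', mul_div_cancel_left₀]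
    exact ((lt_of_le_of_lt zero_le hy)).ne'
  rcases node_cases ha0 hP with ⟨e, h⟩ | ⟨e, h⟩ | h
  · exact key h
  · have := key h
    rwa [neg_neg, mul_comm] at this
  · rcases P with _ | ⟨x, y, hns⟩
    · exact h.elim
    have hm : IsMid v a (-Affine.Point.some x y hns) := by
      rw [Affine.Point.neg_some]
      obtain ⟨hy, hw, hx⟩ := h
      simp only [IsMid, nodal_negY]
      refine ⟨?_, ?_, hx⟩
      · rw [show -y - x = -(x + y) by ring, Valuation.map_neg]; exact hw
      · rw [show x + (-y - x) = -y by ring, Valuation.map_neg]; exact hy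
    have h1 := (phi_mid ha0 ha h).2
    have h2 := (phi_mid ha0 ha hm).2
    rw [← (pow_left_inj₀ zero_le zero_le two_ne_zero).1 (h1.trans h2.symm), ← pow_two, h1]

lemma phi_bounds (ha0 : a ≠ 0) (ha : v a < 1) {P : (nodal a).toAffine.Point}
    (hP : InNode v a P) : v a < phi v a P ∧ phi v a P < 1 := by
  have hA0 : (0 : Γ₀) < v a := lt_of_le_of_ne zero_le (v.ne_zero_iff.2 ha0).symm
  have key : ∀ {Q : (nodal a).toAffine.Point} {e : Γ₀}, IsLeft v a e Q →
      v a < e ∧ e < 1 := by
    intro Q e hQ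
    rcases Q with _ | ⟨x, y, h⟩
    · exact hQ.elim
    obtain ⟨-, -, hy, he, hA⟩ := hQ
    refine ⟨hA.trans_le ?_, he⟩
    exact pow_le_of_le_one zero_le he.le two_ne_zero
  rcases node_cases ha0 hP with ⟨e, h⟩ | ⟨e, h⟩ | h
  · rw [(phi_left h).2]; exact key h
  · obtain ⟨h1, h2⟩ := key h
    have h3 := phi_neg ha0 ha hP
    rw [(phi_left h).2] at h3
    have he0 : (0 : Γ₀) < e := hA0.trans h1
    rw [show phi v a P = v a / e by rw [← h3, mul_div_cancel_right₀ _ he0.ne']]
    exact ⟨by rw [lt_div_iff₀ he0]; exact mul_lt_of_lt_one_right hA0 h2,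
      by rw [div_lt_one₀ he0]; exact h1⟩
  · have h2 := (phi_mid ha0 ha h).2
    refine ⟨?_, ?_⟩
    · by_contra hc
      push Not at hc
      have : v a < v a := by
        calc v a = phi v a P ^ 2 := h2.symm
          _ ≤ v a ^ 2 := pow_le_pow_left₀ zero_le hc 2
          _ < v a := by rw [pow_two]; exact mul_lt_of_lt_one_right hA0 ha
      exact lt_irrefl _ this
    · exact (pow_lt_one_iff_of_nonneg zero_le two_ne_zero).1 (h2.trans_lt ha)

variable [DecidableEq L]

/-- Vieta relations for the nodal model. -/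
lemma nodal_vieta {x₁ x₂ y₁ y₂ : L} (h₁ : (nodal a).toAffine.Nonsingular x₁ y₁)
    (h₂ : (nodal a).toAffine.Nonsingular x₂ y₂)
    (hxy : ¬(x₁ = x₂ ∧ y₁ = (nodal a).toAffine.negY x₂ y₂)) :
    ∃ (l ν x₃ : L) (h₃ : (nodal a).toAffine.Nonsingular x₃ (-(l * x₃ + ν) - x₃)),
      Affine.Point.some x₁ y₁ h₁ + Affine.Point.some x₂ y₂ h₂ = .some x₃ _ h₃ ∧
      y₁ = l * x₁ + ν ∧ y₂ = l * x₂ + ν ∧
      x₁ + x₂ + x₃ = l ^ 2 + l ∧
      x₁ * x₂ + x₁ * x₃ + x₂ * x₃ = -((2 * l + 1) * ν) ∧
      x₁ * x₂ * x₃ = ν ^ 2 - a := by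
  obtain ⟨sl, ν, x₃, hsl, hx3, -, hadd, hY1, hY2, hS1, hS2, hS3⟩ := vieta h₁.1 h₂.1 hxy
  have h₃ := Affine.nonsingular_add h₁ h₂ hxy
  simp only [← hsl, ← hx3, hadd] at h₃
  rw [nodal_negY] at h₃
  refine ⟨sl, ν, x₃, h₃, ?_, hY1, hY2, ?_, ?_, ?_⟩
  · rw [Affine.Point.add_some hxy]
    simp only [← hsl, ← hx3, hadd, nodal_negY]
  · rw [hS1]; simp [nodal]
  · rw [hS2]; simp [nodal]; ring
  · rw [hS3]; simp [nodal]

/-- Adding a left point and a left or middle point of smaller size. -/
lemma phi_add_left (ha0 : a ≠ 0) {e η : Γ₀} {P R : (nodal a).toAffine.Point}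
    (hP : IsLeft v a e P) (hR : (IsLeft v a η R) ∨ (IsMid v a R ∧ η ^ 2 = v a))
    (hη : η ≤ e) : InNode v a (P + R) ∧ phi v a (P + R) = e * η := by
  rcases P with _ | ⟨x₁, y₁, h₁⟩
  · exact hP.elim
  rcases R with _ | ⟨x₂, y₂, h₂⟩
  · rcases hR with h | ⟨h, -⟩ <;> exact h.elim
  obtain ⟨hy1e, hy1b⟩ := left_mul_le hP
  obtain ⟨hx1, hw1, hy1, he1, hAe⟩ := hP
  have hA0 : (0 : Γ₀) < v a := lt_of_le_of_ne zero_le (v.ne_zero_iff.2 ha0).symm
  have he0 : (0 : Γ₀) < e := lt_of_le_of_lt zero_le hy1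
  have ha1 : v a < 1 := hAe.trans (pow_lt_one₀ zero_le he1 two_ne_zero)
  have hη2 : v a ≤ η ^ 2 := by
    rcases hR with ⟨-, -, -, -, h⟩ | ⟨-, h⟩
    · exact h.le
    · exact h.ge
  have hη0 : (0 : Γ₀) < η := lt_of_le_of_ne zero_le fun h0 => by
    rw [← h0, zero_pow two_ne_zero] at hη2; exact not_lt_of_ge hη2 hA0
  have hη1 : η < 1 := hη.trans_lt he1
  have hmid : ∀ γ : Γ₀, γ ^ 2 = v a → η ^ 2 = v a → γ = η := fun γ h h' =>
    (pow_left_inj₀ zero_le zero_le two_ne_zero).1 (h.trans h'.symm)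
  have hx2 : v x₂ ≤ η := by
    rcases hR with ⟨h, -⟩ | ⟨⟨-, -, h⟩, h'⟩
    · exact h.le
    · exact (pow_le_pow_iff_left₀ zero_le zero_le two_ne_zero).1 (h.trans h'.ge)
  have hw2 : v (x₂ + y₂) = η := by
    rcases hR with ⟨-, h, -⟩ | ⟨⟨-, h, -⟩, h'⟩
    · exact h
    · exact hmid _ h h'
  have hy2 : v y₂ ≤ η := by
    rcases hR with ⟨-, -, h, -⟩ | ⟨⟨h, -, -⟩, h'⟩
    · exact h.le
    · exact (hmid _ h h').le
  have hy2e : v y₂ < e := by
    rcases hR with ⟨-, -, h, -⟩ | ⟨⟨h, -, -⟩, h'⟩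
    · exact h.trans_le hη
    · exact (pow_lt_pow_iff_left₀ zero_le zero_le two_ne_zero).1 (h.trans_lt hAe)
  have hy2b : v y₂ * η ≤ max (η ^ 3) (v a) := by
    rcases hR with h | ⟨⟨h, -, -⟩, h'⟩
    · exact (left_mul_le h).2
    · rw [hmid _ h h', ← pow_two, h']; exact le_max_right _ _
  have hxy : ¬(x₁ = x₂ ∧ y₁ = (nodal a).toAffine.negY x₂ y₂) := by
    rintro ⟨hx, hy⟩
    rw [nodal_negY] at hy
    have : v y₂ = e := by
      rw [← hw1, show x₁ + y₁ = -y₂ by rw [hx, hy]; ring, Valuation.map_neg]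
    exact hy2e.ne this
  obtain ⟨l, ν, x₃, h₃, hsum, hY1, hY2, hS1, hS2, hS3⟩ := nodal_vieta h₁ h₂ hxy
  rw [hsum]
  obtain ⟨den, hden⟩ : ∃ d, d = y₁ + y₂ + x₁ := ⟨_, rfl⟩
  have hdenv : v den = e := by
    rw [hden, show y₁ + y₂ + x₁ = (x₁ + y₁) + y₂ by ring,
      v.map_add_eq_of_lt_left (by rw [hw1]; exact hy2e), hw1]
  have hlden : l * den = x₁ ^ 2 + x₁ * x₂ + x₂ ^ 2 - y₂ := by
    rw [hden]
    linear_combination -(x₁ + x₂) * hS1 + hS2 + l * hY1 + (l + 1) * hY2
  have hνden : ν * den = a + y₂ * (x₁ + y₁) - x₁ * x₂ * (x₁ + x₂) := by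
    have hy1' := (nodal_equation a).1 h₁.1
    rw [show ν = y₁ - l * x₁ by linear_combination -hY1, sub_mul, mul_assoc, mul_comm x₁ den,
      ← mul_assoc, hlden, hden]
    linear_combination hy1'
  have hl1 : v l < 1 := by
    have hnum : v (l * den) < e := by
      rw [hlden]
      have hee : e ^ 2 < e := by rw [pow_two]; exact mul_lt_of_lt_one_left he0 he1
      refine v.map_sub_lt (lt_of_le_of_lt ?_ hee) hy2e
      refine v.map_add_le (v.map_add_le ?_ ?_) ?_
      · rw [map_pow, hx1]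
      · rw [pow_two e]; exact vmul_le hx1.le (hx2.trans hη)
      · rw [map_pow]; exact pow_le_pow_left₀ zero_le (hx2.trans hη) 2
    rw [map_mul, hdenv] at hnum
    by_contra hc
    exact absurd hnum (not_lt.2 (le_mul_of_one_le_left zero_le (not_lt.1 hc)))
  have hl1' : v (l + 1) = 1 := by rw [add_comm]; exact v.map_one_add_of_lt hl1
  obtain ⟨f, hf⟩ : ∃ f, f = e * η := ⟨_, rfl⟩
  have hf0 : (0 : Γ₀) < f := hf ▸ mul_pos he0 hη0
  have hf1 : f < 1 := hf ▸ lt_of_le_of_lt (mul_le_of_le_one_right zero_le hη1.le) he1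
  rw [← hf]
  obtain ⟨y₃, hy₃⟩ : ∃ y₃, y₃ = l * x₃ + ν := ⟨_, rfl⟩
  have hw3 : (x₁ + y₁) * (x₂ + y₂) * (x₃ + y₃) = ν ^ 3 - a * (l + 1) ^ 3 := by
    rw [hY1, hY2, hy₃]
    linear_combination (l + 1) * ν ^ 2 * hS1 + (l + 1) ^ 2 * ν * hS2 + (l + 1) ^ 3 * hS3
  simp only [InNode, ← hy₃]
  rcases lt_or_ge (v a) (f ^ 2) with hfA | hfA
  · -- the sum is again a left point
    have hRl : IsLeft v a η (.some x₂ y₂ h₂) := by
      refine hR.resolve_right fun h => ?_
      have : f ^ 2 < v a := by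
        rw [hf, mul_pow, h.2]
        exact mul_lt_of_lt_one_left hA0 (pow_lt_one₀ zero_le he1 two_ne_zero)
      exact absurd this (not_lt.2 hfA.le)
    have hy2lt : v y₂ < η := hRl.2.2.1
    have hx2eq : v x₂ = η := hRl.1
    have hAf : v a < f ^ 2 := hfA
    have hy1sq : v y₁ ≤ e ^ 2 := by
      have : v y₁ * e ≤ e ^ 2 * e := by
        refine hy1b.trans (max_le (le_of_eq (pow_succ e 2)) (hAf.le.trans ?_))
        rw [hf, mul_pow, pow_two η]
        exact mul_le_mul' le_rfl (le_trans (mul_le_of_le_one_right zero_le hη1.le) hη)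
      exact le_of_mul_le_mul_right this he0
    have hnum : v ((ν * den) * (x₂ + y₂)) = f ^ 2 := by
      rw [hνden]
      have hy1' := (nodal_equation a).1 h₁.1
      have hy2' := (nodal_equation a).1 h₂.1
      rw [show (a + y₂ * (x₁ + y₁) - x₁ * x₂ * (x₁ + x₂)) * (x₂ + y₂) =
        -(x₁ * x₂) ^ 2 + (a * ((x₁ + y₁) + (x₂ + y₂)) + y₁ * x₂ ^ 3 -
          x₁ * x₂ * (x₁ + x₂) * y₂) by linear_combination (x₁ + y₁) * hy2']
      have hmain : v (-(x₁ * x₂) ^ 2) = f ^ 2 := by
        rw [Valuation.map_neg, map_pow, map_mul, hx1, hx2eq, hf]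
      rw [v.map_add_eq_of_lt_left, hmain]
      rw [hmain]
      refine v.map_sub_lt (v.map_add_lt ?_ ?_) ?_
      · exact (vmul_lt_left (γ := f ^ 2) hAf
          (v.map_add_le (hw1 ▸ he1.le) (hw2 ▸ hη1.le)))
      · rw [map_mul, map_pow, hx2eq, hf, mul_pow]
        refine lt_of_le_of_lt (mul_le_mul' hy1sq le_rfl) ?_
        exact mul_lt_mul_of_pos_left (pow_lt_pow_right_of_lt_one₀ hη0 hη1 (by norm_num))
          (pow_pos he0 2)
      · rw [map_mul, map_mul, map_mul, hx1, hx2eq, hf, mul_pow, pow_two e, pow_two η]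
        have h12 : v (x₁ + x₂) ≤ e := v.map_add_le hx1.le (hx2eq.le.trans hη)
        calc e * η * v (x₁ + x₂) * v y₂ ≤ e * η * e * v y₂ := by gcongr
          _ < e * η * e * η := mul_lt_mul_of_pos_left hy2lt (by positivity)
          _ = e * e * (η * η) := by rw [mul_comm e η, mul_assoc η e e, mul_comm η (e * e),
              mul_assoc]
    have hν : v ν = f := by
      rw [map_mul, map_mul, hdenv, hw2, pow_two, mul_assoc, ← hf] at hnum
      exact mul_right_cancel₀ hf0.ne' hnum
    have hx3 : v x₃ = f := by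
      have h' : v (x₁ * x₂ * x₃) = f ^ 2 := by
        rw [hS3, v.map_sub_eq_of_lt_left (by rw [map_pow, hν]; exact hAf), map_pow, hν]
      rw [map_mul, map_mul, hx1, hx2eq, ← hf, pow_two] at h'
      exact mul_left_cancel₀ hf0.ne' h'
    have hy3 : v y₃ = f := by
      rw [hy₃, v.map_add_eq_of_lt_right, hν]
      rw [map_mul, hν, hx3]
      exact mul_lt_of_lt_one_left hf0 hl1
    have hy' : v (-y₃ - x₃) < f := by
      have he3 := (nodal_equation a).1 h₃.1
      rw [← hy₃] at he3
      have hm : v (-y₃ - x₃) * f = v (x₃ ^ 3 + a) := by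
        rw [← he3, map_mul, show (-y₃ - x₃) + x₃ = -y₃ by ring, Valuation.map_neg, hy3]
      by_contra hc
      push Not at hc
      have : v (x₃ ^ 3 + a) < f * f := by
        rw [← pow_two]
        refine v.map_add_lt ?_ hAf
        rw [map_pow, hx3]
        exact pow_lt_pow_right_of_lt_one₀ hf0 hf1 (by norm_num)
      rw [← hm] at this
      exact absurd this (not_lt.2 (mul_le_mul' hc le_rfl))
    have hN : v x₃ < 1 ∧ v (-y₃ - x₃) < 1 := ⟨hx3 ▸ hf1, hy'.trans hf1⟩
    have hsw : v (x₃ + (-y₃ - x₃)) = f := by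
      rw [show x₃ + (-y₃ - x₃) = -y₃ by ring, Valuation.map_neg, hy3]
    exact ⟨hN, by rw [phi, if_pos hN, if_pos (hsw.symm ▸ hy'), hsw]⟩
  · -- the sum is right or middle
    have hνA : v ν ^ 2 ≤ v a := by
      have hnum : v (ν * den) ^ 2 ≤ v a * e ^ 2 := by
        rw [hνden]
        have h1 : v a ^ 2 ≤ v a * e ^ 2 := by rw [pow_two]; exact mul_le_mul' le_rfl hAe.le
        have h2 : v (y₂ * (x₁ + y₁)) ^ 2 ≤ v a * e ^ 2 := by
          rw [map_mul, hw1, mul_pow]
          refine mul_le_mul' ?_ le_rfl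
          have h3 : (v y₂ * η) ^ 2 ≤ v a * η ^ 2 := by
            refine (pow_le_pow_left₀ zero_le hy2b 2).trans ?_
            rcases max_choice (η ^ 3) (v a) with hm | hm <;> rw [hm]
            · rw [show (η ^ 3) ^ 2 = η ^ 2 * η ^ 2 * η ^ 2 by
                rw [← pow_mul, ← pow_add, ← pow_add]]
              refine mul_le_mul' ?_ le_rfl
              refine le_trans (le_trans ?_ (le_of_eq (mul_pow e η 2).symm)) (hf ▸ hfA)
              exact mul_le_mul' (pow_le_pow_left₀ zero_le hη 2) le_rfl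
            · rw [pow_two]; exact mul_le_mul' le_rfl hη2
          rw [mul_pow] at h3
          exact le_of_mul_le_mul_right h3 (pow_pos hη0 2)
        have h4 : v (x₁ * x₂ * (x₁ + x₂)) ^ 2 ≤ v a * e ^ 2 := by
          rw [map_mul, map_mul, hx1, mul_pow]
          refine mul_le_mul' ((pow_le_pow_left₀ zero_le (mul_le_mul' le_rfl hx2) 2).trans
            (hf ▸ hfA)) (pow_le_pow_left₀ zero_le (v.map_add_le hx1.le (hx2.trans hη)) 2)
        refine (pow_le_pow_left₀ zero_le ((v.map_sub _ _).trans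
          (max_le_max (v.map_add _ _) le_rfl)) 2).trans ?_
        rcases max_choice (max (v a) (v (y₂ * (x₁ + y₁)))) (v (x₁ * x₂ * (x₁ + x₂))) with hm | hm <;>
          rw [hm]
        · rcases max_choice (v a) (v (y₂ * (x₁ + y₁))) with hm' | hm' <;> rw [hm']
          · exact h1
          · exact h2
        · exact h4
      rw [map_mul, hdenv, mul_pow] at hnum
      exact le_of_mul_le_mul_right hnum (pow_pos he0 2)
    have hν3 : v (ν ^ 3) < v a := by
      have hν1 : v ν < 1 := (pow_lt_one_iff_of_nonneg zero_le two_ne_zero).1 (hνA.trans_lt ha1)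
      rw [map_pow, pow_succ]
      exact lt_of_le_of_lt (mul_le_mul' hνA le_rfl) (mul_lt_of_lt_one_right hA0 hν1)
    have hmul : f * v (x₃ + y₃) = v a := by
      have h' : v ((x₁ + y₁) * (x₂ + y₂) * (x₃ + y₃)) = v a := by
        have hr : v (a * (l + 1) ^ 3) = v a := by
          rw [map_mul, map_pow, hl1', one_pow, mul_one]
        rw [hw3, v.map_sub_eq_of_lt_right (by rw [hr]; exact hν3), hr]
      rwa [map_mul, map_mul, hw1, hw2, ← hf] at h'
    have hfA' : v a < f := by
      rw [hf, ← mul_lt_mul_iff_of_pos_right hA0]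
      by_contra hc
      push Not at hc
      have : (e * η) ^ 2 ≤ v a * (e * η) := by
        rw [pow_two]; exact mul_le_mul' (le_of_mul_le_mul_right hc hA0) le_rfl
      have h' : v a * v a < e ^ 2 * η ^ 2 :=
        lt_of_lt_of_le (mul_lt_mul_of_pos_right hAe hA0) (mul_le_mul' le_rfl hη2)
      rw [mul_pow] at this
      exact absurd ((h'.trans_le this).trans_le
        (mul_le_mul' le_rfl (le_of_mul_le_mul_right hc hA0))) (lt_irrefl _)
    have hw3lt : v (x₃ + y₃) < 1 := by
      by_contra hc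
      exact absurd hfA' (not_lt.2 (hmul ▸ le_mul_of_one_le_right zero_le (not_lt.1 hc)))
    have hy3le : v y₃ ≤ v (x₃ + y₃) := by
      by_contra hc
      push Not at hc
      have hx3y : v x₃ = v y₃ := by
        have := v.map_sub_eq_of_lt_right (x := x₃ + y₃) (y := y₃) hc
        rwa [add_sub_cancel_right] at this
      have hwA : v a ≤ v (x₃ + y₃) ^ 2 := by
        have : v a * v a ≤ v (x₃ + y₃) ^ 2 * v a := by
          calc v a * v a = f ^ 2 * v (x₃ + y₃) ^ 2 := by rw [← mul_pow, hmul, pow_two]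
            _ ≤ v a * v (x₃ + y₃) ^ 2 := mul_le_mul' hfA le_rfl
            _ = v (x₃ + y₃) ^ 2 * v a := mul_comm _ _
        exact le_of_mul_le_mul_right this hA0
      have hνy : v ν < v y₃ :=
        (pow_lt_pow_iff_left₀ zero_le zero_le two_ne_zero).1
          ((hνA.trans hwA).trans_lt (pow_lt_pow_left₀ hc zero_le two_ne_zero))
      have : v y₃ < v y₃ := by
        conv_lhs => rw [hy₃]
        refine v.map_add_lt ?_ hνy
        rw [map_mul, hx3y]
        exact mul_lt_of_lt_one_left (lt_of_le_of_lt zero_le hc) hl1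
      exact lt_irrefl _ this
    have hN : v x₃ < 1 ∧ v (-y₃ - x₃) < 1 := by
      refine ⟨?_, ?_⟩
      · rw [show x₃ = (x₃ + y₃) - y₃ by ring]
        exact v.map_sub_lt hw3lt (hy3le.trans_lt hw3lt)
      · rw [show -y₃ - x₃ = -(x₃ + y₃) by ring, Valuation.map_neg]; exact hw3lt
    refine ⟨hN, ?_⟩
    rw [phi_of_not_lt hN.1 hN.2 (by
      rw [show x₃ + (-y₃ - x₃) = -y₃ by ring, show -y₃ - x₃ = -(x₃ + y₃) by ring,
        Valuation.map_neg, Valuation.map_neg]
      exact not_lt.2 hy3le), show -y₃ - x₃ = -(x₃ + y₃) by ring, Valuation.map_neg, ← hmul,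
      mul_div_assoc, div_self, mul_one]
    intro h0
    rw [h0, mul_zero] at hmul
    exact hA0.ne hmul

omit [DecidableEq L] in
lemma isMid_neg {P : (nodal a).toAffine.Point} (h : IsMid v a P) : IsMid v a (-P) := by
  rcases P with _ | ⟨x, y, hns⟩
  · exact h.elim
  rw [Affine.Point.neg_some]
  obtain ⟨hy, hw, hx⟩ := h
  simp only [IsMid, nodal_negY]
  refine ⟨?_, ?_, hx⟩
  · rw [show -y - x = -(x + y) by ring, Valuation.map_neg]; exact hw
  · rw [show x + (-y - x) = -y by ring, Valuation.map_neg]; exact hy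

/-- Two middle points add to a point with nonsingular reduction. -/
lemma inNode_add_mid_false (ha0 : a ≠ 0) (ha : v a < 1) {P R : (nodal a).toAffine.Point}
    (hP : IsMid v a P) (hR : IsMid v a R) : ¬ InNode v a (P + R) := by
  intro hS
  obtain ⟨-, hmR⟩ := phi_mid ha0 ha hR
  have key : ∀ {S' P' R' : (nodal a).toAffine.Point} {g : Γ₀}, IsMid v a P' → IsMid v a R' →
      IsLeft v a g S' → R' = S' + P' → False := by
    intro S' P' R' g hP' hR' hS' he
    obtain ⟨-, hmP⟩ := phi_mid ha0 ha hP'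
    obtain ⟨-, hmR'⟩ := phi_mid ha0 ha hR'
    have hg : phi v a P' ≤ g ∧ g < 1 := by
      rcases S' with _ | ⟨x, y, h⟩
      · exact hS'.elim
      refine ⟨?_, hS'.2.2.2.1⟩
      exact (pow_le_pow_iff_left₀ zero_le zero_le two_ne_zero).1 (hmP.le.trans hS'.2.2.2.2.le)
    have h := (phi_add_left ha0 hS' (Or.inr ⟨hP', hmP⟩) hg.1).2
    rw [← he] at h
    have heq : phi v a R' = phi v a P' :=
      (pow_left_inj₀ zero_le zero_le two_ne_zero).1 (hmR'.trans hmP.symm)
    have hpos : phi v a P' ≠ 0 := fun h0 => ha0 (v.zero_iff.1 (by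
      rw [← hmP, h0, zero_pow two_ne_zero]))
    rw [heq] at h
    exact hg.2.ne (mul_right_cancel₀ hpos (by rw [← h, one_mul]))
  rcases node_cases ha0 hS with ⟨g, hg⟩ | ⟨g, hg⟩ | hm
  · exact key (isMid_neg hP) hR hg (by abel)
  · exact key hP (isMid_neg hR) hg (by abel)
  rcases P with _ | ⟨x₁, y₁, h₁⟩
  · exact hP.elim
  rcases R with _ | ⟨x₂, y₂, h₂⟩
  · exact hR.elim
  by_cases hxy : x₁ = x₂ ∧ y₁ = (nodal a).toAffine.negY x₂ y₂
  · rw [Affine.Point.add_of_Y_eq hxy.1 hxy.2] at hm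
    exact hm.elim
  obtain ⟨l, ν, x₃, h₃, hsum, hY1, hY2, hS1, hS2, hS3⟩ := nodal_vieta h₁ h₂ hxy
  rw [hsum] at hm
  obtain ⟨-, -, hx1⟩ := hP
  obtain ⟨-, -, hx2⟩ := hR
  obtain ⟨-, -, hx3⟩ := hm
  have hA0 : (0 : Γ₀) < v a := lt_of_le_of_ne zero_le (v.ne_zero_iff.2 ha0).symm
  have hll : v (l * (l + 1)) < 1 := by
    have hx : ∀ {x : L}, v x ^ 2 ≤ v a → v x < 1 := fun h =>
      (pow_lt_one_iff_of_nonneg zero_le two_ne_zero).1 (h.trans_lt ha)
    rw [show l * (l + 1) = l ^ 2 + l by ring, ← hS1]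
    exact v.map_add_lt (v.map_add_lt (hx hx1) (hx hx2)) (hx hx3)
  have hl : v l ≤ 1 := by
    by_contra hc
    push Not at hc
    have : v (l + 1) = v l := v.map_add_eq_of_lt_left (by rwa [map_one])
    rw [map_mul, this] at hll
    exact absurd hll (not_lt.2 (one_le_mul hc.le hc.le))
  have h2l : v (2 * l + 1) = 1 := by
    rcases lt_or_eq_of_le hl with h | h
    · rw [add_comm]; exact v.map_one_add_of_lt (vmul_lt_right (vofNat_le v 2) h)
    · have h1 : v (l + 1) < 1 := by rwa [map_mul, h, one_mul] at hll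
      rw [show 2 * l + 1 = -1 + 2 * (l + 1) by ring, v.map_add_eq_of_lt_left, Valuation.map_neg,
        map_one]
      rw [Valuation.map_neg, map_one]
      exact vmul_lt_right (vofNat_le v 2) h1
  have hpair : ∀ {x y : L}, v x ^ 2 ≤ v a → v y ^ 2 ≤ v a → v (x * y) ≤ v a := fun hx hy => by
    refine (pow_le_pow_iff_left₀ zero_le zero_le two_ne_zero).1 ?_
    rw [map_mul, mul_pow, pow_two (v a)]
    exact mul_le_mul' hx hy
  have hν : v ν ≤ v a := by
    have h : v ((2 * l + 1) * ν) ≤ v a := by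
      rw [← Valuation.map_neg, ← hS2]
      exact v.map_add_le (v.map_add_le (hpair hx1 hx2) (hpair hx1 hx3)) (hpair hx2 hx3)
    rwa [map_mul, h2l, one_mul] at h
  have hprod : v (x₁ * x₂ * x₃) = v a := by
    rw [hS3, v.map_sub_eq_of_lt_right]
    rw [map_pow, pow_two]
    exact lt_of_le_of_lt (mul_le_mul' hν hν) (mul_lt_of_lt_one_left hA0 ha)
  have h6 : v a ^ 2 ≤ v a * v a * v a := by
    rw [← hprod]
    simp only [map_mul, mul_pow]
    rw [← map_mul, ← map_mul, hprod]
    exact mul_le_mul' (mul_le_mul' hx1 hx2) hx3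
  rw [pow_two] at h6
  exact absurd h6 (not_le.2 (mul_lt_of_lt_one_right (mul_pos hA0 hA0) ha))

/-- Adding a point with nonsingular affine reduction keeps a point at the node, and fixes left
points' index. -/
lemma add_unit (ha : v a < 1) {R U : (nodal a).toAffine.Point}
    (hR : InNode v a R) (hU0 : InE0 v (nodal a) U) (hU1 : ¬ InE1 v (nodal a) U) :
    InNode v a (R + U) ∧ ∀ e, IsLeft v a e R → IsLeft v a e (R + U) := by
  rcases R with _ | ⟨x₁, y₁, h₁⟩
  · exact hR.elim
  rcases U with _ | ⟨x₂, y₂, h₂⟩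
  · exact absurd trivial hU1
  obtain ⟨hx1, hy1⟩ := hR
  simp only [InE1, not_lt] at hU1
  have hy2le := vy_le (intCoeffs_nodal ha) h₂.1 hU1
  have he1 := (nodal_equation a).1 h₁.1
  have he2 := (nodal_equation a).1 h₂.1
  have hx2 : v x₂ = 1 := by
    refine le_antisymm hU1 (not_lt.1 fun hc => ?_)
    have hN : ¬(v x₂ < 1 ∧ v y₂ < 1) := (inE0_iff_not_inNode ha _).1 hU0
    have hy : v y₂ = 1 := le_antisymm hy2le (not_lt.1 fun h => hN ⟨hc, h⟩)
    have h1 : v (y₂ * (y₂ + x₂)) = 1 := by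
      rw [map_mul, hy, one_mul, v.map_add_eq_of_lt_left (by rw [hy]; exact hc), hy]
    rw [he2] at h1
    refine (v.map_add_lt ?_ ha).ne h1
    rw [map_pow]; exact pow_lt_one₀ zero_le hc (by norm_num)
  have hprod : v y₂ * v (x₂ + y₂) = 1 := by
    rw [← map_mul, add_comm x₂ y₂, he2, v.map_add_eq_of_lt_left, map_pow, hx2, one_pow]
    rw [map_pow, hx2, one_pow]; exact ha
  have hw2le : v (x₂ + y₂) ≤ 1 := v.map_add_le hU1 hy2le
  have hy2 : v y₂ = 1 := le_antisymm hy2le <| not_lt.1 fun h => by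
    have : v y₂ * v (x₂ + y₂) < 1 :=
      lt_of_le_of_lt (mul_le_of_le_one_right zero_le hw2le) h
    exact this.ne hprod
  have hw2 : v (x₂ + y₂) = 1 := by rwa [hy2, one_mul] at hprod
  have hdx : v (x₁ - x₂) = 1 := by
    rw [v.map_sub_eq_of_lt_right (by rw [hx2]; exact hx1), hx2]
  have hxy : ¬(x₁ = x₂ ∧ y₁ = (nodal a).toAffine.negY x₂ y₂) := fun h => by
    rw [h.1, hx2] at hx1; exact lt_irrefl _ hx1
  obtain ⟨l, ν, x₃, h₃, hsum, hY1, hY2, hS1, hS2, hS3⟩ := nodal_vieta h₁ h₂ hxy
  have hl : v l = 1 := by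
    have : v (l * (x₁ - x₂)) = 1 := by
      rw [show l * (x₁ - x₂) = y₁ - y₂ by linear_combination hY2 - hY1,
        v.map_sub_eq_of_lt_right (by rw [hy2]; exact hy1), hy2]
    rwa [map_mul, hdx, mul_one] at this
  have hl1 : v (l + 1) = 1 := by
    have hw1lt : v (x₁ + y₁) < 1 := v.map_add_lt hx1 hy1
    have : v ((l + 1) * (x₁ - x₂)) = 1 := by
      rw [show (l + 1) * (x₁ - x₂) = (x₁ + y₁) - (x₂ + y₂) by linear_combination hY2 - hY1,
        v.map_sub_eq_of_lt_right (by rw [hw2]; exact hw1lt), hw2]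
    rwa [map_mul, hdx, mul_one] at this
  have hx3 : v x₃ < 1 := by
    have h : v ((l ^ 2 + l - x₂) * (x₁ - x₂) ^ 2) < 1 := by
      rw [show (l ^ 2 + l - x₂) * (x₁ - x₂) ^ 2 =
          a + y₁ * ((x₁ + y₁) - (x₂ + y₂)) - y₂ * (x₁ + y₁) - x₂ * x₁ * (x₁ - 2 * x₂) by
        have e1 : l * (x₁ - x₂) = y₁ - y₂ := by linear_combination hY2 - hY1
        linear_combination ((l + 1) * (x₁ - x₂) + (y₁ - y₂)) * e1 + he2]
      have hw1 : v (x₁ + y₁) < 1 := v.map_add_lt hx1 hy1
      refine v.map_sub_lt (v.map_sub_lt (v.map_add_lt ha ?_) (vmul_lt_right hy2le hw1)) ?_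
      · exact vmul_lt_left hy1 (v.map_sub_le hw1.le hw2le)
      · exact vmul_lt_left (vmul_lt_right hU1 hx1)
          (v.map_sub_le hx1.le (vmul_le_left (vofNat_le v 2) hU1))
    rw [map_mul, map_pow, hdx, one_pow, mul_one] at h
    rw [show x₃ = (l ^ 2 + l - x₂) - x₁ by linear_combination hS1]
    exact v.map_sub_lt h hx1
  have hν : v ν < 1 := by
    rw [show ν = y₁ - l * x₁ by linear_combination -hY1]
    exact v.map_sub_lt hy1 (vmul_lt_right hl.le hx1)
  refine ⟨?_, ?_⟩
  · rw [hsum]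
    refine ⟨hx3, ?_⟩
    exact v.map_sub_lt (by rw [Valuation.map_neg]
                           exact v.map_add_lt (vmul_lt_right hl.le hx3) hν) hx3
  intro e hL
  obtain ⟨hxe, hwe, hye, he, hA⟩ := hL
  have he0 : (0 : Γ₀) < e := lt_of_le_of_lt zero_le hye
  have hνe : v ν = e := by
    rw [show ν = -(l * x₁) + y₁ by linear_combination -hY1,
      v.map_add_eq_of_lt_left, Valuation.map_neg, map_mul, hl, one_mul, hxe]
    rw [Valuation.map_neg, map_mul, hl, one_mul, hxe]; exact hye
  have hx3e : v x₃ = e := by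
    have h : v (x₁ * x₂ * x₃) = e ^ 2 := by
      rw [hS3, v.map_sub_eq_of_lt_left, map_pow, hνe]
      rw [map_pow, hνe]; exact hA
    rw [map_mul, map_mul, hxe, hx2, mul_one, pow_two] at h
    exact mul_left_cancel₀ he0.ne' h
  have hw3 : v ((l * x₃ + ν) + x₃) < e := by
    have heq : ((l * x₃ + ν) + x₃) * (x₁ * x₂) =
        ν * ((l + 1) * y₁ - x₁ * (x₁ + x₃)) - (l + 1) * a := by
      linear_combination (l + 1) * hS3 + ν * x₁ * hS1 - ν * (l + 1) * hY1
    have hb : v ((l + 1) * y₁ - x₁ * (x₁ + x₃)) < e := by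
      refine v.map_sub_lt (by rw [map_mul, hl1, one_mul]; exact hye) ?_
      rw [map_mul, hxe]
      exact mul_lt_of_lt_one_right he0 (v.map_add_lt hx1 hx3)
    have h : v (((l * x₃ + ν) + x₃) * (x₁ * x₂)) < e * e := by
      rw [heq]
      refine v.map_sub_lt ?_ ?_
      · rw [map_mul, hνe]; exact mul_lt_mul_of_pos_left hb he0
      · rw [map_mul, hl1, one_mul, ← pow_two]; exact hA
    rw [map_mul, map_mul, hxe, hx2, mul_one] at h
    exact (mul_lt_mul_iff_of_pos_right he0).1 h
  rw [hsum]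
  refine ⟨hx3e, ?_, ?_, he, hA⟩
  · rw [show x₃ + (-(l * x₃ + ν) - x₃) = x₃ - ((l * x₃ + ν) + x₃) by ring,
      v.map_sub_eq_of_lt_left (by rw [hx3e]; exact hw3), hx3e]
  · rw [show -(l * x₃ + ν) - x₃ = -((l * x₃ + ν) + x₃) by ring, Valuation.map_neg]; exact hw3

omit [DecidableEq L] in
lemma inE0_neg_nodal (ha : v a < 1) {P : (nodal a).toAffine.Point}
    (h : InE0 v (nodal a) P) : InE0 v (nodal a) (-P) := by
  rw [inE0_iff_not_inNode ha] at h ⊢
  rwa [inNode_neg]

variable [IsAlgClosed L]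

omit [DecidableEq L] in
lemma exists_quadratic_root (b c : L) : ∃ y : L, y ^ 2 + b * y + c = 0 := by
  obtain ⟨y, hy⟩ := IsAlgClosed.exists_root
    (p := (Polynomial.C (1 : L) * Polynomial.X ^ 2 + Polynomial.C b * Polynomial.X +
      Polynomial.C c)) (by rw [Polynomial.degree_quadratic one_ne_zero]; norm_num)
  exact ⟨y, by simpa using hy⟩

omit [DecidableEq L] in
/-- A point with nonsingular affine reduction exists. -/
lemma exists_unit_point (ha0 : a ≠ 0) (ha : v a < 1) : ∃ V : (nodal a).toAffine.Point,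
    InE0 v (nodal a) V ∧ ¬ InE1 v (nodal a) V := by
  obtain ⟨y, hy⟩ := exists_quadratic_root (1 : L) (-(1 + a))
  have h : (nodal a).toAffine.Equation 1 y := by
    rw [nodal_equation]; linear_combination hy
  have hns : (nodal a).toAffine.Nonsingular 1 y :=
    (Affine.equation_iff_nonsingular_of_Δ_ne_zero (nodal_Δ_ne_zero (v := v) ha0 ha)).1 h
  refine ⟨.some 1 y hns, (inE0_iff_not_inNode ha _).2 ?_, ?_⟩
  · rintro ⟨h1, -⟩; rw [map_one] at h1; exact lt_irrefl _ h1
  · simp only [InE1, map_one, lt_irrefl, not_false_iff]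

/-- Adding any point with nonsingular reduction keeps the component of a point at the node. -/
lemma add_inE0 (ha0 : a ≠ 0) (ha : v a < 1) {R U : (nodal a).toAffine.Point}
    (hR : InNode v a R) (hU : InE0 v (nodal a) U) :
    InNode v a (R + U) ∧ phi v a (R + U) = phi v a R := by
  have hW := intCoeffs_nodal (v := v) ha
  -- the case of a unit point
  have key : ∀ {R U : (nodal a).toAffine.Point}, InNode v a R → InE0 v (nodal a) U →
      ¬ InE1 v (nodal a) U → InNode v a (R + U) ∧ phi v a (R + U) = phi v a R := by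
    intro R U hR hU hU1
    obtain ⟨hN, hL⟩ := add_unit ha hR hU hU1
    refine ⟨hN, ?_⟩
    have hU' := inE0_neg_nodal ha hU
    have hU1' : ¬ InE1 v (nodal a) (-U) := fun h => hU1 (by simpa using h.neg hW)
    rcases node_cases ha0 hR with ⟨e, he⟩ | ⟨e, he⟩ | hm
    · rw [(phi_left (hL e he)).2, (phi_left he).2]
    · have h1 := (add_unit ha (inNode_neg.2 hR) hU' hU1').2 e he
      rw [← neg_add] at h1
      have e1 := phi_neg ha0 ha hN
      have e2 := phi_neg ha0 ha hR
      rw [(phi_left h1).2] at e1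
      rw [(phi_left he).2] at e2
      refine mul_right_cancel₀ (fun h0 => ha0 (v.zero_iff.1 ?_)) (e1.trans e2.symm)
      rw [← e2, h0, mul_zero]
    · rcases node_cases ha0 hN with ⟨e, he⟩ | ⟨e, he⟩ | hm'
      · have h1 := (add_unit ha hN hU' hU1').2 e he
        rw [add_neg_cancel_right] at h1
        rw [(phi_left h1).2, (phi_left he).2]
      · have h1 := (add_unit ha (inNode_neg.2 hN) hU hU1).2 e he
        rw [neg_add, neg_add_cancel_right] at h1
        have e1 := phi_neg ha0 ha hN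
        have e2 := phi_neg ha0 ha hR
        rw [(phi_left he).2] at e1
        rw [(phi_left h1).2] at e2
        refine mul_right_cancel₀ (fun h0 => ha0 (v.zero_iff.1 ?_)) (e1.trans e2.symm)
        rw [← e2, h0, mul_zero]
      · exact (pow_left_inj₀ zero_le zero_le two_ne_zero).1
          ((phi_mid ha0 ha hm').2.trans (phi_mid ha0 ha hm).2.symm)
  by_cases hU1 : InE1 v (nodal a) U
  swap
  · exact key hR hU hU1
  obtain ⟨V, hV0, hV1⟩ := exists_unit_point (v := v) ha0 ha
  have hW0 : InE0 v (nodal a) (U - V) := by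
    rw [inE0_iff_not_inNode ha]
    intro hN
    have h := (key hN hV0 hV1).1
    rw [sub_add_cancel] at h
    exact (inE0_iff_not_inNode ha _).1 hU1.inE0 h
  have hW1 : ¬ InE1 v (nodal a) (U - V) := fun h => hV1 (by simpa using hU1.sub hW h)
  obtain ⟨h1, h2⟩ := key hR hW0 hW1
  obtain ⟨h3, h4⟩ := key h1 hV0 hV1
  rw [show R + (U - V) + V = R + U by abel] at h3 h4
  exact ⟨h3, h4.trans h2⟩

/-- The points with nonsingular reduction are closed under addition. -/
lemma inE0_add_nodal (ha0 : a ≠ 0) (ha : v a < 1) {P R : (nodal a).toAffine.Point}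
    (hP : InE0 v (nodal a) P) (hR : InE0 v (nodal a) R) : InE0 v (nodal a) (P + R) := by
  rw [inE0_iff_not_inNode ha]
  intro hN
  have h := (add_inE0 ha0 ha hN (inE0_neg_nodal ha hR)).1
  rw [add_neg_cancel_right] at h
  exact (inE0_iff_not_inNode ha _).1 hP h

/-- The group of component values. -/
abbrev CompGroup (hA : v a ≠ 0) := Γ₀ˣ ⧸ Subgroup.zpowers (Units.mk0 (v a) hA)

omit [IsAlgClosed L] [DecidableEq L] in
lemma phi_ne_zero (ha0 : a ≠ 0) (ha : v a < 1) (P : (nodal a).toAffine.Point) :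
    phi v a P ≠ 0 := by
  by_cases h : InNode v a P
  · exact (lt_of_le_of_lt zero_le (phi_bounds ha0 ha h).1).ne'
  · rw [phi_eq_one ha ((inE0_iff_not_inNode ha P).2 h)]; exact one_ne_zero

omit [IsAlgClosed L] [DecidableEq L] in
/-- The component class of a point. -/
noncomputable def compClass (ha0 : a ≠ 0) (ha : v a < 1) (P : (nodal a).toAffine.Point) :
    CompGroup (v.ne_zero_iff.2 ha0) :=
  QuotientGroup.mk (Units.mk0 (phi v a P) (phi_ne_zero ha0 ha P))

omit [DecidableEq L] [IsAlgClosed L] in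
lemma compClass_eq_of_phi (ha0 : a ≠ 0) (ha : v a < 1) {P R : (nodal a).toAffine.Point}
    (h : phi v a P = phi v a R) : compClass ha0 ha P = compClass ha0 ha R := by
  simp only [compClass, h]

omit [DecidableEq L] [IsAlgClosed L] in
lemma compClass_of_inE0 (ha0 : a ≠ 0) (ha : v a < 1) {P : (nodal a).toAffine.Point}
    (h : InE0 v (nodal a) P) : compClass ha0 ha P = 1 := by
  rw [compClass, QuotientGroup.eq_one_iff]
  rw [show Units.mk0 (phi v a P) (phi_ne_zero ha0 ha P) = 1 from
    Units.ext (by simpa using phi_eq_one ha h)]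
  exact one_mem _

omit [DecidableEq L] [IsAlgClosed L] in
lemma compClass_neg (ha0 : a ≠ 0) (ha : v a < 1) (P : (nodal a).toAffine.Point) :
    compClass ha0 ha (-P) = (compClass ha0 ha P)⁻¹ := by
  by_cases h : InNode v a P
  · rw [eq_inv_iff_mul_eq_one, compClass, compClass, ← QuotientGroup.mk_mul,
      QuotientGroup.eq_one_iff, Subgroup.mem_zpowers_iff]
    exact ⟨1, Units.ext (by simpa [mul_comm] using (phi_neg ha0 ha h).symm)⟩
  · have h0 := (inE0_iff_not_inNode ha P).2 h
    rw [compClass_of_inE0 ha0 ha h0, compClass_of_inE0 ha0 ha (inE0_neg_nodal ha h0), inv_one]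

lemma compClass_add (ha0 : a ≠ 0) (ha : v a < 1) (P R : (nodal a).toAffine.Point) :
    compClass ha0 ha (P + R) = compClass ha0 ha P * compClass ha0 ha R := by
  have hmul : ∀ {X Y Z : (nodal a).toAffine.Point}, phi v a Z = phi v a X * phi v a Y →
      compClass ha0 ha Z = compClass ha0 ha X * compClass ha0 ha Y := by
    intro X Y Z h
    rw [compClass, compClass, compClass, ← QuotientGroup.mk_mul]
    congr 1
    exact Units.ext (by simpa using h)
  have hE : ∀ {X Y : (nodal a).toAffine.Point}, InE0 v (nodal a) Y →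
      compClass ha0 ha (X + Y) = compClass ha0 ha X := by
    intro X Y hY
    by_cases hX : InNode v a X
    · exact compClass_eq_of_phi ha0 ha (add_inE0 ha0 ha hX hY).2
    · have hX0 := (inE0_iff_not_inNode ha X).2 hX
      rw [compClass_of_inE0 ha0 ha hX0, compClass_of_inE0 ha0 ha (inE0_add_nodal ha0 ha hX0 hY)]
  -- left-or-middle points
  let LM : (nodal a).toAffine.Point → Prop := fun X => (∃ e, IsLeft v a e X) ∨ IsMid v a X
  have hLM : ∀ {X Y : (nodal a).toAffine.Point}, LM X → LM Y →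
      compClass ha0 ha (X + Y) = compClass ha0 ha X * compClass ha0 ha Y := by
    have hlm : ∀ {X Y : (nodal a).toAffine.Point} {e : Γ₀}, IsLeft v a e X → IsMid v a Y →
        compClass ha0 ha (X + Y) = compClass ha0 ha X * compClass ha0 ha Y := by
      intro X Y e hX hY
      obtain ⟨-, hm⟩ := phi_mid ha0 ha hY
      obtain ⟨-, hp⟩ := phi_left hX
      have hle : phi v a Y ≤ e := by
        rcases X with _ | ⟨x, y, h⟩
        · exact hX.elim
        exact (pow_le_pow_iff_left₀ zero_le zero_le two_ne_zero).1 (hm.le.trans hX.2.2.2.2.le)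
      exact hmul ((phi_add_left ha0 hX (Or.inr ⟨hY, hm⟩) hle).2.trans (by rw [hp]))
    intro X Y hX hY
    rcases hX with ⟨e, hX⟩ | hX <;> rcases hY with ⟨η, hY⟩ | hY
    · rcases le_total η e with h | h
      · exact hmul ((phi_add_left ha0 hX (Or.inl hY) h).2.trans
          (by rw [(phi_left hX).2, (phi_left hY).2]))
      · rw [add_comm, mul_comm]
        exact hmul ((phi_add_left ha0 hY (Or.inl hX) h).2.trans
          (by rw [(phi_left hX).2, (phi_left hY).2]))
    · exact hlm hX hY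
    · rw [add_comm, mul_comm]; exact hlm hY hX
    · rw [compClass_of_inE0 ha0 ha
        ((inE0_iff_not_inNode ha _).2 (inNode_add_mid_false ha0 ha hX hY)), eq_comm,
        compClass, compClass, ← QuotientGroup.mk_mul, QuotientGroup.eq_one_iff,
        Subgroup.mem_zpowers_iff]
      refine ⟨1, Units.ext ?_⟩
      have heq := (pow_left_inj₀ zero_le zero_le two_ne_zero).1
        ((phi_mid ha0 ha hX).2.trans (phi_mid ha0 ha hY).2.symm)
      simp [← heq, ← pow_two, (phi_mid ha0 ha hX).2]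
  have hmixed : ∀ {X Y : (nodal a).toAffine.Point}, LM X → LM (-Y) →
      compClass ha0 ha (X + Y) = compClass ha0 ha X * compClass ha0 ha Y := by
    intro X Y hX hY
    by_cases hW : InNode v a (X + Y)
    · rcases node_cases ha0 hW with ⟨g, hg⟩ | ⟨g, hg⟩ | hg
      rotate_left
      · have h := hLM hX (Or.inl ⟨g, hg⟩)
        rw [show X + -(X + Y) = -Y by abel, compClass_neg, compClass_neg] at h
        rw [inv_eq_iff_eq_inv, mul_inv, inv_inv] at h
        rw [h]; group
      all_goals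
        first
          | have h := hLM (Or.inl ⟨g, hg⟩) hY
          | have h := hLM (Or.inr hg) hY
        rw [add_neg_cancel_right, compClass_neg] at h
        rw [h]; group
    · have h0 := (inE0_iff_not_inNode ha _).2 hW
      have h := hE (X := -Y) h0
      rw [show -Y + (X + Y) = X by abel, compClass_neg] at h
      rw [compClass_of_inE0 ha0 ha h0, h, inv_mul_cancel]
  by_cases hR : InNode v a R
  swap
  · have h0 := (inE0_iff_not_inNode ha R).2 hR
    rw [hE h0, compClass_of_inE0 ha0 ha h0, mul_one]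
  by_cases hP : InNode v a P
  swap
  · have h0 := (inE0_iff_not_inNode ha P).2 hP
    rw [add_comm, hE h0, compClass_of_inE0 ha0 ha h0, one_mul]
  have tri : ∀ {X : (nodal a).toAffine.Point}, InNode v a X → LM X ∨ LM (-X) := by
    intro X hX
    rcases node_cases ha0 hX with h | h | h
    · exact Or.inl (Or.inl h)
    · exact Or.inr (Or.inl h)
    · exact Or.inl (Or.inr h)
  rcases tri hP with hP' | hP' <;> rcases tri hR with hR' | hR'
  · exact hLM hP' hR'
  · exact hmixed hP' hR'
  · rw [add_comm, mul_comm]; exact hmixed hR' hP'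
  · have h := hLM hP' hR'
    rw [← neg_add, compClass_neg, compClass_neg, compClass_neg, ← mul_inv, inv_inj] at h
    exact h

/-- The component homomorphism of the nodal model. -/
noncomputable def compHom (ha0 : a ≠ 0) (ha : v a < 1) :
    (nodal a).toAffine.Point →+ Additive (CompGroup (v.ne_zero_iff.2 ha0)) where
  toFun P := Additive.ofMul (compClass ha0 ha P)
  map_zero' := by rw [compClass_of_inE0 ha0 ha inE0_zero]; rfl
  map_add' P R := by rw [compClass_add ha0 ha P R]; rfl

/-- Points with the same value differ by a point with nonsingular reduction. -/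
lemma inE0_sub_of_phi_eq (ha0 : a ≠ 0) (ha : v a < 1) {P R : (nodal a).toAffine.Point}
    (h : phi v a P = phi v a R) : InE0 v (nodal a) (P - R) := by
  have hc : compClass ha0 ha (P - R) = 1 := by
    rw [sub_eq_add_neg, compClass_add, compClass_neg, compClass_eq_of_phi ha0 ha h,
      mul_inv_cancel]
  rw [inE0_iff_not_inNode ha]
  intro hN
  obtain ⟨h1, h2⟩ := phi_bounds ha0 ha hN
  rw [compClass, QuotientGroup.eq_one_iff, Subgroup.mem_zpowers_iff] at hc
  obtain ⟨k, hk⟩ := hc
  have hk' : v a ^ k = phi v a (P - R) := by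
    simpa using congrArg Units.val hk
  rw [← hk'] at h1 h2
  have hA0 : (0 : Γ₀) < v a := lt_of_le_of_ne zero_le (v.ne_zero_iff.2 ha0).symm
  have hk0 : 0 < k := by
    by_contra hc
    exact absurd h2 (not_lt.2 (one_le_zpow_of_nonpos₀ hA0 ha.le (not_lt.1 hc)))
  have hk1 : k < 1 := by
    by_contra hc
    have : v a ^ k ≤ v a := by
      simpa using zpow_le_zpow_right_of_le_one₀ hA0 ha.le (not_lt.1 hc)
    exact absurd h1 (not_lt.2 this)
  omega

/-- The value of an `n`-torsion point at the node: `φ^n = |a|^j` with `0 < j < n`. -/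
lemma exists_phi_pow (ha0 : a ≠ 0) (ha : v a < 1) {P : (nodal a).toAffine.Point}
    (hP : InNode v a P) {n : ℕ} (hn : n ≠ 0) (hnP : InE0 v (nodal a) (n • P)) :
    ∃ j : ℕ, 0 < j ∧ j < n ∧ phi v a P ^ n = v a ^ j := by
  have h := congrArg Additive.toMul ((compHom ha0 ha).map_nsmul n P)
  simp only [compHom, AddMonoidHom.coe_mk, ZeroHom.coe_mk, toMul_ofMul, toMul_nsmul,
    compClass_of_inE0 ha0 ha hnP] at h
  rw [compClass, ← QuotientGroup.mk_pow, eq_comm, QuotientGroup.eq_one_iff,
    Subgroup.mem_zpowers_iff] at h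
  obtain ⟨k, hk⟩ := h
  have hk' : v a ^ k = phi v a P ^ n := by simpa using congrArg Units.val hk
  obtain ⟨h1, h2⟩ := phi_bounds ha0 ha hP
  have hA0 : (0 : Γ₀) < v a := lt_of_le_of_ne zero_le (v.ne_zero_iff.2 ha0).symm
  have hlo : v a ^ (n : ℤ) < v a ^ k := by
    rw [hk', zpow_natCast]; exact pow_lt_pow_left₀ h1 zero_le hn
  have hhi : v a ^ k < 1 := by rw [hk']; exact pow_lt_one₀ zero_le h2 hn
  have hk0 : 0 < k := by
    by_contra hc
    exact absurd hhi (not_lt.2 (one_le_zpow_of_nonpos₀ hA0 ha.le (not_lt.1 hc)))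
  have hkn : k < n := by
    by_contra hc
    exact absurd hlo (not_lt.2 (zpow_le_zpow_right_of_le_one₀ hA0 ha.le (not_lt.1 hc)))
  refine ⟨k.toNat, by omega, by omega, ?_⟩
  rw [← hk', ← zpow_natCast, Int.toNat_of_nonneg hk0.le]

omit [DecidableEq L] in
/-- A left point above a given `x = c`, fixed by every valuation-preserving endomorphism fixing `a`
and `c`. -/
lemma exists_left_point (ha0 : a ≠ 0) (ha : v a < 1) {c : L} (hc1 : v c < 1)
    (hA : v a < v c ^ 2) :
    ∃ (y : L) (h : (nodal a).toAffine.Nonsingular c y), IsLeft v a (v c) (.some c y h) ∧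
      ∀ σ : L →+* L, (∀ z, v (σ z) = v z) → σ a = a → σ c = c → σ y = y := by
  have hc0 : (0 : Γ₀) < v c := lt_of_le_of_ne zero_le fun h0 => by
    rw [← h0, zero_pow two_ne_zero] at hA; exact not_lt_of_ge zero_le hA
  obtain ⟨y0, hy0⟩ := exists_quadratic_root c (-(c ^ 3 + a))
  have hsmall : v (y0 * (c + y0)) < v c ^ 2 := by
    rw [show y0 * (c + y0) = c ^ 3 + a by linear_combination hy0]
    refine v.map_add_lt ?_ hA
    rw [map_pow]; exact pow_lt_pow_right_of_lt_one₀ hc0 hc1 (by norm_num)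
  obtain ⟨y, hy, hyeq⟩ : ∃ y, v y < v c ∧ y * (y + c) = c ^ 3 + a := by
    by_cases h : v y0 < v c
    · exact ⟨y0, h, by linear_combination hy0⟩
    · refine ⟨-(y0 + c), ?_, by linear_combination hy0⟩
      rw [Valuation.map_neg, add_comm]
      by_contra hh
      rw [map_mul] at hsmall
      exact absurd hsmall
        (not_lt.2 (by rw [pow_two]; exact mul_le_mul' (not_lt.1 h) (not_lt.1 hh)))
  have hns : (nodal a).toAffine.Nonsingular c y :=
    (Affine.equation_iff_nonsingular_of_Δ_ne_zero (nodal_Δ_ne_zero (v := v) ha0 ha)).1 ((nodal_equation a).2 hyeq)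
  have hcy : v (c + y) = v c := v.map_add_eq_of_lt_left hy
  refine ⟨y, hns, ⟨rfl, hcy, hy, hc1, hA⟩, ?_⟩
  intro σ hiso hσa hσc
  have h1 : σ y * (σ y + c) = c ^ 3 + a := by
    have := congrArg σ hyeq
    rwa [map_mul, map_add, map_add, map_pow, hσa, hσc] at this
  have h2 : (σ y - y) * (σ y + y + c) = 0 := by linear_combination h1 - hyeq
  refine sub_eq_zero.1 ((mul_eq_zero.1 h2).resolve_right fun h0 => ?_)
  have h3 : v c ≤ max (v (σ y)) (v y) := by
    rw [show c = -(σ y + y) by linear_combination h0, Valuation.map_neg]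
    exact v.map_add _ _
  rw [hiso, max_self] at h3
  exact absurd hy (not_lt.2 h3)

end Fermat.Agent.MultRed
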