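import Fermat.Agent.MultRed.Transport
import Fermat.Agent.MultRed.NodalModel

/-!
# Normal form of multiplicative reduction

An integral curve with multiplicative reduction becomes `y² + xy = x³ + a` after an integral
change of variables which is fixed by inertia.
-/

set_option autoImplicit false

namespace Fermat.Agent.MultRed

open WeierstrassCurve

variable {L : Type*} [Field L] {Γ₀ : Type*} [LinearOrderedCommGroupWithZero Γ₀]
  {v : Valuation L Γ₀} {W : WeierstrassCurve L}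

/-- Integrality of a change of variables. -/
structure IntVC (v : Valuation L Γ₀) (C : VariableChange L) : Prop where
  u : v (C.u : L) = 1
  r : v C.r ≤ 1
  s : v C.s ≤ 1
  t : v C.t ≤ 1

lemma IntVC.vx_iff {C : VariableChange L} (hC : IntVC v C) (x : L) :
    1 < v (vcX C x) ↔ 1 < v x := by
  constructor
  · intro h
    by_contra hc
    exact absurd h (not_lt.2 (v.map_add_le
      (vmul_le_right (vpow_le 2 hC.u.le) (not_lt.1 hc)) hC.r))
  · intro h
    have hm : v ((C.u : L) ^ 2 * x) = v x := by rw [map_mul, map_pow, hC.u, one_pow, one_mul]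
    rw [vcX, v.map_add_eq_of_lt_left (by rw [hm]; exact lt_of_le_of_lt hC.r h), hm]
    exact h

lemma IntVC.intCoeffs {C : VariableChange L} (hC : IntVC v C) (hW : IntCoeffs v W) :
    IntCoeffs v (C • W) := by
  obtain ⟨hu, hr, hs, ht⟩ := hC
  have hi : ∀ n : ℕ, v (((C.u⁻¹ : Lˣ) : L) ^ n) ≤ 1 := fun n => by
    rw [map_pow, Units.val_inv_eq_inv_val, map_inv₀, hu, inv_one, one_pow]
  have h2 : v (2 : L) ≤ 1 := vofNat_le v 2
  have h3 : v (3 : L) ≤ 1 := vofNat_le v 3
  constructor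
  · rw [variableChange_a₁]
    exact vmul_le_left (by simpa using hi 1) (v.map_add_le hW.a₁ (vmul_le_left h2 hs))
  · rw [variableChange_a₂]
    exact vmul_le_left (hi 2) (v.map_sub_le (v.map_add_le (v.map_sub_le hW.a₂
      (vmul_le_left hs hW.a₁)) (vmul_le_left h3 hr)) (vpow_le 2 hs))
  · rw [variableChange_a₃]
    exact vmul_le_left (hi 3) (v.map_add_le (v.map_add_le hW.a₃ (vmul_le_left hr hW.a₁))
      (vmul_le_left h2 ht))
  · rw [variableChange_a₄]
    exact vmul_le_left (hi 4) (v.map_sub_le (v.map_add_le (v.map_sub_le (v.map_add_le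
      (v.map_sub_le hW.a₄ (vmul_le_left hs hW.a₃)) (vmul_le_left (vmul_le_left h2 hr) hW.a₂))
      (vmul_le_left (v.map_add_le ht (vmul_le_left hr hs)) hW.a₁))
      (vmul_le_left h3 (vpow_le 2 hr))) (vmul_le_left (vmul_le_left h2 hs) ht))
  · rw [variableChange_a₆]
    exact vmul_le_left (hi 6) (v.map_sub_le (v.map_sub_le (v.map_sub_le (v.map_add_le
      (v.map_add_le (v.map_add_le hW.a₆ (vmul_le_left hr hW.a₄))
      (vmul_le_left (vpow_le 2 hr) hW.a₂)) (vpow_le 3 hr)) (vmul_le_left ht hW.a₃))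
      (vpow_le 2 ht)) (vmul_le_left (vmul_le_left hr ht) hW.a₁))

variable [DecidableEq L]

lemma IntVC.inE1_iff {C : VariableChange L} (hC : IntVC v C) (P : (C • W).toAffine.Point) :
    InE1 v W (pointVC C W P) ↔ InE1 v (C • W) P := by
  rcases P with _ | ⟨x, y, h⟩
  · exact Iff.rfl
  · exact hC.vx_iff x

lemma IntVC.inE0_iff {C : VariableChange L} (hC : IntVC v C) (hW : IntCoeffs v W)
    (P : (C • W).toAffine.Point) :
    InE0 v W (pointVC C W P) ↔ InE0 v (C • W) P := by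
  rcases P with _ | ⟨x, y, h⟩
  · exact Iff.rfl
  rw [pointVC_some]
  simp only [InE0, hC.vx_iff x]
  by_cases hx : 1 < v x
  · exact iff_of_true (Or.inl hx) (Or.inl hx)
  refine or_congr_right ?_
  push Not at hx
  have hW' := hC.intCoeffs hW
  have hy := vy_le hW' h.1 hx
  obtain ⟨hu, hr, hs, ht⟩ := hC
  have hY := polyY_vc C W x y
  have hX := polyX_vc C W x y
  simp only [Affine.evalEval_polynomialY, Affine.evalEval_polynomialX] at hY hX
  set FY := 2 * y + (C • W).a₁ * x + (C • W).a₃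
  set FX := (C • W).a₁ * y - (3 * x ^ 2 + 2 * (C • W).a₂ * x + (C • W).a₄) with hFX
  have hFY' : v (2 * vcY C x y + W.a₁ * vcX C x + W.a₃) = v FY := by
    rw [hY, map_mul, map_pow, hu, one_pow, one_mul]
  rw [hFY']
  by_cases hF : v FY = 1
  · exact iff_of_true (Or.inl hF) (Or.inl hF)
  have hFlt : v FY < 1 := lt_of_le_of_ne
    (v.map_add_le (v.map_add_le (vmul_le_left (vofNat_le v 2) hy)
      (vmul_le_left hW'.a₁ hx)) hW'.a₃) hF
  have hFXle : v FX ≤ 1 := v.map_sub_le (vmul_le_left hW'.a₁ hy) (v.map_add_le (v.map_add_le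
    (vmul_le_left (vofNat_le v 3) (vpow_le 2 hx))
    (vmul_le_left (vmul_le_left (vofNat_le v 2) hW'.a₂) hx)) hW'.a₄)
  simp only [hF, false_or]
  rw [hX]
  have hsm : v (C.s * (C.u : L) ^ 3 * FY) < 1 :=
    vmul_lt_right (vmul_le_left hs (vpow_le 3 hu.le)) hFlt
  have hm : v ((C.u : L) ^ 4 * FX) = v FX := by
    rw [map_mul, map_pow, hu, one_pow, one_mul]
  rcases eq_or_lt_of_le hFXle with h1 | h1
  · refine iff_of_true ?_ h1
    rw [v.map_sub_eq_of_lt_left (by rw [hm, h1]; exact hsm), hm, h1]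
  · refine iff_of_false (fun h => ?_) h1.ne
    exact (v.map_sub_lt (hm.le.trans_lt h1) hsm).ne h

/-- Data reducing a curve with multiplicative reduction to the nodal model. -/
structure NodalData (v : Valuation L Γ₀) (W : WeierstrassCurve L) where
  /-- The change of variables. -/
  C : VariableChange L
  /-- The remaining coefficient. -/
  a : L
  hC : IntVC v C
  hCW : C • W = nodal a
  va : v a = v W.Δ
  fixed : ∀ σ : L →+* L, (∀ z, v (σ z) = v z) → (∀ z, v z ≤ 1 → v (σ z - z) < 1) →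
    W.map σ = W → σ C.u = C.u ∧ σ C.r = C.r ∧ σ C.s = C.s ∧ σ C.t = C.t ∧ σ a = a
  vx : ∀ x : L, v x ≤ 1 → v (x - C.r) = v (6 * x ^ 2 + W.b₂ * x + W.b₄) ∨
    (1 ≤ v (x - C.r) ∧ v (6 * x ^ 2 + W.b₂ * x + W.b₄) ≤ 1)

omit [DecidableEq L] in
lemma b₂_sq_sub (W : WeierstrassCurve L) (r : L) :
    (12 * r + W.b₂) ^ 2 = 24 * (6 * r ^ 2 + W.b₂ * r + W.b₄) + W.c₄ := by
  rw [WeierstrassCurve.c₄]; ring

variable [IsAlgClosed L]

omit [DecidableEq L] in
/-- Every integral curve with multiplicative reduction admits nodal data. -/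
theorem exists_nodalData (hW : IntCoeffs v W) (hc4 : v W.c₄ = 1) (hΔ : v W.Δ < 1) :
    Nonempty (NodalData v W) := by
  have h2 : v (2 : L) ≤ 1 := vofNat_le v 2
  have hb2 := vb₂_le hW
  have hb4 := vb₄_le hW
  have hb6 := vb₆_le hW
  have hc0 : W.c₄ ≠ 0 := v.ne_zero_iff.1 (by rw [hc4]; exact one_ne_zero)
  -- approximate node
  set x₀ := (18 * W.b₆ - W.b₂ * W.b₄) / W.c₄ with hx₀d
  have hx₀ : v x₀ ≤ 1 := by
    rw [hx₀d, map_div₀, hc4, div_one]
    exact v.map_sub_le (vmul_le_left (vofNat_le v 18) hb6) (vmul_le_left hb2 hb4)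
  have hQ₀ : W.c₄ ^ 2 * (6 * x₀ ^ 2 + W.b₂ * x₀ + W.b₄) = -72 * W.Δ := by
    have hb8 := W.b_relation
    rw [hx₀d]
    field_simp
    simp only [WeierstrassCurve.c₄, WeierstrassCurve.Δ]
    linear_combination (-18 * W.b₂ ^ 2) * hb8
  have hQ₀v : v (6 * x₀ ^ 2 + W.b₂ * x₀ + W.b₄) < 1 := by
    have h := congrArg v hQ₀
    rw [map_mul, map_pow, hc4, one_pow, one_mul] at h
    rw [h]
    exact vmul_lt_right (by rw [Valuation.map_neg]; exact vofNat_le v 72) hΔ
  obtain ⟨Q₁, hQ₁d⟩ : ∃ Q₁, Q₁ = 12 * x₀ + W.b₂ := ⟨_, rfl⟩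
  have hunit : ∀ x : L, v (6 * x ^ 2 + W.b₂ * x + W.b₄) < 1 → v (12 * x + W.b₂) = 1 := by
    intro x hx
    have h : v ((12 * x + W.b₂) ^ 2) = 1 := by
      rw [b₂_sq_sub, v.map_add_eq_of_lt_right, hc4]
      rw [hc4]; exact vmul_lt_right (vofNat_le v 24) hx
    rwa [map_pow, pow_eq_one_iff_of_nonneg zero_le two_ne_zero] at h
  have hQ₁ : v Q₁ = 1 := hQ₁d ▸ hunit _ hQ₀v
  obtain ⟨m, hm⟩ := exists_quadratic_root Q₁ (6 * (6 * x₀ ^ 2 + W.b₂ * x₀ + W.b₄))
  set Q₀ := 6 * x₀ ^ 2 + W.b₂ * x₀ + W.b₄ with hQ₀d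
  obtain ⟨m, hm, hmu⟩ : ∃ m : L, m ^ 2 + Q₁ * m + 6 * Q₀ = 0 ∧ v m = 1 := by
    rcases eq_or_ne (v m) 1 with h | h
    · exact ⟨m, hm, h⟩
    refine ⟨-Q₁ - m, by linear_combination hm, ?_⟩
    have hlt : v m < 1 := by
      refine lt_of_le_of_ne (not_lt.1 fun hgt => ?_) h
      have hbig : v (m ^ 2) ≤ v m := by
        rw [show m ^ 2 = -(Q₁ * m) - 6 * Q₀ by linear_combination hm]
        refine v.map_sub_le ?_ ((vmul_le_left (vofNat_le v 6) hQ₀v.le).trans hgt.le)
        rw [Valuation.map_neg, map_mul, hQ₁, one_mul]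
      rw [map_pow, pow_two] at hbig
      exact absurd hbig (not_le.2 (lt_mul_of_one_lt_left (lt_trans zero_lt_one hgt) hgt))
    rw [v.map_sub_eq_of_lt_left (by rw [Valuation.map_neg, hQ₁]; exact hlt), Valuation.map_neg, hQ₁]
  have hm0 : m ≠ 0 := v.ne_zero_iff.1 (by rw [hmu]; exact one_ne_zero)
  set r := x₀ + Q₀ / m with hrd
  have hrx : v (r - x₀) < 1 := by
    rw [hrd, add_sub_cancel_left, map_div₀, hmu, div_one]; exact hQ₀v
  have hr : v r ≤ 1 := by
    rw [show r = x₀ + (r - x₀) by ring]; exact v.map_add_le hx₀ hrx.le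
  have hQr : 6 * r ^ 2 + W.b₂ * r + W.b₄ = 0 := by
    have : (6 * r ^ 2 + W.b₂ * r + W.b₄) * m ^ 2 = Q₀ * (m ^ 2 + Q₁ * m + 6 * Q₀) := by
      rw [hrd, hQ₁d, hQ₀d]; field_simp; ring
    rw [hm, mul_zero] at this
    exact (mul_eq_zero.1 this).resolve_right (pow_ne_zero 2 hm0)
  have hQ1r : v (12 * r + W.b₂) = 1 := hunit r (by rw [hQr, map_zero]; exact zero_lt_one)
  set t := (W.b₂ * (3 * W.a₁ * r ^ 2 + W.a₁ * W.a₄ - 2 * W.a₂ * W.a₃) +
    12 * W.b₄ * (W.a₁ * r + W.a₃)) / W.c₄ with htd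
  have ht : v t ≤ 1 := by
    rw [htd, map_div₀, hc4, div_one]
    exact v.map_add_le (vmul_le_left hb2 (v.map_sub_le (v.map_add_le
      (vmul_le_left (vmul_le_left (vofNat_le v 3) hW.a₁) (vpow_le 2 hr))
      (vmul_le_left hW.a₁ hW.a₄)) (vmul_le_left (vmul_le_left h2 hW.a₂) hW.a₃)))
      (vmul_le_left (vmul_le_left (vofNat_le v 12) hb4)
        (v.map_add_le (vmul_le_left hW.a₁ hr) hW.a₃))
  have hFy : 2 * t + W.a₁ * r + W.a₃ = 0 := by
    refine (mul_eq_zero.1 (?_ : W.c₄ * (2 * t + W.a₁ * r + W.a₃) = 0)).resolve_left hc0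
    rw [htd]; field_simp
    simp only [WeierstrassCurve.c₄, WeierstrassCurve.b₂, WeierstrassCurve.b₄] at hQr ⊢
    linear_combination (W.a₁ * (W.a₁ ^ 2 + 4 * W.a₂)) * hQr
  have hFx : W.a₁ * t - 3 * r ^ 2 - 2 * W.a₂ * r - W.a₄ = 0 := by
    refine (mul_eq_zero.1
      (?_ : W.c₄ * (W.a₁ * t - 3 * r ^ 2 - 2 * W.a₂ * r - W.a₄) = 0)).resolve_left hc0
    rw [htd]; field_simp
    simp only [WeierstrassCurve.c₄, WeierstrassCurve.b₂, WeierstrassCurve.b₄] at hQr ⊢
    linear_combination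
      (-2 * W.a₂ * (W.a₁ ^ 2 + 4 * W.a₂) + 12 * (2 * W.a₄ + W.a₁ * W.a₃)) * hQr
  -- the translated curve
  obtain ⟨s, hs'⟩ := exists_quadratic_root W.a₁ (-(W.a₂ + 3 * r))
  have hs : v s ≤ 1 := by
    by_contra hc
    push Not at hc
    have hsq : v (s ^ 2) ≤ v s := by
      rw [show s ^ 2 = -(W.a₁ * s) + (W.a₂ + 3 * r) by linear_combination hs']
      refine v.map_add_le (by rw [Valuation.map_neg]; exact vmul_le_right hW.a₁ le_rfl) ?_
      exact (v.map_add_le hW.a₂ (vmul_le_left (vofNat_le v 3) hr)).trans hc.le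
    rw [map_pow, pow_two] at hsq
    exact absurd hsq (not_le.2 (lt_mul_of_one_lt_left (lt_trans zero_lt_one hc) hc))
  set u := W.a₁ + 2 * s with hud
  have hu2 : u ^ 2 = 12 * r + W.b₂ := by
    rw [hud, WeierstrassCurve.b₂]; linear_combination 4 * hs'
  have hu : v u = 1 := by
    rw [← hu2, map_pow, pow_eq_one_iff_of_nonneg zero_le two_ne_zero] at hQ1r; exact hQ1r
  have hu0 : u ≠ 0 := v.ne_zero_iff.1 (by rw [hu]; exact one_ne_zero)
  set C : VariableChange L := ⟨Units.mk0 u hu0, r, s, t⟩ with hCd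
  have hC : IntVC v C := ⟨hu, hr, hs, ht⟩
  set a := (C • W).a₆ with had
  have hCW : C • W = nodal a := by
    ext <;>
      simp only [nodal, variableChange_a₁, variableChange_a₂, variableChange_a₃,
        variableChange_a₄, had, hCd, Units.val_inv_eq_inv_val, Units.val_mk0]
    · rw [← hud]; exact inv_mul_cancel₀ hu0
    · rw [show W.a₂ - s * W.a₁ + 3 * r - s ^ 2 = 0 by linear_combination -hs', mul_zero]
    · rw [show W.a₃ + r * W.a₁ + 2 * t = 0 by linear_combination hFy, mul_zero]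
    · rw [show W.a₄ - s * W.a₃ + 2 * r * W.a₂ - (t + r * s) * W.a₁ + 3 * r ^ 2 - 2 * s * t = 0 by
        linear_combination -hFx - s * hFy, mul_zero]
  have huinv : v ((C.u⁻¹ : Lˣ) : L) = 1 := by
    rw [Units.val_inv_eq_inv_val, map_inv₀, hC.u, inv_one]
  have hΔ' : v (C • W).Δ = v W.Δ := by
    rw [variableChange_Δ, map_mul, map_pow, huinv, one_pow, one_mul]
  have ha : v a = v W.Δ := by
    have hai : v a ≤ 1 := (hC.intCoeffs hW).a₆
    have h432 : v (432 * a) < 1 := by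
      have h72 : 72 * a = (18 * (C • W).b₆ - (C • W).b₂ * (C • W).b₄) := by
        rw [hCW]; simp [WeierstrassCurve.b₂, WeierstrassCurve.b₄, WeierstrassCurve.b₆, nodal]; ring
      rw [variableChange_b₂, variableChange_b₄, variableChange_b₆] at h72
      have hkey : 72 * a = ((C.u⁻¹ : Lˣ) : L) ^ 6 * ((x₀ - r) * W.c₄) := by
        rw [h72, hx₀d]
        simp only [hCd, Units.val_inv_eq_inv_val, Units.val_mk0]
        field_simp
        simp only [WeierstrassCurve.c₄]
        ring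
      rw [show (432 : L) * a = 6 * (72 * a) by ring, hkey]
      refine vmul_lt_right (vofNat_le v 6) (vmul_lt_right (vpow_le 6 huinv.le) ?_)
      exact vmul_lt_left (by rwa [v.map_sub_swap]) hc4.le
    have hD : (nodal a).Δ = -(a * (1 + 432 * a)) := by
      simp [WeierstrassCurve.Δ, WeierstrassCurve.b₂, WeierstrassCurve.b₄, WeierstrassCurve.b₆,
        WeierstrassCurve.b₈, nodal]
      ring
    rw [← hΔ', hCW, hD, Valuation.map_neg, map_mul, v.map_one_add_of_lt h432, mul_one]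
  refine ⟨⟨C, a, hC, hCW, ha, ?_, ?_⟩⟩
  · intro σ _ hres hσ
    have h1 : σ W.a₁ = W.a₁ := congrArg WeierstrassCurve.a₁ hσ
    have h2' : σ W.a₂ = W.a₂ := congrArg WeierstrassCurve.a₂ hσ
    have h3 : σ W.a₃ = W.a₃ := congrArg WeierstrassCurve.a₃ hσ
    have h4 : σ W.a₄ = W.a₄ := congrArg WeierstrassCurve.a₄ hσ
    have h6 : σ W.a₆ = W.a₆ := congrArg WeierstrassCurve.a₆ hσ
    have hb2σ : σ W.b₂ = W.b₂ := by
      simp only [WeierstrassCurve.b₂, map_add, map_mul, map_pow, map_ofNat, h1, h2']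
    have hb4σ : σ W.b₄ = W.b₄ := by
      simp only [WeierstrassCurve.b₄, map_add, map_mul, map_ofNat, h1, h3, h4]
    have hrσ : σ r = r := by
      have hroot : 6 * σ r ^ 2 + W.b₂ * σ r + W.b₄ = 0 := by
        have := congrArg σ hQr
        simpa only [map_add, map_mul, map_pow, map_ofNat, hb2σ, hb4σ, map_zero] using this
      have hprod : (σ r - r) * (6 * (σ r - r) + (12 * r + W.b₂)) = 0 := by
        linear_combination hroot - hQr
      refine sub_eq_zero.1 ((mul_eq_zero.1 hprod).resolve_right (v.ne_zero_iff.1 ?_))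
      rw [v.map_add_eq_of_lt_right, hQ1r]
      · exact one_ne_zero
      · rw [hQ1r]; exact vmul_lt_right (vofNat_le v 6) (hres r hr)
    have hsσ : σ s = s := by
      have hroot : σ s ^ 2 + W.a₁ * σ s + -(W.a₂ + 3 * r) = 0 := by
        have := congrArg σ hs'
        simpa only [map_add, map_mul, map_pow, map_neg, map_ofNat, h1, h2', hrσ, map_zero]
          using this
      have hprod : (σ s - s) * ((σ s - s) + u) = 0 := by
        rw [hud]; linear_combination hroot - hs'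
      refine sub_eq_zero.1 ((mul_eq_zero.1 hprod).resolve_right (v.ne_zero_iff.1 ?_))
      rw [v.map_add_eq_of_lt_right (by rw [hu]; exact hres s hs), hu]
      exact one_ne_zero
    have huσ : σ u = u := by simp only [hud, map_add, map_mul, map_ofNat, h1, hsσ]
    have htσ : σ t = t := by
      simp only [htd, WeierstrassCurve.c₄, map_div₀, map_add, map_sub, map_mul, map_pow, map_ofNat,
        hb2σ, hb4σ, h1, h2', h3, h4, hrσ]
    refine ⟨huσ, hrσ, hsσ, htσ, ?_⟩
    simp only [had, variableChange_a₆, hCd, Units.val_inv_eq_inv_val, Units.val_mk0, map_mul,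
      map_pow, map_inv₀, map_sub, map_add, huσ, hrσ, htσ, h1, h2', h3, h4, h6]
  · intro x hx
    have hfac : 6 * x ^ 2 + W.b₂ * x + W.b₄ = (x - r) * (6 * (x - r) + (12 * r + W.b₂)) := by
      linear_combination hQr
    rcases lt_or_ge (v (x - r)) 1 with h | h
    · left
      show v (x - r) = _
      rw [hfac, map_mul, v.map_add_eq_of_lt_right, hQ1r, mul_one]
      rw [hQ1r]; exact vmul_lt_right (vofNat_le v 6) h
    · right
      exact ⟨h, v.map_add_le (v.map_add_le (vmul_le_left (vofNat_le v 6) (vpow_le 2 hx))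
        (vmul_le_left hb2 hx)) hb4⟩

end Fermat.Agent.MultRed
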