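/-
Inertia and the torsion of integral Weierstrass curves at primes of semistable reduction.

Public interface: everything is stated for `W : WeierstrassCurve ℤ`, points of
`((W.map (Int.castRingHom ℚ))⁄(AlgebraicClosure ℚ))` and a valuation subring `A` of `ℚ̄` lying over
a prime `q`. Nonsingular reduction is the Prelude predicate `InZeroComponentAt`.
-/
import Fermat.Agent.MultRed.Normalize
import Fermat.Prelude.Def_EllipticCurve_ZeroComponentAt
import Fermat.Prelude.Def_FLTPrelim_Ramification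
import Mathlib.FieldTheory.Galois.Infinite
import Mathlib.FieldTheory.IsAlgClosed.AlgebraicClosure
import Mathlib.NumberTheory.Padics.PadicVal.Basic

set_option autoImplicit false

namespace Fermat.Agent.MultRed

open WeierstrassCurve
open scoped WeierstrassCurve.Affine Pointwise

local notation "ℚ̄" => AlgebraicClosure ℚ

/-- An integral curve over `ℚ̄`. -/
noncomputable abbrev curveQbar (W : WeierstrassCurve ℤ) : WeierstrassCurve ℚ̄ :=
  (W.map (Int.castRingHom ℚ))⁄ℚ̄

variable (W : WeierstrassCurve ℤ) (A : ValuationSubring ℚ̄)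

/-- The point reduces to the origin at `A`. -/
def InE1At (P : ((W.map (Int.castRingHom ℚ))⁄ℚ̄).Point) : Prop :=
  InE1 A.valuation (curveQbar W) P

variable {W A}

/-! ### Valuations of rational numbers -/

lemma vint_le (z : ℤ) : A.valuation (z : ℚ̄) ≤ 1 :=
  (A.valuation_le_one_iff _).2 (intCast_mem A z)

variable {q : ℕ}

lemma vq_lt_one (hA : A.LiesOverPrime q) : A.valuation (q : ℚ̄) < 1 :=
  (ValuationSubring.mem_nonunits_iff A).1 hA

lemma vq_pos (hq : q.Prime) : 0 < A.valuation (q : ℚ̄) :=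
  lt_of_le_of_ne zero_le (A.valuation.ne_zero_iff.2 (Nat.cast_ne_zero.2 hq.ne_zero)).symm

lemma vint_eq_one (hq : q.Prime) (hA : A.LiesOverPrime q) {z : ℤ} (hz : ¬ (q : ℤ) ∣ z) :
    A.valuation (z : ℚ̄) = 1 := by
  refine le_antisymm (vint_le z) (not_lt.1 fun h => ?_)
  obtain ⟨c, d, hcd⟩ := ((Nat.prime_iff_prime_int.1 hq).coprime_iff_not_dvd).2 hz
  have h1 : ((c * (q : ℤ) + d * z : ℤ) : ℚ̄) = 1 := by rw [hcd, Int.cast_one]
  have : A.valuation (1 : ℚ̄) < 1 := by
    rw [← h1]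
    push_cast
    exact A.valuation.map_add_lt (vmul_lt_right (vint_le c) (vq_lt_one hA))
      (vmul_lt_right (vint_le d) h)
  rw [map_one] at this
  exact lt_irrefl _ this

lemma vint_lt_one (hA : A.LiesOverPrime q) {z : ℤ} (hz : (q : ℤ) ∣ z) :
    A.valuation (z : ℚ̄) < 1 := by
  obtain ⟨k, rfl⟩ := hz
  push_cast
  exact vmul_lt_left (vq_lt_one hA) (vint_le k)

lemma vnat_eq_one (hq : q.Prime) (hA : A.LiesOverPrime q) {n : ℕ} (hn : ¬ q ∣ n) :
    A.valuation (n : ℚ̄) = 1 := by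
  have := vint_eq_one hq hA (z := (n : ℤ)) (by exact_mod_cast hn)
  exact_mod_cast this

lemma vint_eq_pow (hq : q.Prime) (hA : A.LiesOverPrime q) {z : ℤ} (hz : z ≠ 0) :
    A.valuation (z : ℚ̄) = A.valuation (q : ℚ̄) ^ padicValInt q z := by
  have := Fact.mk hq
  obtain ⟨m, hm⟩ : (q : ℤ) ^ padicValInt q z ∣ z := padicValInt_dvd z
  have hmq : ¬ (q : ℤ) ∣ m := fun ⟨k, hk⟩ => by
    have : (q : ℤ) ^ (padicValInt q z + 1) ∣ z := ⟨k, by rw [pow_succ, mul_assoc, ← hk, ← hm]⟩
    rcases (padicValInt_dvd_iff _ z).1 this with h | h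
    · exact hz h
    · omega
  conv_lhs => rw [hm]
  push_cast
  rw [map_mul, map_pow, vint_eq_one hq hA hmq, mul_one]

lemma vrat_eq_zpow (hq : q.Prime) (hA : A.LiesOverPrime q) {x : ℚ} (hx : x ≠ 0) :
    ∃ k : ℤ, A.valuation (x : ℚ̄) = A.valuation (q : ℚ̄) ^ k := by
  refine ⟨(padicValInt q x.num : ℤ) - (padicValInt q x.den : ℤ), ?_⟩
  have h : (x : ℚ̄) = (x.num : ℚ̄) / ((x.den : ℤ) : ℚ̄) := by
    rw [Rat.cast_def]; norm_cast
  rw [h, map_div₀, vint_eq_pow hq hA (Rat.num_ne_zero.2 hx),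
    vint_eq_pow hq hA (Int.natCast_ne_zero.2 x.den_ne_zero), zpow_sub₀ (vq_pos hq).ne',
    zpow_natCast, zpow_natCast]

/-! ### Galois automorphisms -/

/-- An automorphism of `ℚ̄` stabilising `A` preserves its valuation. -/
lemma decomp_isometry {σ : ℚ̄ ≃ₐ[ℚ] ℚ̄} (hσ : σ ∈ A.decompositionSubgroup ℚ) (x : ℚ̄) :
    A.valuation (σ x) = A.valuation x := by
  have key : ∀ τ : ℚ̄ ≃ₐ[ℚ] ℚ̄, τ ∈ A.decompositionSubgroup ℚ → ∀ z ∈ A, τ z ∈ A := by
    intro τ hτ z hz
    have : τ • z ∈ τ • A := by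
      rw [ValuationSubring.mem_smul_pointwise_iff_exists]; exact ⟨z, hz, rfl⟩
    rwa [MulAction.mem_stabilizer_iff.1 hτ] at this
  have mono : ∀ a b : ℚ̄, A.valuation a ≤ A.valuation b →
      A.valuation (σ a) ≤ A.valuation (σ b) := by
    intro a b hab
    rcases eq_or_ne b 0 with rfl | hb
    · rw [map_zero, le_zero_iff, A.valuation.zero_iff] at hab
      rw [hab]
    have hmem : a / b ∈ A := (A.valuation_le_one_iff _).1 (by
      rw [map_div₀, div_le_one₀ (lt_of_le_of_ne zero_le (A.valuation.ne_zero_iff.2 hb).symm)]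
      exact hab)
    have := (A.valuation_le_one_iff _).2 (key σ hσ _ hmem)
    rw [map_div₀, map_div₀, div_le_one₀
      (lt_of_le_of_ne zero_le (A.valuation.ne_zero_iff.2 (by simpa using hb)).symm)] at this
    exact this
  have mono' : ∀ a b : ℚ̄, A.valuation a < A.valuation b →
      A.valuation (σ a) < A.valuation (σ b) := by
    intro a b hab
    by_contra hc
    have hinv := (A.decompositionSubgroup ℚ).inv_mem hσ
    have h' : A.valuation b ≤ A.valuation a := by
      rcases eq_or_ne a 0 with rfl | ha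
      · rw [map_zero, map_zero, not_lt, le_zero_iff, A.valuation.zero_iff] at hc
        rw [show b = 0 from σ.injective (by rw [hc, map_zero])]
      have hmem : σ b / σ a ∈ A := (A.valuation_le_one_iff _).1 (by
        rw [map_div₀, div_le_one₀ (lt_of_le_of_ne zero_le
          (A.valuation.ne_zero_iff.2 (by simpa using ha)).symm)]
        exact not_lt.1 hc)
      have := (A.valuation_le_one_iff _).2 (key σ⁻¹ hinv _ hmem)
      rw [map_div₀, show σ⁻¹ (σ b) = b from σ.symm_apply_apply b,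
        show σ⁻¹ (σ a) = a from σ.symm_apply_apply a, map_div₀,
        div_le_one₀ (lt_of_le_of_ne zero_le (A.valuation.ne_zero_iff.2 ha).symm)] at this
      exact this
    exact absurd hab (not_lt.2 h')
  -- orbits of algebraic elements are finite
  set f : ℕ → ℚ̄ := fun k => (σ ^ k) x with hf
  have hfs : ∀ k, f (k + 1) = σ (f k) := fun k => by
    simp only [hf, pow_succ', AlgEquiv.mul_apply]
  have hfin : ¬ Function.Injective f := by
    intro hinj
    have hint : IsIntegral ℚ x := ((AlgebraicClosure.isAlgebraic ℚ).isAlgebraic x).isIntegral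
    refine Set.infinite_range_of_injective hinj
      (((minpoly ℚ x).rootSet_finite ℚ̄).subset ?_)
    rintro _ ⟨k, rfl⟩
    rw [Polynomial.mem_rootSet]
    refine ⟨minpoly.ne_zero hint, ?_⟩
    rw [hf, Polynomial.aeval_algHom_apply (σ ^ k), minpoly.aeval, map_zero]
  by_contra hne
  rcases lt_or_gt_of_ne hne with h | h
  · refine hfin (StrictAnti.injective (f := fun k => A.valuation (f k)) ?_ |>.of_comp)
    refine strictAnti_nat_of_succ_lt fun k => ?_
    induction k with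
    | zero => simpa [hfs, hf] using h
    | succ k ih => rw [hfs (k + 1), hfs k] at *; exact mono' _ _ ih
  · refine hfin (StrictMono.injective (f := fun k => A.valuation (f k)) ?_ |>.of_comp)
    refine strictMono_nat_of_lt_succ fun k => ?_
    induction k with
    | zero => simpa [hfs, hf] using h
    | succ k ih => rw [hfs (k + 1), hfs k] at *; exact mono' _ _ ih

lemma inertia_mem_decomposition {σ : ℚ̄ ≃ₐ[ℚ] ℚ̄} (hσ : σ ∈ A.inertiaSubgroupIn ℚ) :
    σ ∈ A.decompositionSubgroup ℚ := by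
  obtain ⟨τ, -, rfl⟩ := hσ
  exact τ.2

/-- An inertia element moves integral elements by nonunits. -/
lemma inertia_residue {σ : ℚ̄ ≃ₐ[ℚ] ℚ̄} (hσ : σ ∈ A.inertiaSubgroupIn ℚ) (x : ℚ̄)
    (hx : A.valuation x ≤ 1) : A.valuation (σ x - x) < 1 := by
  obtain ⟨τ, hτ, rfl⟩ := hσ
  set a : A := ⟨x, (A.valuation_le_one_iff x).1 hx⟩ with ha
  have h1 : IsLocalRing.residue A (τ • a) = IsLocalRing.residue A a := by
    rw [IsLocalRing.ResidueField.residue_smul]
    exact RingEquiv.congr_fun (MonoidHom.mem_ker.1 hτ) (IsLocalRing.residue A a)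
  have h2 : τ • a - a ∈ IsLocalRing.maximalIdeal A := Ideal.Quotient.eq.1 h1
  exact (A.valuation_lt_one_iff _).1 h2

/-! ### Reduction -/

lemma intCoeffs_curveQbar : IntCoeffs A.valuation (curveQbar W) := by
  constructor <;>
    simp only [curveQbar, WeierstrassCurve.baseChange, WeierstrassCurve.map, eq_intCast,
      map_intCast] <;> exact vint_le _

lemma curveQbar_Δ : (curveQbar W).Δ = (W.Δ : ℚ̄) := by
  simp [curveQbar, WeierstrassCurve.baseChange]

lemma curveQbar_c₄ : (curveQbar W).c₄ = (W.c₄ : ℚ̄) := by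
  simp [curveQbar, WeierstrassCurve.baseChange]

lemma residue_ne_zero_iff (a : A) :
    IsLocalRing.residue A a ≠ 0 ↔ A.valuation (a : ℚ̄) = 1 := by
  rw [Ne, IsLocalRing.residue_eq_zero_iff, A.valuation_lt_one_iff]
  exact ⟨fun h => le_antisymm (A.valuation_le_one a) (not_lt.1 h), fun h => h ▸ lt_irrefl _⟩

/-- The Prelude predicate agrees with `InE0`. -/
lemma inZeroComponentAt_iff (P : ((W.map (Int.castRingHom ℚ))⁄ℚ̄).Point) :
    W.InZeroComponentAt A P ↔ InE0 A.valuation (curveQbar W) P := by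
  rcases P with _ | ⟨x, y, h⟩
  · exact iff_of_true (Or.inl rfl) trivial
  have hW := intCoeffs_curveQbar (W := W) (A := A)
  have key : ∀ (hx : x ∈ A) (hy : y ∈ A),
      (W.map (Int.castRingHom (IsLocalRing.ResidueField A))).toAffine.Nonsingular
        (IsLocalRing.residue A ⟨x, hx⟩) (IsLocalRing.residue A ⟨y, hy⟩) ↔
      (A.valuation (2 * y + (curveQbar W).a₁ * x + (curveQbar W).a₃) = 1 ∨
        A.valuation ((curveQbar W).a₁ * y -
          (3 * x ^ 2 + 2 * (curveQbar W).a₂ * x + (curveQbar W).a₄)) = 1) := by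
    intro hx hy
    set xA : A := ⟨x, hx⟩
    set yA : A := ⟨y, hy⟩
    set res := IsLocalRing.residue A with hres
    have hmap : ∀ z : ℤ, (z : IsLocalRing.ResidueField A) = res (z : A) := fun z =>
      (map_intCast res z).symm
    rw [Affine.nonsingular_iff']
    have heq : (W.map (Int.castRingHom (IsLocalRing.ResidueField A))).toAffine.Equation
        (res xA) (res yA) := by
      have h0 := (Affine.equation_iff' _ _).1 h.1
      have hA0 : yA ^ 2 + (W.a₁ : A) * xA * yA + (W.a₃ : A) * yA -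
          (xA ^ 3 + (W.a₂ : A) * xA ^ 2 + (W.a₄ : A) * xA + (W.a₆ : A)) = 0 := by
        refine Subtype.ext ?_
        push_cast
        simpa [WeierstrassCurve.baseChange, xA, yA] using h0
      rw [Affine.equation_iff']
      simp only [WeierstrassCurve.map, eq_intCast, hmap, ← map_pow, ← map_mul, ← map_add,
        ← map_sub, hA0, map_zero]
    rw [and_iff_right heq]
    set eY : A := 2 * yA + (W.a₁ : A) * xA + (W.a₃ : A) with heY
    set eX : A := (W.a₁ : A) * yA - (3 * xA ^ 2 + 2 * (W.a₂ : A) * xA + (W.a₄ : A)) with heX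
    have hY : (eY : ℚ̄) = 2 * y + (curveQbar W).a₁ * x + (curveQbar W).a₃ := by
      change A.subtype eY = _
      rw [heY]
      simp only [map_add, map_mul, map_ofNat, map_intCast]
      simp [curveQbar, WeierstrassCurve.baseChange, xA, yA]
    have hX : (eX : ℚ̄) = (curveQbar W).a₁ * y -
        (3 * x ^ 2 + 2 * (curveQbar W).a₂ * x + (curveQbar W).a₄) := by
      change A.subtype eX = _
      rw [heX]
      simp only [map_add, map_sub, map_mul, map_pow, map_ofNat, map_intCast]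
      simp [curveQbar, WeierstrassCurve.baseChange, xA, yA]
    rw [← hY, ← hX, ← residue_ne_zero_iff, ← residue_ne_zero_iff, or_comm, heY, heX]
    simp only [WeierstrassCurve.map, eq_intCast, hres, map_add, map_sub, map_mul, map_pow,
      map_ofNat, map_intCast]
  constructor
  · rintro (h0 | ⟨x', y', h', he, hor⟩)
    · exact absurd h0 (Affine.Point.some_ne_zero _)
    obtain ⟨rfl, rfl⟩ := Affine.Point.some.inj he
    rcases hor with hx | ⟨hx, hy, hns⟩
    · exact Or.inl (not_le.1 fun hle => hx ((A.valuation_le_one_iff _).1 hle))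
    · exact Or.inr ((key hx hy).1 hns)
  · intro hE
    refine Or.inr ⟨x, y, h, rfl, ?_⟩
    by_cases hx : x ∈ A
    · refine Or.inr ⟨hx, ?_⟩
      have hy := (A.valuation_le_one_iff _).1 (vy_le hW h.1 ((A.valuation_le_one_iff _).2 hx))
      refine ⟨hy, (key hx hy).2 (hE.resolve_left ?_)⟩
      exact not_lt.2 ((A.valuation_le_one_iff _).2 hx)
    · exact Or.inl hx

lemma inE1At_zero : InE1At W A 0 := trivial

lemma InE1At.inZeroComponentAt {P : ((W.map (Int.castRingHom ℚ))⁄ℚ̄).Point}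
    (h : InE1At W A P) : W.InZeroComponentAt A P :=
  (inZeroComponentAt_iff P).2 (InE1.inE0 h)

lemma InE1At.add {P R : ((W.map (Int.castRingHom ℚ))⁄ℚ̄).Point}
    (hP : InE1At W A P) (hR : InE1At W A R) : InE1At W A (P + R) :=
  InE1.add intCoeffs_curveQbar hP hR

lemma InE1At.neg {P : ((W.map (Int.castRingHom ℚ))⁄ℚ̄).Point}
    (hP : InE1At W A P) : InE1At W A (-P) :=
  InE1.neg intCoeffs_curveQbar hP

/-- A torsion point of order prime to `q` that reduces to the origin vanishes. -/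
theorem inE1_eq_zero_of_nsmul (hq : q.Prime) (hA : A.LiesOverPrime q)
    {P : ((W.map (Int.castRingHom ℚ))⁄ℚ̄).Point} (hP : InE1At W A P)
    {n : ℕ} (hn : ¬ q ∣ n) (hnP : n • P = 0) : P = 0 :=
  InE1.eq_zero_of_nsmul intCoeffs_curveQbar hP (vnat_eq_one hq hA hn) hnP

/-- Every point has nonsingular reduction at a prime of good reduction. -/
theorem inZeroComponentAt_of_good (hq : q.Prime) (hA : A.LiesOverPrime q)
    (hΔ : ¬ (q : ℤ) ∣ W.Δ) (P : ((W.map (Int.castRingHom ℚ))⁄ℚ̄).Point) :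
    W.InZeroComponentAt A P :=
  (inZeroComponentAt_iff P).2
    (inE0_of_vΔ_eq_one intCoeffs_curveQbar (by rw [curveQbar_Δ]; exact vint_eq_one hq hA hΔ) P)

/-- Inertia moves a point with nonsingular reduction by a point reducing to the origin. -/
theorem inertia_sub_inE1 {σ : ℚ̄ ≃ₐ[ℚ] ℚ̄} (hσ : σ ∈ A.inertiaSubgroupIn ℚ)
    {P : ((W.map (Int.castRingHom ℚ))⁄ℚ̄).Point} (hP : W.InZeroComponentAt A P) :
    InE1At W A (σ • P - P) := by
  rw [inZeroComponentAt_iff] at hP
  rcases P with _ | ⟨x, y, h⟩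
  · exact (trivial : InE1 A.valuation (curveQbar W) 0)
  exact inE1_endo_sub intCoeffs_curveQbar (σ := σ)
    (decomp_isometry (inertia_mem_decomposition hσ)) (inertia_residue hσ) h _ hP

lemma smul_sub_nsmul {σ : ℚ̄ ≃ₐ[ℚ] ℚ̄} {n : ℕ}
    {P : ((W.map (Int.castRingHom ℚ))⁄ℚ̄).Point} (hnP : n • P = 0) : n • (σ • P - P) = 0 := by
  rw [nsmul_sub, hnP, sub_zero, Affine.Point.algEquiv_smul_def, ← map_nsmul, hnP, map_zero]

/-- Inertia fixes torsion of order prime to `q` with nonsingular reduction. -/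
theorem inertia_smul_eq_of_inZeroComponentAt (hq : q.Prime) (hA : A.LiesOverPrime q)
    {σ : ℚ̄ ≃ₐ[ℚ] ℚ̄} (hσ : σ ∈ A.inertiaSubgroupIn ℚ)
    {P : ((W.map (Int.castRingHom ℚ))⁄ℚ̄).Point} (hP : W.InZeroComponentAt A P)
    {n : ℕ} (hn : ¬ q ∣ n) (hnP : n • P = 0) : σ • P = P := by
  exact sub_eq_zero.1
    (inE1_eq_zero_of_nsmul hq hA (inertia_sub_inE1 hσ hP) hn (smul_sub_nsmul hnP))

/-- Good reduction: inertia fixes torsion of order prime to `q`. -/
theorem inertia_smul_eq_of_good (hq : q.Prime) (hA : A.LiesOverPrime q)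
    (hΔ : ¬ (q : ℤ) ∣ W.Δ) {σ : ℚ̄ ≃ₐ[ℚ] ℚ̄} (hσ : σ ∈ A.inertiaSubgroupIn ℚ)
    {n : ℕ} (hn : ¬ q ∣ n) {P : ((W.map (Int.castRingHom ℚ))⁄ℚ̄).Point} (hnP : n • P = 0) :
    σ • P = P :=
  inertia_smul_eq_of_inZeroComponentAt hq hA hσ (inZeroComponentAt_of_good hq hA hΔ P) hn hnP

/-! ### Multiplicative reduction -/

/-- Transport of points along an equality of curves. -/
noncomputable def pointEq {L : Type*} [Field L] [DecidableEq L] {M N : WeierstrassCurve L}
    (h : M = N) : N.toAffine.Point →+ M.toAffine.Point :=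
  h ▸ AddMonoidHom.id _

lemma pointEq_some {L : Type*} [Field L] [DecidableEq L] {M N : WeierstrassCurve L} (h : M = N)
    {x y : L} (hxy : N.toAffine.Nonsingular x y) :
    pointEq h (.some x y hxy) = .some x y (h ▸ hxy) := by
  subst h; rfl

lemma pointEq_bijective {L : Type*} [Field L] [DecidableEq L] {M N : WeierstrassCurve L}
    (h : M = N) : Function.Bijective (pointEq h) := by
  subst h; exact Function.bijective_id

lemma pointEq_inE1_iff {L : Type*} [Field L] [DecidableEq L] {Γ : Type*}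
    [LinearOrderedCommGroupWithZero Γ] (v : Valuation L Γ) {M N : WeierstrassCurve L} (h : M = N)
    (P : N.toAffine.Point) : InE1 v M (pointEq h P) ↔ InE1 v N P := by
  subst h; rfl

lemma pointEq_inE0_iff {L : Type*} [Field L] [DecidableEq L] {Γ : Type*}
    [LinearOrderedCommGroupWithZero Γ] (v : Valuation L Γ) {M N : WeierstrassCurve L} (h : M = N)
    (P : N.toAffine.Point) : InE0 v M (pointEq h P) ↔ InE0 v N P := by
  subst h; rfl

/-- The comparison map from the nodal model. -/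
noncomputable def nodeMap (D : NodalData A.valuation (curveQbar W)) :
    (nodal D.a).toAffine.Point →+ ((W.map (Int.castRingHom ℚ))⁄ℚ̄).Point :=
  (pointVC D.C (curveQbar W)).comp (pointEq D.hCW)

lemma nodeMap_bijective (D : NodalData A.valuation (curveQbar W)) :
    Function.Bijective (nodeMap D) := by
  rw [nodeMap, AddMonoidHom.coe_comp]
  exact Function.Bijective.comp ⟨pointVC_injective _ _, pointVC_surjective _ _⟩ (pointEq_bijective _)

lemma nodeMap_some (D : NodalData A.valuation (curveQbar W)) {x y : ℚ̄}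
    (h : (nodal D.a).toAffine.Nonsingular x y) :
    nodeMap D (.some x y h) = .some (vcX D.C x) (vcY D.C x y)
      ((nonsingular_vc D.C (curveQbar W) x y).2 (D.hCW ▸ h)) := by
  rw [nodeMap, AddMonoidHom.comp_apply, pointEq_some, pointVC_some]

lemma nodeMap_inE1_iff (D : NodalData A.valuation (curveQbar W))
    (P : (nodal D.a).toAffine.Point) :
    InE1At W A (nodeMap D P) ↔ InE1 A.valuation (nodal D.a) P := by
  rw [InE1At, nodeMap, AddMonoidHom.comp_apply, D.hC.inE1_iff, pointEq_inE1_iff]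

lemma nodeMap_inE0_iff (D : NodalData A.valuation (curveQbar W))
    (P : (nodal D.a).toAffine.Point) :
    W.InZeroComponentAt A (nodeMap D P) ↔ InE0 A.valuation (nodal D.a) P := by
  rw [inZeroComponentAt_iff, nodeMap, AddMonoidHom.comp_apply,
    D.hC.inE0_iff intCoeffs_curveQbar, pointEq_inE0_iff]

/-- Nodal data at a prime of multiplicative reduction. -/
lemma exists_nodalData_at (hq : q.Prime) (hA : A.LiesOverPrime q) (hΔ : (q : ℤ) ∣ W.Δ)
    (hc₄ : ¬ (q : ℤ) ∣ W.c₄) : Nonempty (NodalData A.valuation (curveQbar W)) :=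
  exists_nodalData intCoeffs_curveQbar (by rw [curveQbar_c₄]; exact vint_eq_one hq hA hc₄)
    (by rw [curveQbar_Δ]; exact vint_lt_one hA hΔ)

lemma nodalData_va (D : NodalData A.valuation (curveQbar W)) :
    A.valuation D.a = A.valuation (W.Δ : ℚ̄) := by
  rw [D.va, curveQbar_Δ]

lemma nodalData_va_lt (hA : A.LiesOverPrime q) (hΔ : (q : ℤ) ∣ W.Δ)
    (D : NodalData A.valuation (curveQbar W)) : A.valuation D.a < 1 := by
  rw [nodalData_va]; exact vint_lt_one hA hΔ

lemma nodalData_a_ne (hΔ0 : W.Δ ≠ 0) (D : NodalData A.valuation (curveQbar W)) : D.a ≠ 0 :=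
  A.valuation.ne_zero_iff.1 (by
    rw [nodalData_va, A.valuation.ne_zero_iff, Int.cast_ne_zero]; exact hΔ0)

/-- An inertia element acts on the nodal model. -/
lemma exists_endo (D : NodalData A.valuation (curveQbar W)) {σ : ℚ̄ ≃ₐ[ℚ] ℚ̄}
    (hσ : σ ∈ A.inertiaSubgroupIn ℚ) :
    ∃ τ : (nodal D.a).toAffine.Point →+ (nodal D.a).toAffine.Point,
      (∀ P, nodeMap D (τ P) = σ • nodeMap D P) ∧
      (∀ (x y : ℚ̄) (h : (nodal D.a).toAffine.Nonsingular x y),
        ∃ h', τ (.some x y h) = .some (σ x) (σ y) h') ∧ σ D.a = D.a := by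
  have hWσ : (curveQbar W).map (σ : ℚ̄ →+* ℚ̄) = curveQbar W := by
    ext <;> simp [curveQbar, WeierstrassCurve.baseChange]
  obtain ⟨hu, hr, hs, ht, ha⟩ := D.fixed (σ : ℚ̄ →+* ℚ̄)
    (decomp_isometry (inertia_mem_decomposition hσ)) (inertia_residue hσ) hWσ
  have hnod : (nodal D.a).map (σ : ℚ̄ →+* ℚ̄) = nodal D.a := by
    ext <;> simp only [nodal, WeierstrassCurve.map, map_one, map_zero, ha]
  refine ⟨pointEndo _ hnod, ?_, fun x y h => ⟨_, pointEndo_some _ hnod h⟩, ha⟩
  rintro (_ | ⟨x, y, h⟩)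
  · rw [← Affine.Point.zero_def, map_zero, map_zero]; rfl
  rw [pointEndo_some, nodeMap_some, nodeMap_some]
  show _ = Affine.Point.map (σ : ℚ̄ →ₐ[ℚ] ℚ̄) _
  rw [Affine.Point.map_some, Affine.Point.some.injEq]
  simp only [RingHom.coe_coe] at hu hr hs ht
  simp only [vcX, vcY, map_add, map_mul, map_pow, AlgEquiv.coe_toAlgHom, hu, hr, hs, ht,
    RingHom.coe_coe, and_self]

lemma inZeroComponentAt_zero : W.InZeroComponentAt A 0 := Or.inl rfl

/-- At a prime of multiplicative reduction the points with nonsingular reduction form a subgroup. -/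
theorem inZeroComponentAt_add (hq : q.Prime) (hA : A.LiesOverPrime q) (hΔ0 : W.Δ ≠ 0)
    (hΔ : (q : ℤ) ∣ W.Δ) (hc₄ : ¬ (q : ℤ) ∣ W.c₄)
    {P R : ((W.map (Int.castRingHom ℚ))⁄ℚ̄).Point} (hP : W.InZeroComponentAt A P)
    (hR : W.InZeroComponentAt A R) : W.InZeroComponentAt A (P + R) := by
  obtain ⟨D⟩ := exists_nodalData_at hq hA hΔ hc₄
  obtain ⟨P, rfl⟩ := (nodeMap_bijective D).2 P
  obtain ⟨R, rfl⟩ := (nodeMap_bijective D).2 R
  rw [← map_add, nodeMap_inE0_iff] at *
  exact inE0_add_nodal (nodalData_a_ne hΔ0 D) (nodalData_va_lt hA hΔ D) hP hR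

/-- At a semistable prime the negative of a point with nonsingular reduction has nonsingular
reduction. -/
theorem inZeroComponentAt_neg {P : ((W.map (Int.castRingHom ℚ))⁄ℚ̄).Point}
    (hP : W.InZeroComponentAt A P) : W.InZeroComponentAt A (-P) := by
  rw [inZeroComponentAt_iff] at *
  rcases P with _ | ⟨x, y, h⟩
  · trivial
  rw [Affine.Point.neg_some]
  simp only [InE0, Affine.negY] at hP ⊢
  by_cases hx : 1 < A.valuation x
  · exact Or.inl hx
  have hW := intCoeffs_curveQbar (W := W) (A := A)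
  push Not at hx
  have hy := vy_le hW h.1 hx
  set E := curveQbar W with hE
  set FY := 2 * y + E.a₁ * x + E.a₃ with hFY
  rw [show 2 * (-y - E.a₁ * x - E.a₃) + E.a₁ * x + E.a₃ = -FY by rw [hFY]; ring,
    Valuation.map_neg]
  rcases hP with h' | h' | h'
  · exact absurd h' (not_lt.2 hx)
  · exact Or.inr (Or.inl h')
  · by_cases hF : A.valuation FY = 1
    · exact Or.inr (Or.inl hF)
    have hFlt : A.valuation FY < 1 := lt_of_le_of_ne
      (A.valuation.map_add_le (A.valuation.map_add_le (vmul_le_left (vofNat_le _ 2) hy)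
        (vmul_le_left hW.a₁ hx)) hW.a₃) hF
    refine Or.inr (Or.inr ?_)
    set FX := E.a₁ * y - (3 * x ^ 2 + 2 * E.a₂ * x + E.a₄) with hFX
    rw [show E.a₁ * (-y - E.a₁ * x - E.a₃) - (3 * x ^ 2 + 2 * E.a₂ * x + E.a₄) =
      FX - E.a₁ * FY by rw [hFY, hFX]; ring,
      A.valuation.map_sub_eq_of_lt_left (by rw [h']; exact vmul_lt_right hW.a₁ hFlt), h']

lemma phi_endo {a : ℚ̄} {σ : ℚ̄ → ℚ̄} (hiso : ∀ z, A.valuation (σ z) = A.valuation z)
    (hadd : ∀ z w, σ (z + w) = σ z + σ w) {x y : ℚ̄}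
    {h : (nodal a).toAffine.Nonsingular x y}
    {h' : (nodal a).toAffine.Nonsingular (σ x) (σ y)} :
    phi A.valuation a (.some (σ x) (σ y) h') = phi A.valuation a (.some x y h) := by
  simp only [phi, ← hadd, hiso]

/-- Inertia moves every point by a point with nonsingular reduction. -/
theorem inertia_sub_inZeroComponentAt (hq : q.Prime) (hA : A.LiesOverPrime q) (hΔ0 : W.Δ ≠ 0)
    (hΔ : (q : ℤ) ∣ W.Δ) (hc₄ : ¬ (q : ℤ) ∣ W.c₄)
    {σ : ℚ̄ ≃ₐ[ℚ] ℚ̄} (hσ : σ ∈ A.inertiaSubgroupIn ℚ)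
    (P : ((W.map (Int.castRingHom ℚ))⁄ℚ̄).Point) : W.InZeroComponentAt A (σ • P - P) := by
  obtain ⟨D⟩ := exists_nodalData_at hq hA hΔ hc₄
  obtain ⟨τ, hτ, hτs, -⟩ := exists_endo D hσ
  obtain ⟨P, rfl⟩ := (nodeMap_bijective D).2 P
  rw [← hτ, ← map_sub, nodeMap_inE0_iff]
  refine inE0_sub_of_phi_eq (nodalData_a_ne hΔ0 D) (nodalData_va_lt hA hΔ D) ?_
  rcases P with _ | ⟨x, y, h⟩
  · rw [← Affine.Point.zero_def, map_zero]
  obtain ⟨h', he⟩ := hτs x y h
  rw [he]
  exact phi_endo (decomp_isometry (inertia_mem_decomposition hσ)) (map_add σ)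

/-- Inertia is unipotent on torsion of order prime to `q`. -/
theorem inertia_unipotent (hq : q.Prime) (hA : A.LiesOverPrime q) (hΔ0 : W.Δ ≠ 0)
    (hΔ : (q : ℤ) ∣ W.Δ) (hc₄ : ¬ (q : ℤ) ∣ W.c₄)
    {σ : ℚ̄ ≃ₐ[ℚ] ℚ̄} (hσ : σ ∈ A.inertiaSubgroupIn ℚ) {n : ℕ} (hn : ¬ q ∣ n)
    {P : ((W.map (Int.castRingHom ℚ))⁄ℚ̄).Point} (hnP : n • P = 0) :
    σ • (σ • P - P) = σ • P - P := by
  exact inertia_smul_eq_of_inZeroComponentAt hq hA hσ
    (inertia_sub_inZeroComponentAt hq hA hΔ0 hΔ hc₄ hσ P) hn (smul_sub_nsmul hnP)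

/-- If `n` is odd, prime to `q` and divides `ord_q Δ`, inertia fixes the `n`-torsion. -/
theorem inertia_smul_eq_of_dvd (hq : q.Prime) (hA : A.LiesOverPrime q) (hΔ0 : W.Δ ≠ 0)
    (hΔ : (q : ℤ) ∣ W.Δ) (hc₄ : ¬ (q : ℤ) ∣ W.c₄)
    {σ : ℚ̄ ≃ₐ[ℚ] ℚ̄} (hσ : σ ∈ A.inertiaSubgroupIn ℚ) {n : ℕ} (hodd : Odd n) (hn : ¬ q ∣ n)
    (hdvd : n ∣ padicValInt q W.Δ)
    {P : ((W.map (Int.castRingHom ℚ))⁄ℚ̄).Point} (hnP : n • P = 0) : σ • P = P := by
  have := Fact.mk hq
  obtain ⟨D⟩ := exists_nodalData_at hq hA hΔ hc₄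
  obtain ⟨τ, hτ, hτs, hσa⟩ := exists_endo D hσ
  obtain ⟨P, rfl⟩ := (nodeMap_bijective D).2 P
  have ha0 := nodalData_a_ne hΔ0 D
  have ha := nodalData_va_lt hA hΔ D
  have hn0 : n ≠ 0 := hodd.pos.ne'
  obtain ⟨m, hm⟩ := hdvd
  have hvq := vq_lt_one hA
  have hvq0 : 0 < A.valuation (q : ℚ̄) := vq_pos hq
  have hva : A.valuation D.a = (A.valuation (q : ℚ̄) ^ m) ^ n := by
    rw [nodalData_va, vint_eq_pow hq hA hΔ0, hm, ← pow_mul, mul_comm n m]
  by_cases hN : InNode A.valuation D.a P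
  swap
  · exact inertia_smul_eq_of_inZeroComponentAt hq hA hσ
      ((nodeMap_inE0_iff D P).2 ((inE0_iff_not_inNode ha P).2 hN)) hn hnP
  have key : ∀ Q : (nodal D.a).toAffine.Point, n • nodeMap D Q = 0 → InNode A.valuation D.a Q →
      ∀ j : ℕ, 2 * j < n → phi A.valuation D.a Q ^ n = A.valuation D.a ^ j → τ Q = Q := by
    intro Q hQn hQN j hj hphi
    have hφ : phi A.valuation D.a Q = (A.valuation (q : ℚ̄) ^ m) ^ j := by
      refine (pow_left_inj₀ zero_le zero_le hn0).1 ?_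
      rw [hphi, hva, ← pow_mul, ← pow_mul, ← pow_mul, ← pow_mul]
      congr 1; ring
    have hb := phi_bounds ha0 ha hQN
    rw [hφ] at hb
    set c : ℚ̄ := ((q : ℚ̄) ^ m) ^ j with hc
    have hvc : A.valuation c = (A.valuation (q : ℚ̄) ^ m) ^ j := by rw [hc, map_pow, map_pow]
    have hm0 : m ≠ 0 := by
      rintro rfl
      rw [pow_zero, one_pow] at hva
      exact ha.ne hva
    obtain ⟨y, hy, hleft, hfix⟩ := exists_left_point (v := A.valuation) ha0 ha (c := c)
      (by rw [hvc]; exact hb.2) (by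
        rw [hvc, hva, ← pow_mul _ j 2]
        exact pow_lt_pow_right_of_lt_one₀ (pow_pos hvq0 m)
          (pow_lt_one₀ zero_le hvq hm0) (by omega))
    set R := Affine.Point.some c y hy with hR
    have hσc : σ c = c := by simp [hc]
    have hσy : σ y = y :=
      hfix (σ : ℚ̄ →+* ℚ̄) (decomp_isometry (inertia_mem_decomposition hσ)) hσa hσc
    have hτR : τ R = R := by
      obtain ⟨h', he⟩ := hτs c y hy
      rw [hR, he]
      simp only [Affine.Point.some.injEq]
      exact ⟨hσc, hσy⟩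
    have hE0 : InE0 A.valuation (nodal D.a) (Q - R) :=
      inE0_sub_of_phi_eq ha0 ha (by rw [(phi_left hleft).2, hφ, hvc])
    have h1 := inertia_sub_inE1 hσ ((nodeMap_inE0_iff D _).2 hE0)
    rw [← hτ, map_sub τ, hτR, ← map_sub, sub_sub_sub_cancel_right] at h1
    have h2 := inE1_eq_zero_of_nsmul hq hA h1 hn (by
      rw [map_sub, hτ]; exact smul_sub_nsmul hQn)
    rw [← map_zero (nodeMap D)] at h2
    exact sub_eq_zero.1 ((nodeMap_bijective D).1 h2)
  have hP0 : InE0 A.valuation (nodal D.a) (n • P) := by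
    rw [← nodeMap_inE0_iff D, map_nsmul, hnP]; exact inZeroComponentAt_zero
  obtain ⟨j, hj0, hjn, hphi⟩ := exists_phi_pow ha0 ha hN hn0 hP0
  rw [← hτ]
  congr 1
  rcases lt_trichotomy (2 * j) n with h | h | h
  · exact key P hnP hN j h hphi
  · exact absurd hodd (Nat.not_odd_iff_even.2 ⟨j, by omega⟩)
  · have := key (-P) (by rw [map_neg, neg_nsmul, hnP, neg_zero]) (inNode_neg.2 hN) (n - j)
      (by omega) (by
        have e := congrArg (· ^ n) (phi_neg ha0 ha hN)
        simp only [mul_pow, hphi] at e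
        refine mul_left_cancel₀ (pow_ne_zero j (A.valuation.ne_zero_iff.2 ha0)) (e.trans ?_)
        rw [← pow_add]; congr 1; omega)
    rw [map_neg, neg_inj] at this
    exact this

/-- A point fixed by the Galois group has rational coordinates. -/
lemma exists_rat_of_fixed {x : ℚ̄} (hx : ∀ σ : ℚ̄ ≃ₐ[ℚ] ℚ̄, σ x = x) :
    ∃ r : ℚ, (r : ℚ̄) = x := by
  have hcl : IsAlgClosure ℚ ℚ̄ := ⟨inferInstance, AlgebraicClosure.isAlgebraic ℚ⟩
  have : IsGalois ℚ ℚ̄ := IsAlgClosure.isGalois ℚ ℚ̄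
  obtain ⟨r, hr⟩ := IntermediateField.mem_bot.1 ((InfiniteGalois.mem_bot_iff_fixed x).2 hx)
  exact ⟨r, by simpa using hr⟩

end Fermat.Agent.MultRed
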