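import Mathlib.AlgebraicGeometry.EllipticCurve.Affine.Point
import Mathlib.RingTheory.Valuation.Basic
import Mathlib.Tactic

/-!
# Integral Weierstrass curves over a valued field

The subgroup of points reducing to the origin, the points reducing to nonsingular points, and the
reduction lemma.
-/

set_option autoImplicit false

namespace Fermat.Agent.MultRed

open WeierstrassCurve

variable {L : Type*} [Field L] {Γ₀ : Type*} [LinearOrderedCommGroupWithZero Γ₀]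
  (v : Valuation L Γ₀) (W : WeierstrassCurve L)

/-- The coefficients of `W` are integral for `v`. -/
structure IntCoeffs : Prop where
  a₁ : v W.a₁ ≤ 1
  a₂ : v W.a₂ ≤ 1
  a₃ : v W.a₃ ≤ 1
  a₄ : v W.a₄ ≤ 1
  a₆ : v W.a₆ ≤ 1

/-- The point reduces to the origin. -/
def InE1 : W.toAffine.Point → Prop
  | .zero => True
  | .some x _ _ => 1 < v x

/-- The point reduces to a nonsingular point. -/
def InE0 : W.toAffine.Point → Prop
  | .zero => True
  | .some x y _ => 1 < v x ∨ v (2 * y + W.a₁ * x + W.a₃) = 1 ∨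
      v (W.a₁ * y - (3 * x ^ 2 + 2 * W.a₂ * x + W.a₄)) = 1

/-- The parameter `x / y` at the origin. -/
def zPar : W.toAffine.Point → L
  | .zero => 0
  | .some x y _ => x / y

variable {v W}

lemma inE1_zero : InE1 v W 0 := trivial

lemma inE0_zero : InE0 v W 0 := trivial

lemma zPar_zero : zPar W (0 : W.toAffine.Point) = 0 := rfl

lemma InE1.inE0 {P : W.toAffine.Point} (h : InE1 v W P) : InE0 v W P := by
  rcases P with _ | ⟨x, y, hP⟩
  · trivial
  · exact Or.inl h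

lemma vmul_le {a b : L} {γ δ : Γ₀} (ha : v a ≤ γ) (hb : v b ≤ δ) : v (a * b) ≤ γ * δ := by
  rw [map_mul]; exact mul_le_mul' ha hb

lemma vnatCast_le (v : Valuation L Γ₀) (n : ℕ) : v (n : L) ≤ 1 := by
  induction n with
  | zero => simp
  | succ n ih => rw [Nat.cast_succ]; exact v.map_add_le ih (map_one v).le

lemma vofNat_le (v : Valuation L Γ₀) (n : ℕ) [n.AtLeastTwo] : v (OfNat.ofNat n : L) ≤ 1 :=
  vnatCast_le v n

lemma vmul_le_left {a b : L} {γ : Γ₀} (ha : v a ≤ γ) (hb : v b ≤ 1) : v (a * b) ≤ γ := by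
  simpa using vmul_le ha hb

lemma vmul_le_right {a b : L} {γ : Γ₀} (ha : v a ≤ 1) (hb : v b ≤ γ) : v (a * b) ≤ γ := by
  simpa using vmul_le ha hb

lemma vmul_lt_left {a b : L} {γ : Γ₀} (ha : v a < γ) (hb : v b ≤ 1) : v (a * b) < γ :=
  lt_of_le_of_lt (vmul_le_left le_rfl hb) ha

lemma vmul_lt_right {a b : L} {γ : Γ₀} (ha : v a ≤ 1) (hb : v b < γ) : v (a * b) < γ := by
  rw [mul_comm]; exact vmul_lt_left hb ha

lemma vpow_le {a : L} (n : ℕ) (ha : v a ≤ 1) : v (a ^ n) ≤ 1 := by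
  rw [map_pow]; exact pow_le_one₀ zero_le ha

variable (hW : IntCoeffs v W)

include hW

lemma vb₂_le : v W.b₂ ≤ 1 :=
  v.map_add_le (vpow_le 2 hW.a₁) (vmul_le_left (vofNat_le v 4) hW.a₂)

lemma vb₄_le : v W.b₄ ≤ 1 :=
  v.map_add_le (vmul_le_left (vofNat_le v 2) hW.a₄) (vmul_le_left hW.a₁ hW.a₃)

lemma vb₆_le : v W.b₆ ≤ 1 :=
  v.map_add_le (vpow_le 2 hW.a₃) (vmul_le_left (vofNat_le v 4) hW.a₆)

/-- An affine point with integral `x` has integral `y`. -/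
lemma vy_le {x y : L} (h : W.toAffine.Equation x y) (hx : v x ≤ 1) : v y ≤ 1 := by
  rw [Affine.equation_iff] at h
  by_contra hc
  push Not at hc
  have hR : v (x ^ 3 + W.a₂ * x ^ 2 + W.a₄ * x + W.a₆) ≤ 1 :=
    v.map_add_le (v.map_add_le (v.map_add_le (vpow_le 3 hx) (vmul_le_left hW.a₂ (vpow_le 2 hx)))
      (vmul_le_left hW.a₄ hx)) hW.a₆
  have hB : v (W.a₁ * x * y + W.a₃ * y) < v (y ^ 2) := by
    refine lt_of_le_of_lt (b := v y) (v.map_add_le ?_ ?_) ?_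
    · exact vmul_le_right (vmul_le_left hW.a₁ hx) le_rfl
    · exact vmul_le_right hW.a₃ le_rfl
    · rw [map_pow, pow_two]
      exact lt_mul_of_one_lt_left (lt_trans zero_lt_one hc) hc
  rw [← h, add_assoc, v.map_add_eq_of_lt_left hB, map_pow] at hR
  exact absurd hR (not_le.2 (one_lt_pow₀ hc two_ne_zero))

/-- The size of `y` when `x` is not integral. -/
lemma vy_sq_eq {x y : L} (h : W.toAffine.Equation x y) (hx : 1 < v x) :
    v y ^ 2 = v x ^ 3 ∧ v x < v y := by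
  rw [Affine.equation_iff] at h
  have hx0 : (0 : Γ₀) < v x := lt_trans zero_lt_one hx
  have h23 : v x ^ 2 < v x ^ 3 := pow_lt_pow_right₀ hx (by norm_num)
  have hR : v (x ^ 3 + W.a₂ * x ^ 2 + W.a₄ * x + W.a₆) = v x ^ 3 := by
    rw [← map_pow, add_assoc, add_assoc]
    refine v.map_add_eq_of_lt_left (lt_of_le_of_lt (b := v x ^ 2) (v.map_add_le ?_
      (v.map_add_le ?_ ?_)) (by rwa [map_pow]))
    · exact vmul_le_right hW.a₂ (map_pow v x 2).le
    · exact (vmul_le_right hW.a₄ le_rfl).trans (le_self_pow₀ hx.le two_ne_zero)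
    · exact hW.a₆.trans (one_le_pow₀ hx.le)
  have hyx : v x < v y := by
    by_contra hc
    push Not at hc
    have hle : v (x ^ 3 + W.a₂ * x ^ 2 + W.a₄ * x + W.a₆) ≤ v x ^ 2 := by
      rw [← h]
      refine v.map_add_le (v.map_add_le ?_ ?_) ?_
      · rw [map_pow]; exact pow_le_pow_left₀ zero_le hc 2
      · rw [pow_two]; exact vmul_le (vmul_le_right hW.a₁ le_rfl) hc
      · exact (vmul_le_right hW.a₃ hc).trans (le_self_pow₀ hx.le two_ne_zero)
    rw [hR] at hle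
    exact absurd hle (not_le.2 h23)
  refine ⟨?_, hyx⟩
  have hy1 : 1 < v y := hx.trans hyx
  have hy0 : (0 : Γ₀) < v y := lt_trans zero_lt_one hy1
  rw [← hR, ← h, add_assoc, v.map_add_eq_of_lt_left, map_pow]
  refine lt_of_le_of_lt (b := max (v x * v y) (v y)) (v.map_add_le ?_ ?_) (max_lt ?_ ?_)
  · exact le_max_of_le_left (vmul_le (vmul_le_right hW.a₁ le_rfl) le_rfl)
  · exact le_max_of_le_right (vmul_le_right hW.a₃ le_rfl)
  · rw [map_pow, pow_two]; exact mul_lt_mul_of_pos_right hyx hy0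
  · rw [map_pow, pow_two]; exact lt_mul_of_one_lt_left hy0 hy1

/-- Basic estimates at a point reducing to the origin. -/
lemma e1_facts {x y : L} (h : W.toAffine.Equation x y) (hx : 1 < v x) :
    x ≠ 0 ∧ y ≠ 0 ∧ v (x / y) < 1 ∧ x / y ≠ 0 ∧ v y⁻¹ = v (x / y) ^ 3 := by
  obtain ⟨h2, hlt⟩ := vy_sq_eq hW h hx
  have hx0 : x ≠ 0 := fun h0 => by
    rw [h0, map_zero] at hx; exact not_lt_of_ge zero_le hx
  have hy0 : y ≠ 0 := fun h0 => by
    rw [h0, map_zero] at hlt; exact not_lt_of_ge zero_le hlt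
  have vy0 : v y ≠ 0 := v.ne_zero_iff.2 hy0
  refine ⟨hx0, hy0, ?_, div_ne_zero hx0 hy0, ?_⟩
  · rw [map_div₀, div_lt_one₀ (lt_of_le_of_ne zero_le (Ne.symm vy0))]
    exact hlt
  · rw [map_inv₀, map_div₀, div_pow, eq_div_iff (pow_ne_zero 3 vy0), ← h2]
    field_simp

/-- An integral point on a curve with unit discriminant reduces to a nonsingular point. -/
lemma inE0_of_vΔ_eq_one (hΔ : v W.Δ = 1) (P : W.toAffine.Point) : InE0 v W P := by
  rcases P with _ | ⟨x, y, h⟩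
  · trivial
  by_cases hx1 : 1 < v x
  · exact Or.inl hx1
  push Not at hx1
  by_contra hc
  simp only [InE0, not_or] at hc
  obtain ⟨-, hY, hX⟩ := hc
  have hy1 := vy_le hW h.1 hx1
  have h2 : v (2 : L) ≤ 1 := vofNat_le v 2
  have h3 : v (3 : L) ≤ 1 := vofNat_le v 3
  have h4 : v (4 : L) ≤ 1 := vofNat_le v 4
  have hYle : v (2 * y + W.a₁ * x + W.a₃) < 1 := lt_of_le_of_ne
    (v.map_add_le (v.map_add_le (vmul_le_left h2 hy1) (vmul_le_left hW.a₁ hx1)) hW.a₃) hY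
  have hXle : v (W.a₁ * y - (3 * x ^ 2 + 2 * W.a₂ * x + W.a₄)) < 1 := lt_of_le_of_ne
    (v.map_sub_le (vmul_le_left hW.a₁ hy1) (v.map_add_le (v.map_add_le
      (vmul_le_left h3 (vpow_le 2 hx1)) (vmul_le_left (vmul_le_left h2 hW.a₂) hx1)) hW.a₄)) hX
  -- translate the point to the origin
  set C : VariableChange L := ⟨1, x, 0, y⟩
  have hΔ' : v (C • W).Δ = 1 := by simpa [C, variableChange_Δ] using hΔ
  have ha1 : v (C • W).a₁ ≤ 1 := by simpa [C, variableChange_def] using hW.a₁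
  have ha2 : v (C • W).a₂ ≤ 1 := by
    simpa [C, variableChange_def] using v.map_add_le hW.a₂ (vmul_le_left h3 hx1)
  have ha3 : v (C • W).a₃ < 1 := by
    have : (C • W).a₃ = 2 * y + W.a₁ * x + W.a₃ := by simp [C, variableChange_def]; ring
    rwa [this]
  have ha4 : v (C • W).a₄ < 1 := by
    have : (C • W).a₄ = -(W.a₁ * y - (3 * x ^ 2 + 2 * W.a₂ * x + W.a₄)) := by
      simp [C, variableChange_def]; ring
    rwa [this, Valuation.map_neg]
  have ha6 : v (C • W).a₆ < 1 := by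
    have : (C • W).a₆ = 0 := by
      have he := h.1
      rw [Affine.equation_iff_variableChange, Affine.equation_zero] at he
      exact he
    rw [this, map_zero]; exact zero_lt_one
  have hb2 : v (C • W).b₂ ≤ 1 := v.map_add_le (vpow_le 2 ha1) (vmul_le_left h4 ha2)
  have hb4 : v (C • W).b₄ < 1 :=
    v.map_add_lt (vmul_lt_right h2 ha4) (vmul_lt_right ha1 ha3)
  have hb6 : v (C • W).b₆ < 1 :=
    v.map_add_lt (by rw [map_pow]; exact pow_lt_one₀ zero_le ha3 two_ne_zero)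
      (vmul_lt_right h4 ha6)
  have hb8 : v (C • W).b₈ < 1 :=
    v.map_sub_lt (v.map_add_lt (v.map_sub_lt (v.map_add_lt
      (vmul_lt_right (vpow_le 2 ha1) ha6) (vmul_lt_right (vmul_le_left h4 ha2) ha6))
      (vmul_lt_right (vmul_le_left ha1 ha3.le) ha4))
      (vmul_lt_right ha2 (by rw [map_pow]; exact pow_lt_one₀ zero_le ha3 two_ne_zero)))
      (by rw [map_pow]; exact pow_lt_one₀ zero_le ha4 two_ne_zero)
  have : v (C • W).Δ < 1 := by
    unfold WeierstrassCurve.Δ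
    refine v.map_add_lt (v.map_sub_lt (v.map_sub_lt ?_ ?_) ?_) ?_
    · rw [neg_mul, Valuation.map_neg]; exact vmul_lt_right (vpow_le 2 hb2) hb8
    · exact vmul_lt_right (vofNat_le v 8) (by rw [map_pow]; exact pow_lt_one₀ zero_le hb4 (by norm_num))
    · exact vmul_lt_right (vofNat_le v 27) (by rw [map_pow]; exact pow_lt_one₀ zero_le hb6 (by norm_num))
    · exact vmul_lt_right (vmul_le_left (vmul_le_left (vofNat_le v 9) hb2) hb4.le) hb6
  exact this.ne hΔ'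

/-- Negation preserves the points reducing to the origin and negates the parameter to first
order. -/
lemma inE1_neg {P : W.toAffine.Point} (hP : InE1 v W P) :
    InE1 v W (-P) ∧ v (zPar W (-P)) = v (zPar W P) ∧
      v (zPar W (-P) + zPar W P) ≤ v (zPar W P) ^ 2 := by
  rcases P with _ | ⟨x, y, h⟩
  · exact ⟨trivial, rfl, by simp [Affine.Point.neg_def, Affine.Point.neg, zPar]⟩
  obtain ⟨hx0, hy0, hz, -, hw⟩ := e1_facts hW h.1 hP
  rw [Affine.Point.neg_some]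
  set z := x / y with hzdef
  have hcsmall : v (W.a₁ * z + W.a₃ * y⁻¹) ≤ v z := by
    refine v.map_add_le (vmul_le_right hW.a₁ le_rfl) ?_
    refine (vmul_le_right hW.a₃ le_rfl).trans ?_
    rw [hw]
    exact pow_le_of_le_one zero_le hz.le (by norm_num)
  set c := W.a₁ * z + W.a₃ * y⁻¹ with hc
  have hu : v (1 + c) = 1 := v.map_one_add_of_lt (lt_of_le_of_lt hcsmall hz)
  have hu0 : 1 + c ≠ 0 := v.ne_zero_iff.1 (by rw [hu]; exact one_ne_zero)
  have hneg : x / W.toAffine.negY x y = -z / (1 + c) := by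
    have : W.toAffine.negY x y = -y * (1 + c) := by
      simp only [hc, hzdef, Affine.negY]; field_simp; ring
    rw [this, hzdef]
    field_simp
  refine ⟨hP, ?_, ?_⟩
  · simp only [zPar]
    rw [hneg, map_div₀, hu, div_one, Valuation.map_neg]
  · simp only [zPar]
    rw [hneg]
    have : -z / (1 + c) + z = z * c / (1 + c) := by field_simp; ring
    rw [this, map_div₀, hu, div_one, pow_two]
    exact vmul_le le_rfl hcsmall

omit hW

variable [DecidableEq L]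

/-- The first coordinate of the third intersection point and the three Vieta relations. -/
lemma vieta {x₁ x₂ y₁ y₂ : L} (h₁ : W.toAffine.Equation x₁ y₁) (h₂ : W.toAffine.Equation x₂ y₂)
    (hxy : ¬(x₁ = x₂ ∧ y₁ = W.toAffine.negY x₂ y₂)) :
    ∃ sl ν x₃ : L, sl = W.toAffine.slope x₁ x₂ y₁ y₂ ∧ x₃ = W.toAffine.addX x₁ x₂ sl ∧
      W.toAffine.Equation x₃ (sl * x₃ + ν) ∧
      W.toAffine.addY x₁ x₂ y₁ sl = W.toAffine.negY x₃ (sl * x₃ + ν) ∧
      y₁ = sl * x₁ + ν ∧ y₂ = sl * x₂ + ν ∧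
      x₁ + x₂ + x₃ = sl ^ 2 + W.a₁ * sl - W.a₂ ∧
      x₁ * x₂ + x₁ * x₃ + x₂ * x₃ = W.a₄ - 2 * sl * ν - W.a₁ * ν - W.a₃ * sl ∧
      x₁ * x₂ * x₃ = ν ^ 2 + W.a₃ * ν - W.a₆ := by
  have hf := Affine.addPolynomial_slope h₁ h₂ hxy
  rw [Affine.addPolynomial_eq, neg_inj, Cubic.prod_X_sub_C_eq, Cubic.toPoly_injective] at hf
  have hB := congrArg Cubic.b hf
  have hC := congrArg Cubic.c hf
  have hDd := congrArg Cubic.d hf
  simp only at hB hC hDd
  set sl := W.toAffine.slope x₁ x₂ y₁ y₂ with hsl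
  obtain ⟨ν, hν⟩ : ∃ ν, y₁ = sl * x₁ + ν := ⟨y₁ - sl * x₁, by ring⟩
  refine ⟨sl, ν, W.toAffine.addX x₁ x₂ sl, rfl, rfl, ?_, ?_, hν, ?_, ?_, ?_, ?_⟩
  · convert Affine.equation_negAdd h₁ h₂ hxy using 1
    simp only [Affine.negAddY, ← hsl]
    rw [hν]; ring
  · simp only [Affine.addY, Affine.negAddY]
    congr 1
    rw [hν]; ring
  · by_cases hx : x₁ = x₂
    · rw [← Affine.Y_eq_of_Y_ne h₁ h₂ hx fun h => hxy ⟨hx, h⟩, hν, hx]
    · have h' : sl * (x₁ - x₂) = sl * x₁ + ν - y₂ := by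
        rw [← hν]
        conv_lhs => rw [hsl, Affine.slope_of_X_ne hx, div_mul_cancel₀ _ (sub_ne_zero.2 hx)]
      linear_combination h'
  · linear_combination hB
  · rw [hν] at hC; linear_combination -hC
  · rw [hν] at hDd; linear_combination hDd

/-- The line through two points in the chart at infinity. -/
lemma line_at_infinity {x₁ x₂ y₁ y₂ sl ν D N : L}
    (h₁ : W.toAffine.Equation x₁ y₁) (h₂ : W.toAffine.Equation x₂ y₂)
    (hy1 : y₁ ≠ 0) (hy2 : y₂ ≠ 0) (hxy : ¬(x₁ = x₂ ∧ y₁ = W.toAffine.negY x₂ y₂))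
    (hsl : sl = W.toAffine.slope x₁ x₂ y₁ y₂) (hν : y₁ = sl * x₁ + ν)
    (hD : D = 1 + W.a₁ * (x₁ / y₁) + W.a₃ * (y₁⁻¹ + y₂⁻¹) - W.a₂ * (x₁ / y₁) ^ 2 -
      W.a₄ * (x₁ / y₁) * (y₁⁻¹ + y₂⁻¹) - W.a₆ * (y₁⁻¹ ^ 2 + y₁⁻¹ * y₂⁻¹ + y₂⁻¹ ^ 2))
    (hN : N = (x₁ / y₁) ^ 2 + (x₁ / y₁) * (x₂ / y₂) + (x₂ / y₂) ^ 2 +
      W.a₂ * (x₁ / y₁ + x₂ / y₂) * y₂⁻¹ + W.a₄ * y₂⁻¹ ^ 2 - W.a₁ * y₂⁻¹)
    (hD0 : D ≠ 0) {l m : L} (hl : l = N / D) (hm : m = y₁⁻¹ - l * (x₁ / y₁)) :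
    ν * m = 1 ∧ sl * m = -l := by
  rw [Affine.equation_iff] at h₁ h₂
  have hline1 : 1 = l * x₁ + m * y₁ := by
    rw [hm]; field_simp; ring
  have hkey : sl * m = -l := by
    by_cases hx : x₁ = x₂
    · have hy : y₁ ≠ W.toAffine.negY x₂ y₂ := fun h => hxy ⟨hx, h⟩
      obtain rfl := Affine.Y_eq_of_Y_ne ((Affine.equation_iff _ _).2 h₁)
        ((Affine.equation_iff _ _).2 h₂) hx hy
      subst hx
      have hFY : 2 * y₁ + W.a₁ * x₁ + W.a₃ ≠ 0 := by
        intro h0; refine hy ?_; simp only [Affine.negY]; linear_combination h0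
      have hmD : m * D * y₁ ^ 2 = -(2 * y₁ + W.a₁ * x₁ + W.a₃) := by
        have hmD' : m * D = y₁⁻¹ * D - x₁ / y₁ * N := by
          rw [hm, hl]; field_simp
        rw [hmD', hD, hN]
        field_simp
        linear_combination 3 * h₁
      have hNy : N * y₁ ^ 2 = -(W.a₁ * y₁ - (3 * x₁ ^ 2 + 2 * W.a₂ * x₁ + W.a₄)) := by
        rw [hN]; field_simp; ring
      have hsl' : sl * (2 * y₁ + W.a₁ * x₁ + W.a₃) = N * y₁ ^ 2 := by
        rw [hNy, hsl, Affine.slope_of_Y_ne_eq_evalEval rfl hy, Affine.evalEval_polynomialX,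
          Affine.evalEval_polynomialY]
        exact div_mul_cancel₀ _ hFY
      have hNl : N = l * D := by rw [hl, div_mul_cancel₀ _ hD0]
      apply mul_right_cancel₀ (mul_ne_zero hD0 (pow_ne_zero 2 hy1))
      linear_combination sl * hmD - hsl' - y₁ ^ 2 * hNl
    · have hchord : (y₁⁻¹ - y₂⁻¹) * D = (x₁ / y₁ - x₂ / y₂) * N := by
        rw [hD, hN]
        field_simp
        linear_combination y₂ ^ 3 * h₁ - y₁ ^ 3 * h₂
      have hline2 : 1 = l * x₂ + m * y₂ := by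
        have hm2 : m = y₂⁻¹ - l * (x₂ / y₂) := by
          have hll : y₁⁻¹ - y₂⁻¹ = (x₁ / y₁ - x₂ / y₂) * l := by
            rw [hl, mul_div, eq_div_iff hD0]; exact hchord
          linear_combination hm + hll
        rw [hm2]; field_simp; ring
      rw [hsl, Affine.slope_of_X_ne hx, div_mul_eq_mul_div, div_eq_iff (sub_ne_zero.2 hx)]
      linear_combination hline2 - hline1
  refine ⟨?_, hkey⟩
  rw [hν] at hline1
  linear_combination -x₁ * hkey - hline1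

/-- The points reducing to the origin are closed under addition and the parameter is additive
to first order. -/
lemma inE1_add (hW : IntCoeffs v W) {P R : W.toAffine.Point} (hP : InE1 v W P)
    (hR : InE1 v W R) {r : Γ₀}
    (hr : r < 1) (hzP : v (zPar W P) ≤ r) (hzR : v (zPar W R) ≤ r) :
    InE1 v W (P + R) ∧ v (zPar W (P + R)) ≤ r ∧
      v (zPar W (P + R) - zPar W P - zPar W R) ≤ r ^ 2 := by
  rcases P with _ | ⟨x₁, y₁, h₁⟩
  · rw [← Affine.Point.zero_def, zero_add]; exact ⟨hR, hzR, by simp [zPar_zero]⟩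
  rcases R with _ | ⟨x₂, y₂, h₂⟩
  · rw [← Affine.Point.zero_def, add_zero]; exact ⟨hP, hzP, by simp [zPar_zero]⟩
  by_cases hxy : x₁ = x₂ ∧ y₁ = W.toAffine.negY x₂ y₂
  · have hsum := Affine.Point.add_of_Y_eq (h₁ := h₁) (h₂ := h₂) hxy.1 hxy.2
    rw [hsum]
    refine ⟨trivial, by simp [zPar_zero], ?_⟩
    have hopp : (Affine.Point.some x₁ y₁ h₁) = -(Affine.Point.some x₂ y₂ h₂) :=
      eq_neg_of_add_eq_zero_left hsum
    obtain ⟨-, -, h3⟩ := inE1_neg hW hR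
    rw [zPar_zero, zero_sub, hopp, ← Valuation.map_neg, neg_sub, sub_neg_eq_add, add_comm]
    exact h3.trans (pow_le_pow_left₀ zero_le hzR 2)
  rw [Affine.Point.add_some hxy]
  obtain ⟨hx10, hy10, hz1, hz10, hw1⟩ := e1_facts hW h₁.1 hP
  obtain ⟨hx20, hy20, hz2, hz20, hw2⟩ := e1_facts hW h₂.1 hR
  simp only [zPar] at hzP hzR ⊢
  obtain ⟨sl, ν, x₃, hsl, hx3, he₃, hadd, hY1, hY2, hS1, hS2, hS3⟩ := vieta h₁.1 h₂.1 hxy
  obtain ⟨D, hD⟩ : ∃ D, D = 1 + W.a₁ * (x₁ / y₁) + W.a₃ * (y₁⁻¹ + y₂⁻¹) -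
      W.a₂ * (x₁ / y₁) ^ 2 - W.a₄ * (x₁ / y₁) * (y₁⁻¹ + y₂⁻¹) -
      W.a₆ * (y₁⁻¹ ^ 2 + y₁⁻¹ * y₂⁻¹ + y₂⁻¹ ^ 2) := ⟨_, rfl⟩
  obtain ⟨N, hN⟩ : ∃ N, N = (x₁ / y₁) ^ 2 + (x₁ / y₁) * (x₂ / y₂) + (x₂ / y₂) ^ 2 +
      W.a₂ * (x₁ / y₁ + x₂ / y₂) * y₂⁻¹ + W.a₄ * y₂⁻¹ ^ 2 - W.a₁ * y₂⁻¹ := ⟨_, rfl⟩
  have hr1 : r ≤ 1 := hr.le
  have hr2 : r ^ 2 ≤ r := pow_le_of_le_one zero_le hr1 two_ne_zero
  have hr3 : r ^ 3 ≤ r ^ 2 := pow_le_pow_right_of_le_one' hr1 (by norm_num)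
  have hw1r : v y₁⁻¹ ≤ r ^ 2 := hw1 ▸ (pow_le_pow_left₀ zero_le hzP 3).trans hr3
  have hw2r : v y₂⁻¹ ≤ r ^ 2 := hw2 ▸ (pow_le_pow_left₀ zero_le hzR 3).trans hr3
  have hw1r' : v y₁⁻¹ ≤ r := hw1r.trans hr2
  have hw2r' : v y₂⁻¹ ≤ r := hw2r.trans hr2
  have hz1' : v (x₁ / y₁) ≤ 1 := hzP.trans hr1
  have hsq : ∀ a : L, v a ≤ r → v (a ^ 2) ≤ r := fun a ha => by
    rw [map_pow]; exact (pow_le_pow_left₀ zero_le ha 2).trans hr2
  have hDu : v D = 1 := by
    have hw12 : v (y₁⁻¹ + y₂⁻¹) ≤ r := v.map_add_le hw1r' hw2r'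
    have hDs : v (D - 1) ≤ r := by
      rw [hD, show ∀ a b c e f : L, 1 + a + b - c - e - f - 1 = a + b - c - e - f by
        intros; ring]
      refine v.map_sub_le (v.map_sub_le (v.map_sub_le (v.map_add_le ?_ ?_) ?_) ?_) ?_
      · exact vmul_le_right hW.a₁ hzP
      · exact vmul_le_right hW.a₃ hw12
      · exact vmul_le_right hW.a₂ (hsq _ hzP)
      · exact vmul_le_right (vmul_le_left hW.a₄ hz1') hw12
      · exact vmul_le_right hW.a₆ (v.map_add_le (v.map_add_le (hsq _ hw1r')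
          (vmul_le_left hw1r' (hw2r'.trans hr1))) (hsq _ hw2r'))
    have := v.map_one_add_of_lt (lt_of_le_of_lt hDs hr)
    rwa [add_sub_cancel] at this
  have hD0 : D ≠ 0 := v.ne_zero_iff.1 (by rw [hDu]; exact one_ne_zero)
  have hNs : v N ≤ r ^ 2 := by
    rw [hN]
    refine v.map_sub_le (v.map_add_le (v.map_add_le (v.map_add_le (v.map_add_le ?_ ?_) ?_) ?_) ?_) ?_
    · rw [map_pow]; exact pow_le_pow_left₀ zero_le hzP 2
    · rw [pow_two]; exact vmul_le hzP hzR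
    · rw [map_pow]; exact pow_le_pow_left₀ zero_le hzR 2
    · exact vmul_le_right (vmul_le_left hW.a₂ (v.map_add_le hz1' (hzR.trans hr1))) hw2r
    · refine vmul_le_right hW.a₄ ?_
      rw [show y₂⁻¹ ^ 2 = y₂⁻¹ * y₂⁻¹ from pow_two _]
      exact vmul_le_left hw2r (hw2r'.trans hr1)
    · exact vmul_le_right hW.a₁ hw2r
  obtain ⟨l, hl⟩ : ∃ l, l = N / D := ⟨_, rfl⟩
  obtain ⟨m, hm⟩ : ∃ m, m = y₁⁻¹ - l * (x₁ / y₁) := ⟨_, rfl⟩
  have hls : v l ≤ r ^ 2 := by rw [hl, map_div₀, hDu, div_one]; exact hNs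
  have hls' : v l ≤ r := hls.trans hr2
  have hl1 : v l < 1 := lt_of_le_of_lt hls' hr
  have hms : v m ≤ r ^ 2 := by rw [hm]; exact v.map_sub_le hw1r (vmul_le_left hls hz1')
  obtain ⟨hνm, hslm⟩ :=
    line_at_infinity h₁.1 h₂.1 hy10 hy20 hxy hsl hY1 hD hN hD0 hl hm
  obtain ⟨y₃, hY3⟩ : ∃ y₃, y₃ = sl * x₃ + ν := ⟨_, rfl⟩
  rw [← hY3] at he₃ hadd
  have hline3 : 1 = l * x₃ + m * y₃ := by
    rw [hY3]; linear_combination -x₃ * hslm - hνm
  have hx31 : 1 < v x₃ := by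
    by_contra hc
    push Not at hc
    have hy31 := vy_le hW he₃ hc
    have : v (1 : L) < 1 := by
      rw [hline3]
      exact v.map_add_lt (vmul_lt_left hl1 hc)
        (vmul_lt_left (lt_of_le_of_lt (hms.trans hr2) hr) hy31)
    rw [map_one] at this
    exact lt_irrefl _ this
  obtain ⟨-, hy30, hz3, -, -⟩ := e1_facts hW he₃ hx31
  obtain ⟨U, hU⟩ : ∃ U, U = 1 + W.a₂ * l + W.a₄ * l ^ 2 + W.a₆ * l ^ 3 := ⟨_, rfl⟩
  obtain ⟨V, hV⟩ : ∃ V, V = W.a₃ * l ^ 2 - 3 * W.a₆ * l ^ 2 * m - 2 * W.a₄ * l * m + W.a₁ * l -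
      W.a₂ * m := ⟨_, rfl⟩
  have hUu : v U = 1 := by
    rw [hU, add_assoc, add_assoc]
    exact v.map_one_add_of_lt (v.map_add_lt (vmul_lt_right hW.a₂ hl1) (v.map_add_lt
      (vmul_lt_right hW.a₄ (by rw [map_pow]; exact pow_lt_one₀ zero_le hl1 two_ne_zero))
      (vmul_lt_right hW.a₆ (by rw [map_pow]; exact pow_lt_one₀ zero_le hl1 (by norm_num)))))
  have hVs : v V ≤ r ^ 2 := by
    have h2 : v (2 : L) ≤ 1 := vofNat_le v 2
    have h3 : v (3 : L) ≤ 1 := vofNat_le v 3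
    rw [hV]
    refine v.map_sub_le (v.map_add_le (v.map_sub_le (v.map_sub_le ?_ ?_) ?_) ?_) ?_
    · exact vmul_le_right hW.a₃ (by rw [show l ^ 2 = l * l from pow_two l]; exact vmul_le_left hls hl1.le)
    · exact vmul_le_right (vmul_le_left (vmul_le_left h3 hW.a₆) (vpow_le 2 hl1.le)) hms
    · exact vmul_le_right (vmul_le_left (vmul_le_left h2 hW.a₄) hl1.le) hms
    · exact vmul_le_right hW.a₁ hls
    · exact vmul_le_right hW.a₂ hms
  have hprod : y₁ * y₂ * y₃ * m ^ 3 = U := by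
    have e : y₁ * y₂ * y₃ =
        ν ^ 3 - W.a₂ * sl * ν ^ 2 + W.a₄ * sl ^ 2 * ν - W.a₆ * sl ^ 3 := by
      rw [hY1, hY2, hY3]
      linear_combination sl * ν ^ 2 * hS1 + sl ^ 2 * ν * hS2 + sl ^ 3 * hS3
    calc y₁ * y₂ * y₃ * m ^ 3
        = (ν * m) ^ 3 - W.a₂ * (sl * m) * (ν * m) ^ 2 + W.a₄ * (sl * m) ^ 2 * (ν * m) -
            W.a₆ * (sl * m) ^ 3 := by rw [e]; ring
      _ = U := by rw [hνm, hslm, hU]; ring
  have hsum3 : (x₁ * y₂ * y₃ + x₂ * y₁ * y₃ + x₃ * y₁ * y₂) * m ^ 3 = V := by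
    have e : x₁ * y₂ * y₃ + x₂ * y₁ * y₃ + x₃ * y₁ * y₂ =
        W.a₃ * sl ^ 2 * ν - 3 * W.a₆ * sl ^ 2 + 2 * W.a₄ * sl * ν - W.a₁ * sl * ν ^ 2 -
          W.a₂ * ν ^ 2 := by
      rw [hY1, hY2, hY3]
      linear_combination ν ^ 2 * hS1 + 2 * sl * ν * hS2 + 3 * sl ^ 2 * hS3
    calc (x₁ * y₂ * y₃ + x₂ * y₁ * y₃ + x₃ * y₁ * y₂) * m ^ 3
        = W.a₃ * (sl * m) ^ 2 * (ν * m) - 3 * W.a₆ * (sl * m) ^ 2 * m +
            2 * W.a₄ * (sl * m) * (ν * m) * m - W.a₁ * (sl * m) * (ν * m) ^ 2 -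
            W.a₂ * (ν * m) ^ 2 * m := by rw [e]; ring
      _ = V := by rw [hνm, hslm, hV]; ring
  have hz123 : x₁ / y₁ + x₂ / y₂ + x₃ / y₃ = V / U := by
    have hm0 : m ≠ 0 := right_ne_zero_of_mul_eq_one hνm
    rw [← hprod, ← hsum3]
    field_simp
  have hVU : v (V / U) ≤ r ^ 2 := by rw [map_div₀, hUu, div_one]; exact hVs
  have hz3r : v (x₃ / y₃) ≤ r := by
    have : x₃ / y₃ = V / U - x₁ / y₁ - x₂ / y₂ := by linear_combination hz123
    rw [this]
    exact v.map_sub_le (v.map_sub_le (hVU.trans hr2) hzP) hzR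
  have h₃ : W.toAffine.Nonsingular x₃ y₃ := by
    have := Affine.nonsingular_negAdd h₁ h₂ hxy
    rw [← hsl, ← hx3] at this
    convert this using 1
    rw [hY3, Affine.negAddY, ← hx3, hY1]; ring
  obtain ⟨hneg1, hneg2, hneg3⟩ :=
    inE1_neg (P := Affine.Point.some x₃ y₃ h₃) hW hx31
  rw [Affine.Point.neg_some] at hneg1 hneg2 hneg3
  simp only [zPar] at hneg2 hneg3
  simp only [← hsl, hadd, ← hx3]
  refine ⟨hneg1, hneg2.le.trans hz3r, ?_⟩
  rw [show x₃ / W.toAffine.negY x₃ y₃ - x₁ / y₁ - x₂ / y₂ =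
    (x₃ / W.toAffine.negY x₃ y₃ + x₃ / y₃) - V / U by linear_combination -hz123]
  exact v.map_sub_le (hneg3.trans (pow_le_pow_left₀ zero_le hz3r 2)) hVU

/-- Multiples of a point reducing to the origin: the parameter is linear to first order. -/
lemma inE1_nsmul (hW : IntCoeffs v W) {P : W.toAffine.Point} (hP : InE1 v W P)
    (hz : v (zPar W P) < 1) (n : ℕ) :
    InE1 v W (n • P) ∧ v (zPar W (n • P)) ≤ v (zPar W P) ∧
      v (zPar W (n • P) - (n : L) * zPar W P) ≤ v (zPar W P) ^ 2 := by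
  induction n with
  | zero => simp [zPar_zero, inE1_zero]
  | succ n ih =>
    obtain ⟨h1, h2, h3⟩ := ih
    obtain ⟨k1, k2, k3⟩ := inE1_add hW h1 hP hz h2 le_rfl
    rw [succ_nsmul]
    refine ⟨k1, k2, ?_⟩
    rw [show zPar W (n • P + P) - ((n + 1 : ℕ) : L) * zPar W P =
      (zPar W (n • P + P) - zPar W (n • P) - zPar W P) +
        (zPar W (n • P) - (n : L) * zPar W P) by push_cast; ring]
    exact v.map_add_le k3 h3

omit [DecidableEq L] in
lemma zPar_facts (hW : IntCoeffs v W) {P : W.toAffine.Point} (hP : InE1 v W P) :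
    v (zPar W P) < 1 ∧ (P ≠ 0 → zPar W P ≠ 0) := by
  rcases P with _ | ⟨x, y, h⟩
  · exact ⟨by simp [zPar], fun h => absurd rfl h⟩
  · obtain ⟨-, -, h1, h2, -⟩ := e1_facts hW h.1 hP
    exact ⟨h1, fun _ => h2⟩

lemma InE1.add (hW : IntCoeffs v W) {P R : W.toAffine.Point} (hP : InE1 v W P)
    (hR : InE1 v W R) : InE1 v W (P + R) :=
  (inE1_add hW hP hR (max_lt (zPar_facts hW hP).1 (zPar_facts hW hR).1) (le_max_left _ _)
    (le_max_right _ _)).1

omit [DecidableEq L] in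
lemma InE1.neg (hW : IntCoeffs v W) {P : W.toAffine.Point} (hP : InE1 v W P) :
    InE1 v W (-P) :=
  (inE1_neg hW hP).1

lemma InE1.sub (hW : IntCoeffs v W) {P R : W.toAffine.Point} (hP : InE1 v W P)
    (hR : InE1 v W R) : InE1 v W (P - R) :=
  sub_eq_add_neg P R ▸ hP.add hW (hR.neg hW)

lemma InE1.nsmul (hW : IntCoeffs v W) {P : W.toAffine.Point} (hP : InE1 v W P) (n : ℕ) :
    InE1 v W (n • P) :=
  (inE1_nsmul hW hP (zPar_facts hW hP).1 n).1

/-- No torsion prime to the residue characteristic reduces to the origin. -/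
lemma InE1.eq_zero_of_nsmul (hW : IntCoeffs v W) {P : W.toAffine.Point} (hP : InE1 v W P)
    {n : ℕ} (hn : v (n : L) = 1) (hnP : n • P = 0) : P = 0 := by
  by_contra h0
  obtain ⟨hz, hz0⟩ := zPar_facts hW hP
  have h := (inE1_nsmul hW hP hz n).2.2
  rw [hnP, zPar_zero, zero_sub, Valuation.map_neg, map_mul, hn, one_mul] at h
  have hpos : 0 < v (zPar W P) := lt_of_le_of_ne zero_le (v.ne_zero_iff.2 (hz0 h0)).symm
  rw [pow_two] at h
  exact absurd h (not_le.2 (mul_lt_of_lt_one_left hpos hz))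

/-- Two points with the same nonsingular reduction differ by a point reducing to the origin. -/
lemma inE1_sub_of_near (hW : IntCoeffs v W) {x₁ y₁ x₂ y₂ : L}
    {h₁ : W.toAffine.Nonsingular x₁ y₁} {h₂ : W.toAffine.Nonsingular x₂ y₂} (hx₁ : v x₁ ≤ 1)
    (hP : InE0 v W (.some x₁ y₁ h₁)) (hx : v (x₁ - x₂) < 1) (hy : v (y₁ - y₂) < 1) :
    InE1 v W (.some x₁ y₁ h₁ - .some x₂ y₂ h₂) := by
  have hx₂ : v x₂ ≤ 1 := by
    rw [show x₂ = x₁ - (x₁ - x₂) by ring]; exact v.map_sub_le hx₁ hx.le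
  have hy₁ := vy_le hW h₁.1 hx₁
  have hy₂ := vy_le hW h₂.1 hx₂
  rw [sub_eq_add_neg, Affine.Point.neg_some]
  obtain ⟨y', hy'⟩ : ∃ y', y' = W.toAffine.negY x₂ y₂ := ⟨_, rfl⟩
  simp only [← hy']
  have h₂' : W.toAffine.Nonsingular x₂ y' := hy' ▸ (Affine.nonsingular_neg x₂ y₂).2 h₂
  have hy₂' := vy_le hW h₂'.1 hx₂
  by_cases hxy : x₁ = x₂ ∧ y₁ = W.toAffine.negY x₂ y'
  · rw [Affine.Point.add_of_Y_eq hxy.1 hxy.2]; trivial
  rw [Affine.Point.add_some hxy]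
  obtain ⟨sl, hsl⟩ : ∃ sl, sl = W.toAffine.slope x₁ x₂ y₁ y' := ⟨_, rfl⟩
  have he₁ := (Affine.equation_iff _ _).1 h₁.1
  have he₂ := (Affine.equation_iff _ _).1 h₂'.1
  set den := y₁ + y' + W.a₁ * x₁ + W.a₃ with hden
  set num := x₁ ^ 2 + x₁ * x₂ + x₂ ^ 2 + W.a₂ * (x₁ + x₂) + W.a₄ - W.a₁ * y' with hnum
  set FY := 2 * y₁ + W.a₁ * x₁ + W.a₃ with hFY
  have hden_lt : v den < 1 := by
    rw [hden, hy', Affine.negY, show y₁ + (-y₂ - W.toAffine.a₁ * x₂ - W.toAffine.a₃) +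
      W.a₁ * x₁ + W.a₃ = (y₁ - y₂) + W.a₁ * (x₁ - x₂) by ring]
    exact v.map_add_lt hy (vmul_lt_right hW.a₁ hx)
  have hslden : sl * den = num := by
    by_cases hxe : x₁ = x₂
    · have hyne : y₁ ≠ W.toAffine.negY x₂ y' := fun h => hxy ⟨hxe, h⟩
      have hye := Affine.Y_eq_of_Y_ne h₁.1 h₂'.1 hxe hyne
      rw [hsl, Affine.slope_of_Y_ne hxe hyne, hden, hnum, ← hye, ← hxe]
      have hne : y₁ - W.toAffine.negY x₁ y₁ ≠ 0 := by
        rw [← hxe, ← hye] at hyne; exact sub_ne_zero.2 hyne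
      rw [div_mul_eq_mul_div, div_eq_iff hne]
      simp only [Affine.negY]; ring
    · rw [hsl, Affine.slope_of_X_ne hxe, div_mul_eq_mul_div, div_eq_iff (sub_ne_zero.2 hxe),
        hden, hnum]
      linear_combination he₁ - he₂
  have hsl_big : 1 < v sl := by
    have hP' : v FY = 1 ∨ v (W.a₁ * y₁ - (3 * x₁ ^ 2 + 2 * W.a₂ * x₁ + W.a₄)) = 1 :=
      hP.resolve_left (not_lt.2 hx₁)
    by_cases hF : v FY = 1
    · have hd : v (y₁ - y') = 1 := by
        rw [show y₁ - y' = FY - den by rw [hFY, hden]; ring]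
        rw [v.map_sub_eq_of_lt_left (by rw [hF]; exact hden_lt), hF]
      by_cases hxe : x₁ = x₂
      · have hye := Affine.Y_eq_of_Y_ne h₁.1 h₂'.1 hxe fun h => hxy ⟨hxe, h⟩
        rw [hye, sub_self, map_zero] at hd
        exact absurd hd zero_ne_one
      · have hpos : 0 < v (x₁ - x₂) :=
          lt_of_le_of_ne zero_le (v.ne_zero_iff.2 (sub_ne_zero.2 hxe)).symm
        rw [hsl, Affine.slope_of_X_ne hxe, map_div₀, hd, one_lt_div₀ hpos]
        exact hx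
    · have hFlt : v FY < 1 := lt_of_le_of_ne
        (v.map_add_le (v.map_add_le (vmul_le_left (vofNat_le v 2) hy₁)
          (vmul_le_left hW.a₁ hx₁)) hW.a₃) hF
      have hX := hP'.resolve_left hF
      have hn : v num = 1 := by
        have hsmall : v (num + (W.a₁ * y₁ - (3 * x₁ ^ 2 + 2 * W.a₂ * x₁ + W.a₄))) < 1 := by
          rw [hnum, show x₁ ^ 2 + x₁ * x₂ + x₂ ^ 2 + W.a₂ * (x₁ + x₂) + W.a₄ - W.a₁ * y' +
              (W.a₁ * y₁ - (3 * x₁ ^ 2 + 2 * W.a₂ * x₁ + W.a₄)) =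
            W.a₁ * (y₁ - y') - (x₁ - x₂) * (2 * x₁ + x₂ + W.a₂) by ring]
          refine v.map_sub_lt (vmul_lt_right hW.a₁ ?_) (vmul_lt_left hx ?_)
          · rw [show y₁ - y' = FY - den by rw [hFY, hden]; ring]
            exact v.map_sub_lt hFlt hden_lt
          · exact v.map_add_le (v.map_add_le (vmul_le_left (vofNat_le v 2) hx₁) hx₂) hW.a₂
        set FX := W.a₁ * y₁ - (3 * x₁ ^ 2 + 2 * W.a₂ * x₁ + W.a₄) with hFX
        rw [show num = -FX + (num + FX) by ring,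
          v.map_add_eq_of_lt_left (by rw [Valuation.map_neg, hX]; exact hsmall),
          Valuation.map_neg, hX]
      by_contra hc
      push Not at hc
      have : v num < 1 := hslden ▸ vmul_lt_right hc hden_lt
      exact this.ne hn
  simp only [InE1, ← hsl, Affine.addX]
  have hsq : v sl < v (sl ^ 2) := by
    rw [map_pow, pow_two]
    exact lt_mul_of_one_lt_left (lt_trans zero_lt_one hsl_big) hsl_big
  have hrest : v (W.a₁ * sl - W.a₂ - x₁ - x₂) < v (sl ^ 2) := by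
    refine lt_of_le_of_lt (v.map_sub_le (v.map_sub_le (v.map_sub_le ?_ ?_) ?_) ?_) hsq
    · exact vmul_le_right hW.a₁ le_rfl
    · exact hW.a₂.trans hsl_big.le
    · exact hx₁.trans hsl_big.le
    · exact hx₂.trans hsl_big.le
  rw [show sl ^ 2 + W.toAffine.a₁ * sl - W.toAffine.a₂ - x₁ - x₂ =
    sl ^ 2 + (W.a₁ * sl - W.a₂ - x₁ - x₂) by ring, v.map_add_eq_of_lt_left hrest]
  exact lt_trans hsl_big hsq

/-- A field endomorphism that preserves the valuation and is trivial on the residue field moves a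
point with nonsingular reduction by a point reducing to the origin. -/
lemma inE1_endo_sub (hW : IntCoeffs v W) {σ : L → L} (hiso : ∀ a, v (σ a) = v a)
    (hres : ∀ a, v a ≤ 1 → v (σ a - a) < 1) {x y : L} (h : W.toAffine.Nonsingular x y)
    (h' : W.toAffine.Nonsingular (σ x) (σ y)) (hP : InE0 v W (.some x y h)) :
    InE1 v W (.some (σ x) (σ y) h' - .some x y h) := by
  by_cases hx : 1 < v x
  · exact InE1.sub hW (show 1 < v (σ x) by rwa [hiso]) hx
  · push Not at hx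
    have hxn : v (x - σ x) < 1 := by rw [v.map_sub_swap]; exact hres x hx
    have hyn : v (y - σ y) < 1 := by rw [v.map_sub_swap]; exact hres y (vy_le hW h.1 hx)
    have := (inE1_sub_of_near hW (h₂ := h') hx hP hxn hyn).neg hW
    rwa [neg_sub] at this

end Fermat.Agent.MultRed
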