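import Mathlib.AlgebraicGeometry.EllipticCurve.Affine.Point
import Mathlib.Tactic

/-!
# Transport of points

Point maps induced by a change of variables and by a field endomorphism fixing the coefficients.
-/

set_option autoImplicit false

namespace Fermat.Agent.MultRed

open WeierstrassCurve

variable {L : Type*} [Field L] (C : VariableChange L) (W : WeierstrassCurve L)

/-- Old `x`-coordinate in terms of the new one. -/
def vcX (x : L) : L := (C.u : L) ^ 2 * x + C.r

/-- Old `y`-coordinate in terms of the new ones. -/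
def vcY (x y : L) : L := (C.u : L) ^ 3 * y + (C.u : L) ^ 2 * C.s * x + C.t

lemma polyX_vc (x y : L) :
    W.toAffine.polynomialX.evalEval (vcX C x) (vcY C x y) =
      (C.u : L) ^ 4 * (C • W).toAffine.polynomialX.evalEval x y -
        C.s * (C.u : L) ^ 3 * (C • W).toAffine.polynomialY.evalEval x y := by
  simp only [Affine.evalEval_polynomialX, Affine.evalEval_polynomialY, variableChange_def, vcX, vcY,
    Units.val_inv_eq_inv_val]
  field_simp
  ring

lemma polyY_vc (x y : L) :
    W.toAffine.polynomialY.evalEval (vcX C x) (vcY C x y) =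
      (C.u : L) ^ 3 * (C • W).toAffine.polynomialY.evalEval x y := by
  simp only [Affine.evalEval_polynomialY, variableChange_def, vcX, vcY,
    Units.val_inv_eq_inv_val]
  field_simp
  ring

lemma equation_vc (x y : L) :
    W.toAffine.Equation (vcX C x) (vcY C x y) ↔ (C • W).toAffine.Equation x y := by
  have h : W.toAffine.polynomial.evalEval (vcX C x) (vcY C x y) =
      (C.u : L) ^ 6 * (C • W).toAffine.polynomial.evalEval x y := by
    simp only [Affine.evalEval_polynomial, variableChange_def, vcX, vcY,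
      Units.val_inv_eq_inv_val]
    field_simp
    ring
  simp only [Affine.Equation, h, mul_eq_zero, pow_eq_zero_iff, Units.ne_zero, false_or,
    ne_eq, OfNat.ofNat_ne_zero, not_false_eq_true]

lemma nonsingular_vc (x y : L) :
    W.toAffine.Nonsingular (vcX C x) (vcY C x y) ↔ (C • W).toAffine.Nonsingular x y := by
  unfold Affine.Nonsingular
  rw [equation_vc, polyX_vc, polyY_vc]
  have hu : (C.u : L) ≠ 0 := C.u.ne_zero
  refine and_congr_right fun _ => ?_
  constructor
  · intro h
    by_contra hc
    push Not at hc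
    simp [hc.1, hc.2] at h
  · intro h
    by_contra hc
    push Not at hc
    have hY : (C • W).toAffine.polynomialY.evalEval x y = 0 := by
      simpa [hu] using hc.2
    have hX : (C • W).toAffine.polynomialX.evalEval x y = 0 := by
      simpa [hu, hY] using hc.1
    simp [hX, hY] at h

lemma negY_vc (x y : L) :
    W.toAffine.negY (vcX C x) (vcY C x y) = vcY C x ((C • W).toAffine.negY x y) := by
  simp only [Affine.negY, variableChange_def, vcX, vcY, Units.val_inv_eq_inv_val]
  field_simp
  ring

lemma vcX_injective : Function.Injective (vcX C) := fun a b h => by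
  simpa [vcX] using h

lemma vcY_injective (x : L) : Function.Injective (vcY C x) := fun a b h => by
  simpa [vcY] using h

variable [DecidableEq L]

lemma slope_vc {x₁ x₂ y₁ y₂ : L}
    (hxy : ¬(x₁ = x₂ ∧ y₁ = (C • W).toAffine.negY x₂ y₂))
    (h₁ : (C • W).toAffine.Equation x₁ y₁) (h₂ : (C • W).toAffine.Equation x₂ y₂) :
    W.toAffine.slope (vcX C x₁) (vcX C x₂) (vcY C x₁ y₁) (vcY C x₂ y₂) =
      (C.u : L) * (C • W).toAffine.slope x₁ x₂ y₁ y₂ + C.s := by
  have hu : (C.u : L) ≠ 0 := C.u.ne_zero
  by_cases hx : x₁ = x₂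
  · subst hx
    have hy : y₁ ≠ (C • W).toAffine.negY x₁ y₂ := fun h => hxy ⟨rfl, h⟩
    obtain rfl := Affine.Y_eq_of_Y_ne h₁ h₂ rfl hy
    have hy' : vcY C x₁ y₁ ≠ W.toAffine.negY (vcX C x₁) (vcY C x₁ y₁) := by
      rw [negY_vc]; exact fun h => hy (vcY_injective C x₁ h)
    rw [Affine.slope_of_Y_ne_eq_evalEval rfl hy, Affine.slope_of_Y_ne_eq_evalEval rfl hy',
      polyX_vc, polyY_vc]
    have hY : (C • W).toAffine.polynomialY.evalEval x₁ y₁ ≠ 0 := by
      rw [Affine.evalEval_polynomialY]
      intro h0
      refine hy ?_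
      simp only [Affine.negY]
      linear_combination h0
    field_simp
    ring
  · have hx' : vcX C x₁ ≠ vcX C x₂ := fun h => hx (vcX_injective C h)
    rw [Affine.slope_of_X_ne hx, Affine.slope_of_X_ne hx']
    have hd : x₁ - x₂ ≠ 0 := sub_ne_zero.2 hx
    have hd' : vcX C x₁ - vcX C x₂ ≠ 0 := sub_ne_zero.2 hx'
    rw [div_eq_iff hd']
    simp only [vcX, vcY]
    field_simp
    ring

/-- Underlying function of `pointVC`. -/
def pointVCFun : (C • W).toAffine.Point → W.toAffine.Point
  | .zero => 0
  | .some x y h => .some (vcX C x) (vcY C x y) ((nonsingular_vc C W x y).2 h)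

/-- The isomorphism of point groups attached to a change of variables. -/
noncomputable def pointVC : (C • W).toAffine.Point →+ W.toAffine.Point where
  toFun := pointVCFun C W
  map_zero' := rfl
  map_add' := by
    rintro (_ | ⟨x₁, y₁, h₁⟩) (_ | ⟨x₂, y₂, h₂⟩)
    any_goals rfl
    by_cases hxy : x₁ = x₂ ∧ y₁ = (C • W).toAffine.negY x₂ y₂
    · rw [Affine.Point.add_of_Y_eq hxy.1 hxy.2]
      simp only [pointVCFun]
      rw [Affine.Point.add_of_Y_eq (congrArg (vcX C) hxy.1) (by rw [negY_vc, hxy.1, hxy.2])]
    · have hxy' : ¬(vcX C x₁ = vcX C x₂ ∧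
          vcY C x₁ y₁ = W.toAffine.negY (vcX C x₂) (vcY C x₂ y₂)) := by
        rintro ⟨hX, hY⟩
        have hx := vcX_injective C hX
        rw [negY_vc, ← hx] at hY
        exact hxy ⟨hx, by have := vcY_injective C x₁ hY; rw [hx] at this; exact this⟩
      rw [Affine.Point.add_some hxy]
      simp only [pointVCFun]
      rw [Affine.Point.add_some hxy']
      simp only [Affine.Point.some.injEq]
      rw [slope_vc C W hxy h₁.1 h₂.1]
      simp only [Affine.addX, Affine.addY, Affine.negAddY, Affine.negY, variableChange_def, vcX,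
        vcY, Units.val_inv_eq_inv_val]
      constructor <;> (field_simp; ring)

lemma pointVC_some {x y : L} (h : (C • W).toAffine.Nonsingular x y) :
    pointVC C W (.some x y h) = .some (vcX C x) (vcY C x y) ((nonsingular_vc C W x y).2 h) := rfl

lemma pointVC_injective : Function.Injective (pointVC C W) := by
  rintro (_ | ⟨x₁, y₁, h₁⟩) (_ | ⟨x₂, y₂, h₂⟩) h
  · rfl
  · exact absurd h.symm (Affine.Point.some_ne_zero _)
  · exact absurd h (Affine.Point.some_ne_zero _)
  · rw [pointVC_some, pointVC_some, Affine.Point.some.injEq] at h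
    have hx := vcX_injective C h.1
    subst hx
    simp only [Affine.Point.some.injEq, true_and]
    exact vcY_injective C x₁ h.2

lemma pointVC_surjective : Function.Surjective (pointVC C W) := by
  rintro (_ | ⟨X, Y, h⟩)
  · exact ⟨0, rfl⟩
  · have hu : (C.u : L) ≠ 0 := C.u.ne_zero
    obtain ⟨x, rfl⟩ : ∃ x, vcX C x = X := ⟨(X - C.r) / (C.u : L) ^ 2, by
      simp only [vcX]; field_simp; ring⟩
    obtain ⟨y, rfl⟩ : ∃ y, vcY C x y = Y :=
      ⟨(Y - (C.u : L) ^ 2 * C.s * x - C.t) / (C.u : L) ^ 3, by
        simp only [vcY]; field_simp; ring⟩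
    exact ⟨.some x y ((nonsingular_vc C W x y).1 h), rfl⟩

variable {W}

section Endo

variable (σ : L →+* L) (hσ : W.map σ = W)

include hσ in
omit [DecidableEq L] in
lemma nonsingular_endo {x y : L} (h : W.toAffine.Nonsingular x y) :
    W.toAffine.Nonsingular (σ x) (σ y) := by
  have hσA : W.toAffine.map σ = W.toAffine := hσ
  have := (Affine.map_nonsingular (W := W.toAffine) σ.injective x y).2 h
  rwa [hσA] at this

/-- Underlying function of `pointEndo`. -/
def pointEndoFun : W.toAffine.Point → W.toAffine.Point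
  | .zero => 0
  | .some x y h => .some (σ x) (σ y) (nonsingular_endo σ hσ h)

/-- The point map of a field endomorphism fixing the coefficients. -/
noncomputable def pointEndo : W.toAffine.Point →+ W.toAffine.Point where
  toFun := pointEndoFun σ hσ
  map_zero' := rfl
  map_add' := by
    rintro (_ | ⟨x₁, y₁, h₁⟩) (_ | ⟨x₂, y₂, h₂⟩)
    any_goals rfl
    have hσA : W.toAffine.map σ = W.toAffine := hσ
    have hneg : ∀ x y, W.toAffine.negY (σ x) (σ y) = σ (W.toAffine.negY x y) := fun x y => by
      have := Affine.map_negY (W' := W.toAffine) σ x y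
      rwa [hσA] at this
    by_cases hxy : x₁ = x₂ ∧ y₁ = W.toAffine.negY x₂ y₂
    · rw [Affine.Point.add_of_Y_eq hxy.1 hxy.2]
      simp only [pointEndoFun]
      rw [Affine.Point.add_of_Y_eq (congrArg σ hxy.1) (by rw [hneg, hxy.2])]
    · have hxy' : ¬(σ x₁ = σ x₂ ∧ σ y₁ = W.toAffine.negY (σ x₂) (σ y₂)) := by
        rintro ⟨hX, hY⟩
        rw [hneg] at hY
        exact hxy ⟨σ.injective hX, σ.injective hY⟩
      rw [Affine.Point.add_some hxy]
      simp only [pointEndoFun]
      rw [Affine.Point.add_some hxy']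
      simp only [Affine.Point.some.injEq]
      have hsl := Affine.map_slope (W := W.toAffine) σ x₁ x₂ y₁ y₂
      have hX := Affine.map_addX (W' := W.toAffine) σ x₁ x₂ (W.toAffine.slope x₁ x₂ y₁ y₂)
      have hY := Affine.map_addY (W' := W.toAffine) σ x₁ y₁ x₂ (W.toAffine.slope x₁ x₂ y₁ y₂)
      rw [hσA] at hsl hX hY
      rw [hsl]
      exact ⟨hX.symm, hY.symm⟩

lemma pointEndo_some {x y : L} (h : W.toAffine.Nonsingular x y) :
    pointEndo σ hσ (.some x y h) = .some (σ x) (σ y) (nonsingular_endo σ hσ h) := rfl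

end Endo

end Fermat.Agent.MultRed
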